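import Fermat.Agent.Arith.Frobenius
import Fermat.Agent.Arith.ValueGroup

/-!
# The rational valued valuation of `ℚ̄` at a place over `q`

`ordAt` is normalised to be `1` at `q`.
-/

set_option autoImplicit false

noncomputable section

namespace Fermat.Agent.Mazur.Eisenstein

open Fermat.Agent.Arith
open scoped Pointwise

variable {A : ValuationSubring QBar} {q : ℕ}

/-- `x` is a unit at `A`. -/
def IsUnitAt (A : ValuationSubring QBar) (x : QBar) : Prop := A.valuation x = 1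

theorem isUnitAt_iff {x : QBar} (hx : x ≠ 0) : IsUnitAt A x ↔ x ∈ A ∧ x⁻¹ ∈ A := by
  rw [IsUnitAt, ← A.valuation_le_one_iff, ← A.valuation_le_one_iff, map_inv₀,
    inv_le_one₀ (zero_lt_iff.mpr (by simpa using hx))]
  exact ⟨fun h => ⟨h.le, h.ge⟩, fun h => le_antisymm h.1 h.2⟩

theorem isUnitAt_of_pow {x : QBar} {n : ℕ} (hn : n ≠ 0) (h : IsUnitAt A (x ^ n)) : IsUnitAt A x := by
  rw [IsUnitAt, map_pow] at h
  exact (pow_eq_one_iff.mp h).resolve_right hn

theorem isUnitAt_of_notMem_nonunits {x : QBar} (hx : x ∈ A) (h : x ∉ A.nonunits) :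
    IsUnitAt A x := by
  obtain ⟨h0, hinv⟩ := (notMem_nonunits_iff hx).mp h
  exact (isUnitAt_iff h0).mpr ⟨hx, hinv⟩

theorem valuation_ne_zero {x : QBar} (hx : x ≠ 0) : A.valuation x ≠ 0 :=
  (map_ne_zero A.valuation).mpr hx

/-- The value group of a place of `ℚ̄` over `q` is contained in the rational powers of `v q`. -/
theorem exists_pow_eq_zpow (hA : A.LiesOverPrime q) (hq : q.Prime) {x : QBar} (hx : x ≠ 0) :
    ∃ (n : ℕ) (k : ℤ), 0 < n ∧ A.valuation x ^ n = A.valuation (q : QBar) ^ k := by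
  obtain ⟨n, hn, k, h⟩ := exists_pow_valuation_eq_zpow hA hq hx
  exact ⟨n, k, hn, h⟩

open scoped Classical in
/-- The valuation at `A`, normalised to be `1` at `q`, with rational values. -/
def ordAt (A : ValuationSubring QBar) (q : ℕ) (x : QBar) : ℚ :=
  if h : ∃ nk : ℕ × ℤ, 0 < nk.1 ∧ A.valuation x ^ nk.1 = A.valuation (q : QBar) ^ nk.2 then
    (h.choose.2 : ℚ) / h.choose.1
  else 0

theorem ordAt_eq (hA : A.LiesOverPrime q) (hq : q.Prime) {x : QBar} {n : ℕ} {k : ℤ} (hn : 0 < n)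
    (h : A.valuation x ^ n = A.valuation (q : QBar) ^ k) : ordAt A q x = (k : ℚ) / n := by
  classical
  have hex : ∃ nk : ℕ × ℤ, 0 < nk.1 ∧
      A.valuation x ^ nk.1 = A.valuation (q : QBar) ^ nk.2 := ⟨(n, k), hn, h⟩
  rw [ordAt, dif_pos hex]
  obtain ⟨hm, hmk⟩ := hex.choose_spec
  generalize hex.choose = mk at hm hmk ⊢
  rw [div_eq_div_iff (by exact_mod_cast hm.ne') (by exact_mod_cast hn.ne')]
  have h2 : A.valuation (q : QBar) ^ (mk.2 * n) = A.valuation (q : QBar) ^ (k * mk.1) := by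
    rw [zpow_mul, zpow_mul, ← hmk, ← h, zpow_natCast, zpow_natCast, ← pow_mul, ← pow_mul,
      mul_comm]
  have h3 := zpow_right_injective₀ (zero_lt_iff.mpr (valuation_ne_zero (by exact_mod_cast hq.ne_zero)))
    (valuation_prime_lt_one hA).ne h2
  exact_mod_cast h3

variable (hA : A.LiesOverPrime q) (hq : q.Prime)
include hA hq

theorem ordAt_mul {x y : QBar} (hx : x ≠ 0) (hy : y ≠ 0) :
    ordAt A q (x * y) = ordAt A q x + ordAt A q y := by
  obtain ⟨n, k, hn, h⟩ := exists_pow_eq_zpow hA hq hx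
  obtain ⟨m, l, hm, h'⟩ := exists_pow_eq_zpow hA hq hy
  rw [ordAt_eq hA hq hn h, ordAt_eq hA hq hm h',
    ordAt_eq hA hq (Nat.mul_pos hn hm) (k := k * m + l * n)
      (by rw [map_mul, mul_pow, zpow_add₀ (valuation_ne_zero (by exact_mod_cast hq.ne_zero)),
        pow_mul, h, mul_comm n m, pow_mul (A.valuation y), h', ← zpow_natCast, ← zpow_mul,
        ← zpow_natCast, ← zpow_mul])]
  rw [div_add_div _ _ (by exact_mod_cast hn.ne') (by exact_mod_cast hm.ne')]
  push_cast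
  ring

theorem ordAt_prime : ordAt A q (q : QBar) = 1 := by
  rw [ordAt_eq hA hq one_pos (k := 1) (by simp)]
  norm_num

theorem ordAt_eq_zero_iff {x : QBar} (hx : x ≠ 0) : ordAt A q x = 0 ↔ IsUnitAt A x := by
  obtain ⟨n, k, hn, h⟩ := exists_pow_eq_zpow hA hq hx
  constructor
  · intro h0
    rw [ordAt_eq hA hq hn h, div_eq_zero_iff, Int.cast_eq_zero] at h0
    have hk : k = 0 := h0.resolve_right (by exact_mod_cast hn.ne')
    rw [hk, zpow_zero] at h
    exact (pow_eq_one_iff.mp h).resolve_right hn.ne'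
  · intro hu
    rw [ordAt_eq hA hq one_pos (k := 0) (by rw [zpow_zero, pow_one]; exact hu)]
    simp

theorem ordAt_one : ordAt A q (1 : QBar) = 0 :=
  (ordAt_eq_zero_iff hA hq one_ne_zero).mpr (map_one _)

theorem ordAt_inv {x : QBar} (hx : x ≠ 0) : ordAt A q x⁻¹ = -ordAt A q x := by
  have := ordAt_mul hA hq hx (inv_ne_zero hx)
  rw [mul_inv_cancel₀ hx, ordAt_one hA hq] at this
  linarith

theorem ordAt_div {x y : QBar} (hx : x ≠ 0) (hy : y ≠ 0) :
    ordAt A q (x / y) = ordAt A q x - ordAt A q y := by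
  rw [div_eq_mul_inv, ordAt_mul hA hq hx (inv_ne_zero hy), ordAt_inv hA hq hy, sub_eq_add_neg]

theorem ordAt_pow {x : QBar} (hx : x ≠ 0) (n : ℕ) : ordAt A q (x ^ n) = n * ordAt A q x := by
  induction n with
  | zero => simp [ordAt_one hA hq]
  | succ n ih => rw [pow_succ, ordAt_mul hA hq (pow_ne_zero _ hx) hx, ih]; push_cast; ring

theorem ordAt_zpow {x : QBar} (hx : x ≠ 0) (n : ℤ) : ordAt A q (x ^ n) = n * ordAt A q x := by
  cases n with
  | ofNat n => simp [ordAt_pow hA hq hx]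
  | negSucc n =>
    rw [zpow_negSucc, ordAt_inv hA hq (pow_ne_zero _ hx), ordAt_pow hA hq hx]
    push_cast
    ring

theorem ordAt_prime_zpow (k : ℤ) : ordAt A q ((q : QBar) ^ k) = k := by
  rw [ordAt_zpow hA hq (by exact_mod_cast hq.ne_zero), ordAt_prime hA hq, mul_one]

theorem ordAt_root_of_unity {x : QBar} {n : ℕ} (hn : n ≠ 0) (h : x ^ n = 1) :
    ordAt A q x = 0 :=
  (ordAt_eq_zero_iff hA hq (fun h0 => by simp [h0, hn] at h)).mpr
    (isUnitAt_of_pow hn (by rw [h]; exact map_one _))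

theorem ordAt_nonneg_of_mem {x : QBar} (hx : x ≠ 0) (hmem : x ∈ A) : 0 ≤ ordAt A q x := by
  obtain ⟨n, k, hn, h⟩ := exists_pow_eq_zpow hA hq hx
  rw [ordAt_eq hA hq hn h]
  refine div_nonneg ?_ (Nat.cast_nonneg _)
  have hle : A.valuation x ^ n ≤ 1 := pow_le_one' ((A.valuation_le_one_iff x).mpr hmem) n
  rw [h, zpow_le_one_iff_right_of_lt_one₀ (zero_lt_iff.mpr
    (valuation_ne_zero (by exact_mod_cast hq.ne_zero))) (valuation_prime_lt_one hA)] at hle
  exact_mod_cast hle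

theorem ordAt_smul {σ : GQ} (hσ : σ • A = A) {x : QBar} (hx : x ≠ 0) :
    ordAt A q (σ x) = ordAt A q x := by
  obtain ⟨n, k, hn, h⟩ := exists_pow_eq_zpow hA hq hx
  rw [ordAt_eq hA hq hn h]
  set u := x ^ n / (q : QBar) ^ k with hu
  have hq0 : (q : QBar) ≠ 0 := by exact_mod_cast hq.ne_zero
  have hu1 : IsUnitAt A u := by
    rw [IsUnitAt, hu, map_div₀, map_pow, map_zpow₀, h,
      div_self (zpow_ne_zero _ (valuation_ne_zero hq0))]
  have hu0 : u ≠ 0 := div_ne_zero (pow_ne_zero _ hx) (zpow_ne_zero _ hq0)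
  have hσu : IsUnitAt A (σ u) := by
    obtain ⟨h1, h2⟩ := (isUnitAt_iff hu0).mp hu1
    exact (isUnitAt_iff (by simpa using hu0)).mpr
      ⟨map_mem_of_mem_decomposition hσ h1, by
        rw [← map_inv₀]; exact map_mem_of_mem_decomposition hσ h2⟩
  refine ordAt_eq hA hq hn ?_
  have e : σ x ^ n = (q : QBar) ^ k * σ u := by
    rw [hu, map_div₀, map_pow, map_zpow₀, map_natCast, mul_div_cancel₀ _ (zpow_ne_zero _ hq0)]
  rw [← map_pow, e, map_mul, hσu, mul_one, map_zpow₀]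

omit hA hq in
theorem isUnitAt_congr_sub {σ : GQ} (hσ : σ ∈ A.inertiaSubgroupIn ℚ) {u : QBar} (hu : u ∈ A) :
    σ u - u ∈ A.nonunits :=
  (mem_inertia_iff_forall_mem.mp hσ).2 u hu

end Fermat.Agent.Mazur.Eisenstein
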