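import Fermat.Agent.Mazur.Eisenstein.Unram
import Mathlib.RingTheory.Polynomial.Cyclotomic.Eval

/-!
# Inertia at `r` on roots of unity of `r`-power order

It acts transitively on the primitive ones; the valuation of `1 - η` is `1 / φ (r ^ (m + 1))`.
-/

set_option autoImplicit false
set_option linter.style.haveILetI false

noncomputable section

namespace Fermat.Agent.Mazur.Eisenstein

open Fermat.Agent.Arith
open scoped Pointwise

variable {A : ValuationSubring QBar} {r : ℕ}

theorem one_sub_pow_mem {ζ : QBar} (hζ : ζ ∈ A) (i : ℕ) (h : ζ ≠ 1) :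
    (1 - ζ ^ i) / (1 - ζ) ∈ A := by
  have : (1 - ζ ^ i) / (1 - ζ) = ∑ j ∈ Finset.range i, ζ ^ j := by
    rw [div_eq_iff (sub_ne_zero.mpr (Ne.symm h)), geom_sum_mul_neg]
  rw [this]
  exact sum_mem fun j _ => pow_mem hζ j

theorem primitive_mem {ζ : QBar} {k : ℕ} (hk : 0 < k) (hζ : IsPrimitiveRoot ζ k) : ζ ∈ A :=
  mem_of_isIntegral A (hζ.isIntegral hk)

/-- All `1 - η` for primitive roots `η` of order `r ^ (m+1)` have valuation `1 / φ (r ^ (m+1))`. -/
theorem ordAt_one_sub (hA : A.LiesOverPrime r) (hr : r.Prime) {m : ℕ} {ζ : QBar}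
    (hζ : IsPrimitiveRoot ζ (r ^ (m + 1))) :
    (Nat.totient (r ^ (m + 1)) : ℚ) * ordAt A r (1 - ζ) = 1 := by
  classical
  have : Fact r.Prime := ⟨hr⟩
  set k := r ^ (m + 1) with hk
  have hk1 : 1 < k := Nat.one_lt_pow (by omega) hr.one_lt
  have hkpos : 0 < k := by omega
  haveI : NeZero k := ⟨hkpos.ne'⟩
  have hne : ∀ η ∈ primitiveRoots k QBar, 1 - η ≠ 0 := fun η hη =>
    sub_ne_zero.mpr (Ne.symm (((mem_primitiveRoots hkpos).mp hη).ne_one hk1))
  have hprod : ∏ η ∈ primitiveRoots k QBar, (1 - η) = (r : QBar) := by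
    rw [← Polynomial.eval_one_cyclotomic_prime_pow (R := QBar) (p := r) m,
      Polynomial.cyclotomic_eq_prod_X_sub_primitiveRoots hζ, Polynomial.eval_prod]
    simp [hk]
  have hsum : ∀ s : Finset QBar, (∀ η ∈ s, 1 - η ≠ 0) →
      ordAt A r (∏ η ∈ s, (1 - η)) = ∑ η ∈ s, ordAt A r (1 - η) := by
    intro s
    induction s using Finset.induction with
    | empty => intro _; simp [ordAt_one hA hr]
    | insert a s ha ih =>
      intro h
      rw [Finset.prod_insert ha, Finset.sum_insert ha,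
        ordAt_mul hA hr (h a (Finset.mem_insert_self a s))
          (Finset.prod_ne_zero_iff.mpr fun η hη => h η (Finset.mem_insert_of_mem hη)),
        ih fun η hη => h η (Finset.mem_insert_of_mem hη)]
  have hall : ∀ η ∈ primitiveRoots k QBar, ordAt A r (1 - η) = ordAt A r (1 - ζ) := by
    intro η hη
    have hη' := (mem_primitiveRoots hkpos).mp hη
    obtain ⟨i, -, hi⟩ := hζ.eq_pow_of_pow_eq_one hη'.pow_eq_one
    obtain ⟨j, -, hj⟩ := hη'.eq_pow_of_pow_eq_one hζ.pow_eq_one
    have h1 := hne η hη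
    have h2 : 1 - ζ ≠ 0 := sub_ne_zero.mpr (Ne.symm (hζ.ne_one hk1))
    have e1 := ordAt_nonneg_of_mem hA hr (div_ne_zero h1 h2)
      (hi ▸ one_sub_pow_mem (primitive_mem hkpos hζ) i (hζ.ne_one hk1))
    have e2 := ordAt_nonneg_of_mem hA hr (div_ne_zero h2 h1)
      (hj ▸ one_sub_pow_mem (primitive_mem hkpos hη') j (hη'.ne_one hk1))
    rw [ordAt_div hA hr h1 h2] at e1
    rw [ordAt_div hA hr h2 h1] at e2
    linarith
  have h := hsum _ hne
  rw [hprod, ordAt_prime hA hr, Finset.sum_congr rfl hall, Finset.sum_const,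
    hζ.card_primitiveRoots, nsmul_eq_mul] at h
  exact h.symm

/-- Inertia at `r` acts transitively on the primitive roots of `r`-power order. -/
theorem exists_inertia_apply (hA : A.LiesOverPrime r) (hr : r.Prime) {m : ℕ} {ζ η : QBar}
    (hζ : IsPrimitiveRoot ζ (r ^ (m + 1))) (hη : IsPrimitiveRoot η (r ^ (m + 1))) :
    ∃ σ ∈ A.inertiaSubgroupIn ℚ, σ ζ = η := by
  classical
  set k := r ^ (m + 1) with hk
  have hk1 : 1 < k := Nat.one_lt_pow (by omega) hr.one_lt
  have hkpos : 0 < k := by omega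
  set S := (primitiveRoots k QBar).filter fun x => ∃ σ ∈ A.inertiaSubgroupIn ℚ, σ ζ = x with hS
  have hne : ∀ x ∈ S, 1 - x ≠ 0 := fun x hx => sub_ne_zero.mpr
    (Ne.symm (((mem_primitiveRoots hkpos).mp (Finset.mem_filter.mp hx).1).ne_one hk1))
  have hmem : ∀ σ ∈ A.inertiaSubgroupIn ℚ, ∀ x ∈ S, σ x ∈ S := by
    intro σ hσ x hx
    obtain ⟨hx1, τ, hτ, rfl⟩ := Finset.mem_filter.mp hx
    exact Finset.mem_filter.mpr ⟨(mem_primitiveRoots hkpos).mpr
      (((mem_primitiveRoots hkpos).mp hx1).map_of_injective σ.injective),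
      σ * τ, mul_mem hσ hτ, rfl⟩
  have hfix : ∀ σ ∈ A.inertiaSubgroupIn ℚ, σ (∏ x ∈ S, (1 - x)) = ∏ x ∈ S, (1 - x) := by
    intro σ hσ
    rw [map_prod]
    refine Finset.prod_nbij (fun x => σ x) (hmem σ hσ) σ.injective.injOn ?_
      (fun x _ => by rw [map_sub, map_one])
    intro x hx
    exact ⟨σ.symm x, hmem σ⁻¹ (inv_mem hσ) x hx, σ.apply_symm_apply x⟩
  obtain ⟨z, hz⟩ := exists_int_ordAt hA hr (Finset.prod_ne_zero_iff.mpr hne) hfix
  have hsum : ordAt A r (∏ x ∈ S, (1 - x)) = (S.card : ℚ) * ordAt A r (1 - ζ) := by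
    have : ∀ s : Finset QBar, s ⊆ S →
        ordAt A r (∏ x ∈ s, (1 - x)) = (s.card : ℚ) * ordAt A r (1 - ζ) := by
      intro s
      induction s using Finset.induction with
      | empty => intro _; simp [ordAt_one hA hr]
      | insert a s ha ih =>
        intro h
        obtain ⟨haS, hs⟩ := Finset.insert_subset_iff.mp h
        have ha' := (mem_primitiveRoots hkpos).mp (Finset.mem_filter.mp haS).1
        have e : ordAt A r (1 - a) = ordAt A r (1 - ζ) := by
          have h1 := ordAt_one_sub hA hr ha'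
          have h2 := ordAt_one_sub hA hr hζ
          refine mul_left_cancel₀ ?_ (h1.trans h2.symm)
          exact_mod_cast (Nat.totient_pos.mpr hkpos).ne'
        rw [Finset.prod_insert ha, Finset.card_insert_of_notMem ha,
          ordAt_mul hA hr (hne a haS) (Finset.prod_ne_zero_iff.mpr fun x hx => hne x (hs hx)),
          ih hs, e]
        push_cast; ring
    exact this S subset_rfl
  have hS0 : 0 < S.card := Finset.card_pos.mpr ⟨ζ,
    Finset.mem_filter.mpr ⟨(mem_primitiveRoots hkpos).mpr hζ, 1, one_mem _, rfl⟩⟩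
  have hle : S.card ≤ Nat.totient k := by
    rw [← hζ.card_primitiveRoots]; exact Finset.card_filter_le _ _
  have hφ := ordAt_one_sub hA hr hζ
  have hcard : (S.card : ℚ) = z * Nat.totient k := by
    rw [← hz, hsum, mul_assoc, mul_comm (ordAt A r (1 - ζ)), hφ, mul_one]
  have hcard' : (S.card : ℤ) = z * Nat.totient k := by exact_mod_cast hcard
  have hSfull : S = primitiveRoots k QBar := by
    refine Finset.eq_of_subset_of_card_le (Finset.filter_subset _ _) ?_
    rw [hζ.card_primitiveRoots]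
    have hz1 : 1 ≤ z := by
      by_contra hcon
      push Not at hcon
      nlinarith [Int.natCast_pos.mpr hS0, Int.natCast_nonneg (Nat.totient k)]
    have h3 : (Nat.totient k : ℤ) ≤ S.card := by
      rw [hcard']
      nlinarith [Int.natCast_nonneg (Nat.totient k)]
    exact_mod_cast h3
  exact (Finset.mem_filter.mp (hSfull.ge ((mem_primitiveRoots hkpos).mpr hη))).2

/-- An inertia element at `r` inverting all roots of unity of order dividing `r ^ m`. -/
theorem exists_inertia_inv (hA : A.LiesOverPrime r) (hr : r.Prime) (m : ℕ) :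
    ∃ σ ∈ A.inertiaSubgroupIn ℚ, ∀ ζ : QBar, ζ ^ r ^ m = 1 → σ ζ = ζ⁻¹ := by
  haveI : NeZero (r ^ (m + 1)) := ⟨pow_ne_zero _ hr.ne_zero⟩
  obtain ⟨ζ, hζ⟩ := HasEnoughRootsOfUnity.exists_primitiveRoot QBar (r ^ (m + 1))
  obtain ⟨σ, hσ, hσζ⟩ := exists_inertia_apply hA hr hζ hζ.inv
  refine ⟨σ, hσ, fun x hx => ?_⟩
  obtain ⟨i, -, rfl⟩ := hζ.eq_pow_of_pow_eq_one
    (show x ^ r ^ (m + 1) = 1 by rw [pow_succ, pow_mul, hx, one_pow])
  rw [map_pow, hσζ, inv_pow]

end Fermat.Agent.Mazur.Eisenstein
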