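import Fermat.Agent.Mazur.Eisenstein.Cusps
import Fermat.Agent.FF.HeckeInputsX0
import Fermat.Agent.Gamma0.Coset
import Fermat.Prelude.Def_ModularCurve_HeckeOperator

/-!
# The cusps above a cusp under the two degeneracy maps
-/

set_option autoImplicit false

noncomputable section

open AlgebraicCurve ModularCurve
open scoped IntermediateField

namespace Fermat.Agent.Mazur.Eisenstein

open Fermat.Agent.Genus (Fbar jB)

local notation "Qb" => AlgebraicClosure ℚ

section Generic

variable {K F F' : Type*} [Field K] [IsAlgClosed K] [Field F] [Field F'] [Algebra K F] [Algebra K F']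
  [FF.IsFunctionField K F] [FF.IsFunctionField K F']
variable (φ : F →ₐ[K] F') (hφ : φ.toRingHom.IsIntegral)

theorem inertiaDegAlong_eq_one (w : Place K F') : w.inertiaDegAlong φ hφ = 1 := by
  let := algebraAlong φ
  have := isScalarTower_along φ
  have := isIntegral_along φ hφ
  have h := w.deg_restrict_mul_inertiaDeg (F := F)
  rw [FF.deg_eq_one (w.restrict F), FF.deg_eq_one w, one_mul] at h
  exact h

theorem sum_ramification_eq (v : Place K F) :
    ∑ w ∈ Place.fiberAlong φ hφ v, (w.ramificationIndexAlong φ : ℤ) = finrankAlong K φ := by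
  rw [← FF.fundamental_identity_along φ hφ v]
  exact Finset.sum_congr rfl fun w _ => by rw [inertiaDegAlong_eq_one φ hφ w]; simp

omit [IsAlgClosed K] in
theorem ramificationIndexAlong_pos (w : Place K F') : 0 < w.ramificationIndexAlong φ := by
  let := algebraAlong φ
  have := isScalarTower_along φ
  have : Module.Finite F F' := FF.finiteAlong φ
  exact w.ramificationIndex_pos

omit [IsAlgClosed K] [FF.IsFunctionField K F] [FF.IsFunctionField K F'] in
theorem ord_map (w : Place K F') (x : F) :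
    w.ord (φ x) = (w.ramificationIndexAlong φ : ℤ) * (w.restrictAlong φ hφ).ord x :=
  Place.ord_restrictAlong φ hφ w x

/-- A place in the fibre ramifying totally is the whole fibre. -/
theorem fiberAlong_eq_singleton {v : Place K F} {w : Place K F'}
    (hw : w.restrictAlong φ hφ = v) (he : finrankAlong K φ ≤ w.ramificationIndexAlong φ) :
    Place.fiberAlong φ hφ v = {w} ∧ w.ramificationIndexAlong φ = finrankAlong K φ := by
  classical
  have hmem : w ∈ Place.fiberAlong φ hφ v := Place.mem_fiberAlong.mpr hw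
  have hsum := sum_ramification_eq φ hφ v
  rw [← Finset.add_sum_erase _ _ hmem] at hsum
  have hpos : ∀ u ∈ (Place.fiberAlong φ hφ v).erase w,
      (0 : ℤ) < u.ramificationIndexAlong φ := fun u _ => by
    exact_mod_cast ramificationIndexAlong_pos φ u
  have hempty : (Place.fiberAlong φ hφ v).erase w = ∅ := by
    by_contra hne
    have := Finset.sum_pos hpos (Finset.nonempty_iff_ne_empty.mpr hne)
    omega
  refine ⟨?_, ?_⟩
  · rw [← Finset.insert_erase hmem, hempty]; rfl
  · rw [hempty, Finset.sum_empty, add_zero] at hsum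
    exact_mod_cast hsum

set_option linter.unusedSectionVars false in
theorem degree_poles_map {x : F} (hx : Transcendental K x) :
    Module.finrank K⟮φ x⟯ F' = finrankAlong K φ * Module.finrank K⟮x⟯ F := by
  classical
  have hy : Transcendental K (φ x) := fun h =>
    hx (((isAlgebraic_algHom_iff φ φ.toRingHom.injective).mp h))
  have := FF.hasPrincipalDivisors (K := K) (F := F')
  have e : FF.poles K (φ x) = Divisor.pullbackAlong φ (FF.isIntegralAlong φ) (FF.poles K x) := by
    ext w
    rw [Divisor.pullbackAlong_apply, FF.poles_apply, FF.poles_apply,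
      ord_map φ (FF.isIntegralAlong φ) w x, mul_max_of_nonneg _ _ (Int.natCast_nonneg _),
      mul_zero, mul_neg]
  have h := congrArg Divisor.degree e
  rw [Divisor.degree_pullbackAlong φ _ (FF.fundamentalIdentityAlong φ _), FF.degree_poles hy,
    FF.degree_poles hx] at h
  exact_mod_cast h

variable [HasPrincipalDivisors K F'] (ψ : F →ₐ[K] F') (hψ : ψ.toRingHom.IsIntegral)

theorem correspondence_single (v : Place K F) :
    Divisor.correspondence φ ψ hφ hψ (Finsupp.single v 1) =
      ∑ w ∈ Place.fiberAlong φ hφ v,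
        Finsupp.single (w.restrictAlong ψ hψ) (w.ramificationIndexAlong φ : ℤ) := by
  rw [Divisor.correspondence, AddMonoidHom.comp_apply, Divisor.pullbackAlong_single, map_sum]
  refine Finset.sum_congr rfl fun w _ => ?_
  rw [Divisor.pushforwardAlong_single, inertiaDegAlong_eq_one ψ hψ w, one_mul, Nat.cast_one,
    mul_one]

/-- If the fibre of `v` under `φ` lies over `u` under `ψ`, the correspondence sends `v` to a
multiple of `u`. -/
theorem correspondence_single_of_forall {v : Place K F} {u : Place K F}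
    (h : ∀ w : Place K F', w.restrictAlong φ hφ = v → w.restrictAlong ψ hψ = u) :
    Divisor.correspondence φ ψ hφ hψ (Finsupp.single v 1) =
      Finsupp.single u (finrankAlong K φ : ℤ) := by
  rw [correspondence_single, ← sum_ramification_eq φ hφ v, Finsupp.single_finsetSum]
  exact Finset.sum_congr rfl fun w hw => by rw [h w (Place.mem_fiberAlong.mp hw)]

end Generic

section Levels

/-- Inclusion of a lower level. -/
def inclLevel (N M : ℕ) [NeZero N] [NeZero M] (h : N ∣ M) : Fbar N →ₐ[Qb] Fbar M :=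
  IntermediateField.inclusion (by
    rw [show modularFunctionFieldBar N = _ from Semistable.fb_eq_adjoin N,
      IntermediateField.adjoin_le_iff]
    rintro _ ⟨d, rfl⟩
    exact Semistable.gen_mem M ⟨d.1, d.2.trans h⟩)

@[simp]
theorem coe_inclLevel (N M : ℕ) [NeZero N] [NeZero M] (h : N ∣ M) (x : Fbar N) :
    (inclLevel N M h x : LaurentSeries Qb) = (x : LaurentSeries Qb) :=
  IntermediateField.coe_inclusion _ x

variable (p l : ℕ) [hp : Fact p.Prime] [hl : Fact l.Prime]

instance neZero_mul_primes : NeZero (p * l) :=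
  ⟨Nat.mul_ne_zero hp.out.ne_zero hl.out.ne_zero⟩

theorem pos_of_map_pole {F' : Type*} [Field F'] [Algebra Qb F'] [FF.IsFunctionField Qb F']
    (φ : Fbar p →ₐ[Qb] F') (w : Place Qb F')
    (hw : w.ord (φ (jB p)) < 0 ∨ w.ord (φ (jAt p p dvd_rfl)) < 0) :
    ∃ e : ℤ, 0 < e ∧
      ((w.restrictAlong φ (FF.isIntegralAlong φ) = placeInf p ∧
          w.ord (φ (jB p)) = -e ∧ w.ord (φ (jAt p p dvd_rfl)) = -((p : ℤ) * e)) ∨
        (w.restrictAlong φ (FF.isIntegralAlong φ) = placeZero p ∧
          w.ord (φ (jB p)) = -((p : ℤ) * e) ∧ w.ord (φ (jAt p p dvd_rfl)) = -e)) ∧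
      (w.ramificationIndexAlong φ : ℤ) = e := by
  have hφ := FF.isIntegralAlong φ
  set v := w.restrictAlong φ hφ with hv
  have hpos := ramificationIndexAlong_pos φ w
  rw [ord_map φ hφ, ord_map φ hφ, ← hv] at hw ⊢
  have hv' : v.ord (jB p) < 0 := by
    rcases hw with h | h
    · nlinarith
    · exact ord_jB_neg_of_jAt_neg p (by nlinarith)
  refine ⟨_, by exact_mod_cast hpos, ?_, rfl⟩
  rcases eq_of_ord_jB_neg p hv' with h | h
  · left
    rw [h, ord_placeInf_jB, ord_placeInf_jAt]
    exact ⟨rfl, by ring, by ring⟩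
  · right
    rw [h, ord_placeZero_jB, ord_placeZero_jAt]
    exact ⟨rfl, by ring, by ring⟩

/-- The degrees of the two degeneracy maps. -/
theorem finrankAlong_degeneracy (R : ℕ) [NeZero R] :
    finrankAlong Qb (heckeAlphaBar Qb R l) * dedekindPsi R = dedekindPsi (R * l) ∧
      finrankAlong Qb (heckeBetaBar Qb R l) * dedekindPsi R = dedekindPsi (R * l) := by
  refine ⟨(mul_comm _ _).trans (FF.finrankAlong_alpha R l), ?_⟩
  have hj : ∀ (M : ℕ) [NeZero M], Module.finrank Qb⟮jB M⟯ (Fbar M) = dedekindPsi M := fun M _ =>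
    (ModFun.finrank_baseChange M Qb).2
  -- the poles of `j (l τ)` at level `R l`
  have hι := degree_poles_map (inclLevel l (R * l) (dvd_mul_left l R))
    (ModFun.transcendental_jBase l Qb)
  rw [show inclLevel l (R * l) (dvd_mul_left l R) (ModFun.jBase l Qb) = jB (R * l) from
    Subtype.ext rfl, hj (R * l), hj l] at hι
  obtain ⟨e, he1, -⟩ := exists_atkinLehner l
  have hl2 := ModFun.finrank_adjoin_algEquiv e (jB l) (ModFun.finrank_baseChange l Qb).1
  rw [he1, hj l] at hl2
  have htl : Transcendental Qb (jAt l l dvd_rfl) := by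
    rw [← he1]
    exact fun h => ModFun.transcendental_jBase l Qb
      ((isAlgebraic_algHom_iff e.toAlgHom e.injective).mp h)
  have hιl := degree_poles_map (inclLevel l (R * l) (dvd_mul_left l R)) htl
  rw [hl2.2] at hιl
  have hβ := degree_poles_map (heckeBetaBar Qb R l) (ModFun.transcendental_jBase R Qb)
  rw [show heckeBetaBar Qb R l (ModFun.jBase R Qb) =
    inclLevel l (R * l) (dvd_mul_left l R) (jAt l l dvd_rfl) from Subtype.ext rfl, hj R, hιl,
    ← hι] at hβ
  exact hβ.symm

theorem finrankAlong_of_ne (hne : l ≠ p) :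
    finrankAlong Qb (heckeAlphaBar Qb p l) = l + 1 ∧
      finrankAlong Qb (heckeBetaBar Qb p l) = l + 1 := by
  obtain ⟨h1, h2⟩ := finrankAlong_degeneracy l p
  have hd : dedekindPsi (p * l) = (l + 1) * (p + 1) := by
    rw [mul_comm p l, Gamma0.dedekindPsi_mul_of_not_dvd hl.out
      (fun h => hne ((Nat.prime_dvd_prime_iff_eq hl.out hp.out).mp h)), dedekindPsi_prime]
  rw [hd, dedekindPsi_prime] at h1 h2
  exact ⟨Nat.eq_of_mul_eq_mul_right (Nat.succ_pos p) h1,
    Nat.eq_of_mul_eq_mul_right (Nat.succ_pos p) h2⟩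

/-- The degrees when `l` divides the lower level. -/
theorem finrankAlong_of_dvd (R : ℕ) [NeZero R] (h : l ∣ R) :
    finrankAlong Qb (heckeAlphaBar Qb R l) = l ∧ finrankAlong Qb (heckeBetaBar Qb R l) = l := by
  obtain ⟨h1, h2⟩ := finrankAlong_degeneracy l R
  have hd : dedekindPsi (R * l) = l * dedekindPsi R := by
    rw [mul_comm R l]
    exact Gamma0.dedekindPsi_mul_of_dvd hl.out h
  have hψ : 0 < dedekindPsi R := by rw [← ModFun.natCard_coset R]; exact Nat.card_pos
  rw [hd] at h1 h2
  exact ⟨Nat.eq_of_mul_eq_mul_right hψ h1, Nat.eq_of_mul_eq_mul_right hψ h2⟩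

theorem not_exists_mixed_orders {p l a b c d : ℤ} (hp : 2 ≤ p) (hl : 2 ≤ l) (hne : l ≠ p)
    (hb : b < 0) (hab : a = p * b) (hcd : d = p * c)
    (hac : c = l * a ∨ a = l * c) (hbd : d = l * b ∨ b = l * d) : False := by
  subst hab hcd
  rcases hac with h | h <;> rcases hbd with h' | h'
  · subst h
    have h0 : (p * p - 1) * (l * b) = 0 := by linear_combination h'
    rcases mul_eq_zero.mp h0 with h1 | h1
    · nlinarith
    · rcases mul_eq_zero.mp h1 with h2 | h2 <;> omega
  · subst h
    have h0 : (l * l * (p * p) - 1) * b = 0 := by linear_combination -h'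
    rcases mul_eq_zero.mp h0 with h1 | h1
    · nlinarith [mul_le_mul hl hp (by norm_num) (by omega : (0 : ℤ) ≤ l)]
    · omega
  · have h0 : (p * p - l * l) * b = 0 := by linear_combination p * h + l * h'
    rcases mul_eq_zero.mp h0 with h1 | h1
    · have h2 : (p - l) * (p + l) = 0 := by linear_combination h1
      rcases mul_eq_zero.mp h2 with h3 | h3 <;> omega
    · omega
  · have h0 : (p * p - 1) * b = 0 := by linear_combination p * h - h'
    rcases mul_eq_zero.mp h0 with h1 | h1
    · nlinarith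
    · omega

/-- For `l ≠ p` the two degeneracy maps send a cusp of level `p l` to the same cusp. -/
theorem restrictAlong_alpha_eq_beta (hne : l ≠ p) {v : Place Qb (Fbar p)}
    (hv : v.ord (jB p) < 0) (w : Place Qb (Fbar (p * l)))
    (hw : w.restrictAlong (heckeBetaBar Qb p l) (FF.isIntegralAlong _) = v) :
    w.restrictAlong (heckeAlphaBar Qb p l) (FF.isIntegralAlong _) = v := by
  have hp2 : (2 : ℤ) ≤ p := by exact_mod_cast hp.out.two_le
  have hl2 : (2 : ℤ) ≤ l := by exact_mod_cast hl.out.two_le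
  have hne' : (l : ℤ) ≠ p := by exact_mod_cast hne
  set α := heckeAlphaBar Qb p l
  set β := heckeBetaBar Qb p l
  let ι := inclLevel l (p * l) (dvd_mul_left l p)
  let γ : Fbar l →ₐ[Qb] Fbar (p * l) :=
    (inclLevel (l * p) (p * l) (dvd_of_eq (mul_comm l p))).comp (heckeBetaBar Qb l p)
  have i1 : ι (jB l) = α (jB p) := by
    refine Subtype.ext ?_
    rw [coe_inclLevel, coe_heckeAlphaBar, ModFun.coe_jBase, ModFun.coe_jBase]
  have i2 : ι (jAt l l dvd_rfl) = β (jB p) := by
    refine Subtype.ext ?_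
    rw [coe_inclLevel, coe_heckeBetaBar, coe_jAt, ModFun.coe_jBase]
  have g1 : γ (jB l) = α (jAt p p dvd_rfl) := by
    refine Subtype.ext ?_
    rw [AlgHom.comp_apply, coe_inclLevel, coe_heckeBetaBar, coe_heckeAlphaBar, coe_jAt,
      ModFun.coe_jBase]
  have g2 : γ (jAt l l dvd_rfl) = β (jAt p p dvd_rfl) := by
    refine Subtype.ext ?_
    rw [AlgHom.comp_apply, coe_inclLevel, coe_heckeBetaBar, coe_heckeBetaBar, coe_jAt, coe_jAt,
      qExpand_qExpand, qExpand_qExpand]
    exact qExpand_congr (mul_comm p l) _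
  have hc : w.ord (β (jB p)) < 0 := by
    rw [ord_map β (FF.isIntegralAlong _), hw]
    have := ramificationIndexAlong_pos β w
    nlinarith
  obtain ⟨eι, heι, hι, -⟩ := pos_of_map_pole l ι w (Or.inr (by rwa [i2]))
  rw [i1, i2] at hι
  have ha : w.ord (α (jB p)) < 0 := by
    rcases hι with ⟨-, h, -⟩ | ⟨-, h, -⟩ <;> rw [h] <;> nlinarith
  obtain ⟨eα, heα, hα, -⟩ := pos_of_map_pole p α w (Or.inl ha)
  obtain ⟨eβ, heβ, hβ, -⟩ := pos_of_map_pole p β w (Or.inl hc)
  have hb : w.ord (α (jAt p p dvd_rfl)) < 0 := by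
    rcases hα with ⟨-, -, h⟩ | ⟨-, -, h⟩ <;> rw [h] <;> nlinarith
  obtain ⟨eγ, heγ, hγ, -⟩ := pos_of_map_pole l γ w (Or.inl (by rwa [g1]))
  rw [g1, g2] at hγ
  have hac : w.ord (β (jB p)) = (l : ℤ) * w.ord (α (jB p)) ∨
      w.ord (α (jB p)) = (l : ℤ) * w.ord (β (jB p)) := by
    rcases hι with ⟨-, h, h'⟩ | ⟨-, h, h'⟩ <;> rw [h, h']
    · left; ring
    · right; ring
  have hbd : w.ord (β (jAt p p dvd_rfl)) = (l : ℤ) * w.ord (α (jAt p p dvd_rfl)) ∨
      w.ord (α (jAt p p dvd_rfl)) = (l : ℤ) * w.ord (β (jAt p p dvd_rfl)) := by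
    rcases hγ with ⟨-, h, h'⟩ | ⟨-, h, h'⟩ <;> rw [h, h']
    · left; ring
    · right; ring
  rw [hw] at hβ
  rcases hα with ⟨hu, a1, a2⟩ | ⟨hu, a1, a2⟩ <;> rcases hβ with ⟨hv', b1, b2⟩ | ⟨hv', b1, b2⟩
  · rw [hu, hv']
  · exfalso
    exact not_exists_mixed_orders hp2 hl2 hne' (a := w.ord (β (jB p)))
      (b := w.ord (β (jAt p p dvd_rfl))) (c := w.ord (α (jB p)))
      (d := w.ord (α (jAt p p dvd_rfl))) (by rw [b2]; omega) (by rw [b1, b2]; ring)
      (by rw [a1, a2]; ring) hac.symm hbd.symm
  · exfalso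
    exact not_exists_mixed_orders hp2 hl2 hne' (a := w.ord (α (jB p)))
      (b := w.ord (α (jAt p p dvd_rfl))) (c := w.ord (β (jB p)))
      (d := w.ord (β (jAt p p dvd_rfl))) (by rw [a2]; omega) (by rw [a1, a2]; ring)
      (by rw [b1, b2]; ring) hac hbd
  · rw [hu, hv']

end Levels

end Fermat.Agent.Mazur.Eisenstein

end
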