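import Fermat.Agent.Arith.Density.Frobenius
import Fermat.Agent.Mazur.Eisenstein.Devissage
import Fermat.Agent.Mazur.Eisenstein.Lattice

/-!
# The Eisenstein torsion is admissible

For every Galois element `g` the operator `(g - 1)(g - χ g)` is nilpotent on the Eisenstein part of
the `r ^ m`-torsion, a finite module killed by a power of `r`.
-/

set_option autoImplicit false
set_option linter.unusedSectionVars false
set_option linter.style.haveILetI false

noncomputable section

namespace Fermat.Agent.Mazur.Eisenstein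

open Fermat.Agent.Arith Module Matrix
open scoped Pointwise

variable {p r : ℕ} [Fact r.Prime] {J : Type} [AddCommGroup J] [DistribMulAction GQ J]
variable {T : Type} [CommRing T] [Module T J]

theorem isNilpotent_of_powers {R : Type*} [Ring R] (s : R) (c : ℤ) (i : ℕ)
    (h : IsNilpotent ((s - 1) * (s - (c : R)))) :
    IsNilpotent ((s ^ i - 1) * (s ^ i - (c : R) ^ i)) := by
  have h1 : Commute s (1 : R) := Commute.one_right _
  have h2 : Commute s (c : R) := Int.commute_cast s c
  have e1 := h1.geom_sum₂_mul i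
  have e2 := h2.geom_sum₂_mul i
  rw [one_pow] at e1
  set P := ∑ j ∈ Finset.range i, s ^ j * 1 ^ (i - 1 - j) with hP
  set Q := ∑ j ∈ Finset.range i, s ^ j * (c : R) ^ (i - 1 - j) with hQ
  have cP : ∀ x : R, Commute s x → Commute P x := fun x hx => by
    refine Commute.sum_left _ _ _ fun j _ => ?_
    exact ((hx.pow_left j).mul_left ((Commute.one_left x).pow_left _))
  have cQ : ∀ x : R, Commute s x → Commute (c : R) x → Commute Q x := fun x hx hc => by
    refine Commute.sum_left _ _ _ fun j _ => ?_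
    exact (hx.pow_left j).mul_left (hc.pow_left _)
  have hs1 : Commute s (s - 1) := (Commute.refl s).sub_right h1
  have hsc : Commute s (s - (c : R)) := (Commute.refl s).sub_right h2
  have hQ1 : Commute Q (s - 1) := cQ _ hs1 (Int.cast_commute c _)
  have hQc : Commute Q (s - (c : R)) := cQ _ hsc (Int.cast_commute c _)
  have hQP : Commute P Q := cP _ (Commute.sum_right _ _ _ fun j _ =>
    ((Commute.refl s).pow_right j).mul_right (h2.pow_right _))
  have e : (s ^ i - 1) * (s ^ i - (c : R) ^ i) = (P * Q) * ((s - 1) * (s - (c : R))) := by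
    rw [← e1, ← e2, mul_assoc P, ← mul_assoc (s - 1), ← hQ1.eq]
    simp only [mul_assoc]
  rw [e]
  refine Commute.isNilpotent_mul_left ?_ h
  exact ((cP _ hs1).mul_right (cP _ hsc)).mul_left (hQ1.mul_right hQc)

theorem isNilpotent_shift {R : Type*} [Ring R] (a : R) (x y r w : ℤ) (h : x - y = r * w)
    (hx : IsNilpotent ((a - 1) * (a - (x : R)))) (hr : IsNilpotent (r : R)) :
    IsNilpotent ((a - 1) * (a - (y : R))) := by
  have hcast : (x : R) = (y : R) + (r : R) * (w : R) := by
    rw [← Int.cast_mul, ← Int.cast_add]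
    congr 1
    omega
  have hcw : Commute (a - 1) ((r : R) * (w : R)) := by
    rw [← Int.cast_mul]; exact (Int.commute_cast _ _)
  have e : (a - 1) * (a - (y : R)) = (a - 1) * (a - (x : R)) + (r : R) * ((w : R) * (a - 1)) := by
    rw [← mul_assoc (r : R), ← hcw.eq, hcast]
    noncomm_ring
  rw [e]
  refine Commute.isNilpotent_add ?_ hx (Commute.isNilpotent_mul_right (Int.cast_commute _ _) hr)
  have h1 : Commute (a - 1) a := (Commute.refl a).sub_left (Commute.one_left _)
  have h2 : Commute (a - (x : R)) (a - 1) :=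
    ((Commute.refl a).sub_left (Int.cast_commute _ _)).sub_right (Commute.one_right _)
  exact Commute.mul_right (Int.commute_cast _ _)
    (Commute.mul_right (Int.commute_cast _ _) ((Commute.refl _).mul_left h2))

namespace EisensteinDatum

variable (D : EisensteinDatum p r J T)

include D in
/-- A finite level fixing all points of a finite subgroup. -/
theorem exists_level (S : AddSubgroup J) [Finite S] :
    ∃ L : IntermediateField ℚ QBar, FiniteDimensional ℚ L ∧
      ∀ g : GQ, (∀ x ∈ L, g x = x) → ∀ y ∈ S, g • y = y := by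
  classical
  haveI := Fintype.ofFinite S
  choose H hH hHfix using fun y : S => D.isOpen (y : J)
  have hopen : IsOpen ((⨅ y, H y : Subgroup GQ) : Set GQ) := by
    rw [Subgroup.coe_iInf]
    exact isOpen_iInter_of_finite hH
  obtain ⟨L, hL, hsub⟩ := (krullTopology_mem_nhds_one_iff ℚ QBar _).mp (hopen.mem_nhds (one_mem _))
  refine ⟨L, hL, fun g hg y hy => hHfix ⟨y, hy⟩ g ?_⟩
  exact Subgroup.mem_iInf.mp (hsub ((IntermediateField.mem_fixingSubgroup_iff _ _).mpr hg)) _

theorem finite_eisTors (m : ℕ) : Finite (D.eisTors m) := by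
  haveI : NeZero (r ^ m) := ⟨pow_ne_zero _ (Fact.out : r.Prime).ne_zero⟩
  have hsub : (D.eisTors m : Set J) ⊆ Set.range (D.ι m) := by
    rintro _ ⟨v, -, rfl⟩; exact ⟨_, rfl⟩
  exact Set.Finite.to_subtype ((Set.finite_range _).subset hsub)

theorem exists_isNilpotent_hecke (m : ℕ) {t : T} (ht : (D.eps t : ZMod r) = 0) :
    ∃ k : ℕ, ∀ x ∈ D.eisTors m, t ^ k • x = 0 := by
  obtain ⟨k, hk⟩ := D.isNilpotent_matMod ht
  have h1 : MatModEq 1 (intMat r (D.mat ((t * D.t₀) ^ k))) 0 := by
    rw [← map_zero (intMat r (d := D.d))]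
    refine map_toZModPow_one ?_
    have : D.matMod ((t * D.t₀) ^ k) = 0 := by rw [map_pow]; exact hk
    rw [Matrix.map_zero _ (map_zero (Int.castRingHom (ZMod r)))]
    exact this
  have hid : MatModEq 1 D.idem (intMat r (D.mat D.t₀)) := by simpa using D.idem_modEq 0
  -- one step divides by `r`
  have hstep : ∀ v ∈ D.eisLat, ∃ w ∈ D.eisLat,
      intMat r (D.mat (t ^ k)) *ᵥ v = (r : ℤ_[r]) • w := by
    intro v hv
    have hpow : ∀ i : ℕ, ∃ u, intMat r (D.mat (D.t₀ ^ i)) *ᵥ v - v = (r : ℤ_[r]) • u := by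
      intro i
      induction i with
      | zero => exact ⟨0, by simp⟩
      | succ i ih =>
        obtain ⟨u, hu⟩ := ih
        obtain ⟨Z, hZ⟩ := hid
        refine ⟨u - intMat r (D.mat (D.t₀ ^ i)) *ᵥ (Z *ᵥ v), ?_⟩
        rw [smul_sub, ← hu, ← mulVec_smul, ← smul_mulVec, ← pow_one (r : ℤ_[r]), ← hZ, sub_mulVec,
          D.mem_eisLat.mp hv, mulVec_sub, mulVec_mulVec, ← map_mul, ← map_mul, ← pow_succ]
        abel
    obtain ⟨u, hu⟩ := hpow k
    obtain ⟨Z, hZ⟩ := h1
    rw [sub_zero, pow_one] at hZ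
    refine ⟨D.idem *ᵥ (Z *ᵥ v - intMat r (D.mat (t ^ k)) *ᵥ u), D.idem_mulVec_mem _, ?_⟩
    rw [← mulVec_smul, smul_sub, ← smul_mulVec, ← hZ, ← mulVec_smul, ← hu]
    simp only [mulVec_sub, mulVec_mulVec]
    rw [← map_mul (intMat r), ← map_mul D.mat, ← mul_pow, sub_sub_cancel]
    rw [← mulVec_mulVec]
    exact (D.mem_eisLat.mp (D.mat_mem_eisLat (t ^ k) hv)).symm
  have hiter : ∀ (j : ℕ), ∀ v ∈ D.eisLat, ∃ w ∈ D.eisLat,
      intMat r (D.mat (t ^ (k * j))) *ᵥ v = (r : ℤ_[r]) ^ j • w := by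
    intro j
    induction j with
    | zero => intro v hv; exact ⟨v, hv, by simp⟩
    | succ j ih =>
      intro v hv
      obtain ⟨w, hw, e⟩ := ih v hv
      obtain ⟨w', hw', e'⟩ := hstep w hw
      refine ⟨w', hw', ?_⟩
      rw [Nat.mul_succ, add_comm, pow_add, map_mul, map_mul, ← mulVec_mulVec, e, mulVec_smul, e',
        smul_smul, ← pow_succ]
  refine ⟨k * m, ?_⟩
  rintro _ ⟨v, hv, rfl⟩
  obtain ⟨w, -, e⟩ := hiter m v hv
  rw [hecke_smul_pm, e, D.pm_eq_zero_iff]
  exact ⟨w, rfl⟩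

theorem isAdmissible_eisTors (m : ℕ) :
    letI := subAction (D.eisTors m) (D.gal_mem_eisTors m)
    haveI : NeZero r := ⟨(Fact.out : r.Prime).ne_zero⟩
    IsAdmissible (D.eisTors m) r (cyclotomicHom r) := by
  haveI : NeZero r := ⟨(Fact.out : r.Prime).ne_zero⟩
  letI := subAction (D.eisTors m) (D.gal_mem_eisTors m)
  haveI := D.finite_eisTors m
  have hr : r.Prime := Fact.out
  refine ⟨fun b => ⟨m, Subtype.ext (D.pow_smul_eisTors b.2)⟩, fun g b => ?_⟩
  obtain ⟨L, hL, hLfix⟩ := D.exists_level (D.eisTors m)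
  obtain ⟨ζ, hζ⟩ := HasEnoughRootsOfUnity.exists_primitiveRoot QBar r
  haveI : FiniteDimensional ℚ (IntermediateField.adjoin ℚ {ζ}) :=
    IntermediateField.adjoin.finiteDimensional (Algebra.IsIntegral.isIntegral ζ)
  set ρ : GQ →* AddMonoid.End (D.eisTors m) :=
    DistribMulAction.toAddMonoidEnd GQ (D.eisTors m) with hρ
  let ρ' : GQ →* AddMonoid.End (D.eisTors m) × (ZMod r)ˣ := ρ.prod (cyclotomicHom r)
  obtain ⟨q, hq, hqS, A, hA, σ, hσ, ⟨i, hi⟩, -⟩ :=
    Density.exists_frobenius_pow ρ' (L ⊔ IntermediateField.adjoin ℚ {ζ}) (fun τ hτ => by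
      refine Prod.ext (DFunLike.ext _ _ fun (x : D.eisTors m) => Subtype.ext
        (hLfix τ (fun y hy => hτ y ((le_sup_left : L ≤ _) hy)) x x.2)) (Units.ext ?_)
      show (cyclotomicHom r τ : ZMod r) = 1
      rw [← Nat.cast_one]
      refine cyclotomicHom_eq_of_forall fun ξ hξ => ?_
      obtain ⟨j, -, rfl⟩ := hζ.eq_pow_of_pow_eq_one hξ
      rw [pow_one, map_pow, hτ ζ ((le_sup_right : IntermediateField.adjoin ℚ {ζ} ≤ _)
        (IntermediateField.mem_adjoin_simple_self ℚ ζ))])
      g {p, r}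
  simp only [Finset.mem_insert, Finset.mem_singleton, not_or] at hqS
  obtain ⟨t, ht, hrel⟩ := D.eps_frobenius q hq hqS.1 hqS.2 A hA σ hσ
  set y : T := t - (1 + (q : T)) with hy
  obtain ⟨k, hk⟩ := D.exists_isNilpotent_hecke m (t := y) (by
    rw [hy, map_sub, map_add, map_one, map_natCast, ht]; simp)
  set s := ρ σ with hs
  -- the quadratic relation on the torsion points
  have hquad : ∀ x : D.eisTors m, ((s - 1) * (s - ((q : ℤ) : AddMonoid.End (D.eisTors m)))) x =
      (⟨y • (σ • (x : J)), by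
        obtain ⟨v, hv, hx⟩ := x.2
        rw [← hx, gal_smul_pm, hecke_smul_pm]
        exact D.pm_mem_eisTors m (D.mat_mem_eisLat _ (D.gal_mem_eisLat σ hv))⟩ : D.eisTors m) := by
    intro x
    refine Subtype.ext ?_
    obtain ⟨v, hv, hx⟩ := x.2
    have e : (((s - 1) * (s - ((q : ℤ) : AddMonoid.End (D.eisTors m)))) x : D.eisTors m) =
        σ • (σ • x - (q : ℤ) • x) - (σ • x - (q : ℤ) • x) := by
      simp [hρ, hs, DistribMulAction.toAddMonoidEnd]
      rfl
    rw [e]
    show σ • (σ • (x : J) - (q : ℤ) • (x : J)) - (σ • (x : J) - (q : ℤ) • (x : J)) = y • σ • (x : J)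
    rw [← hx, natCast_zsmul, smul_sub, SMulCommClass.smul_comm σ q, gal_smul_pm, gal_smul_pm, hecke_smul_pm,
      ← map_nsmul, ← map_nsmul, ← map_sub, ← map_sub, ← map_sub]
    congr 1
    have h2 := congrArg (· *ᵥ v) hrel
    simp only [add_mulVec, sub_mulVec, ← mulVec_mulVec, smul_mulVec, one_mulVec,
      zero_mulVec] at h2
    rw [hy, map_sub, map_add, map_one, map_natCast, map_sub, map_add, map_one, map_natCast,
      sub_mulVec, add_mulVec, one_mulVec, Matrix.natCast_mulVec, ← Nat.cast_smul_eq_nsmul ℤ_[r],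
      ← Nat.cast_smul_eq_nsmul ℤ_[r]]
    linear_combination (norm := module) h2
  have hcomm : ∀ (z : T) (j : ℕ) (x : J), σ • (z ^ j • x) = z ^ j • (σ • x) :=
    fun z j x => D.smul_comm σ _ x
  have hnil : IsNilpotent ((s - 1) * (s - ((q : ℤ) : AddMonoid.End (D.eisTors m)))) := by
    refine ⟨k, DFunLike.ext _ _ fun x => Subtype.ext ?_⟩
    have key : ∀ j : ℕ, ((((s - 1) * (s - ((q : ℤ) : AddMonoid.End (D.eisTors m)))) ^ j) x : J) =
        y ^ j • ((σ ^ j) • (x : J)) := by
      intro j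
      induction j with
      | zero => simp
      | succ j ih =>
        rw [pow_succ']
        show (((s - 1) * (s - ((q : ℤ) : AddMonoid.End (D.eisTors m)))) _ : J) = _
        rw [hquad]
        show y • σ • _ = _
        refine (congrArg (fun z : J => y • σ • z) ih).trans ?_
        rw [hcomm, ← mul_smul y, ← pow_succ', pow_succ' σ, mul_smul]
    rw [key k]
    exact hk _ (D.gal_mem_eisTors m _ _ x.2)
  -- powers
  have hpow := isNilpotent_of_powers s (q : ℤ) i hnil
  rw [Prod.ext_iff] at hi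
  have hig : ρ g = s ^ i := hi.1
  have hcg : (cyclotomicHom r g : ZMod r) = (q : ZMod r) ^ i := by
    have h2 : cyclotomicHom r g = (cyclotomicHom r σ) ^ i := hi.2
    rw [h2, Units.val_pow_eq_pow_val,
      cyclotomicHom_eq_of_forall fun ξ hξ => frobenius_root hA hq hσ hξ
        (fun hd => hqS.2 ((Nat.prime_dvd_prime_iff_eq hq hr).mp hd))]
  set c : ℕ := (cyclotomicHom r g : ZMod r).val with hc
  have hdiv : (r : ℤ) ∣ (q : ℤ) ^ i - (c : ℤ) := by
    rw [← ZMod.intCast_zmod_eq_zero_iff_dvd]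
    push_cast
    rw [hc, ZMod.natCast_zmod_val, hcg, sub_self]
  obtain ⟨w, hw⟩ := hdiv
  have hrnil : IsNilpotent ((r : ℤ) : AddMonoid.End (D.eisTors m)) := by
    refine ⟨m, DFunLike.ext _ _ fun x => Subtype.ext ?_⟩
    rw [Int.cast_natCast, ← Nat.cast_pow]
    exact D.pow_smul_eisTors x.2
  have hnil2 : IsNilpotent ((s ^ i - 1) * (s ^ i - ((c : ℤ) : AddMonoid.End (D.eisTors m)))) :=
    isNilpotent_shift (s ^ i) ((q : ℤ) ^ i) (c : ℤ) (r : ℤ) w hw
      (by rw [Int.cast_pow]; exact hpow) hrnil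
  obtain ⟨n', hn'⟩ := hnil2
  refine ⟨n', ?_⟩
  have hop : (pieceOp (D.eisTors m) g ((c : ℕ) : ℤ) : AddMonoid.End (D.eisTors m)) =
      (s ^ i - 1) * (s ^ i - ((c : ℤ) : AddMonoid.End (D.eisTors m))) := by
    rw [← hig]
    refine DFunLike.ext _ _ fun x => ?_
    show g • (g • x) - g • x - (c : ℤ) • (g • x) + (c : ℤ) • x =
      g • (g • x - (c : ℤ) • x) - (g • x - (c : ℤ) • x)
    rw [smul_sub, SMulCommClass.smul_comm g (c : ℤ)]
    abel
  have := congrArg (fun f : AddMonoid.End (D.eisTors m) => f b) hn'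
  rw [← hop] at this
  exact (congrFun (AddMonoid.End.coe_pow _
    (pieceOp (D.eisTors m) g ((c : ℕ) : ℤ) : AddMonoid.End (D.eisTors m)) n') b).symm.trans this

end EisensteinDatum

end Fermat.Agent.Mazur.Eisenstein
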