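import Fermat.Agent.Mazur.Eisenstein.Unit
import Fermat.Agent.Genus.Main

/-!
# The cuspidal class is not zero
-/

set_option autoImplicit false

noncomputable section

open AlgebraicCurve ModularCurve

namespace Fermat.Agent.Mazur.Eisenstein

open Fermat.Agent.Genus (Fbar jB)

local notation "Qb" => AlgebraicClosure ℚ

section RatField

variable {K F : Type*} [Field K] [IsAlgClosed K] [CharZero K] [Field F] [Algebra K F]
  [FF.IsFunctionField K F]

/-- A function with a single simple pole makes the genus `0`. -/
theorem genus_eq_zero_of_single_pole {f : F} {P : Place K F} (hP : P.ord f = -1)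
    (hother : ∀ v : Place K F, v ≠ P → 0 ≤ v.ord f) : genus K F = 0 := by
  classical
  have hf : Transcendental K f := fun h => by
    rw [FF.ord_eq_zero_of_isAlgebraic h P] at hP; norm_num at hP
  have hpoles : FF.poles K f = Finsupp.single P 1 := by
    ext v
    rw [FF.poles_apply]
    by_cases h : v = P
    · subst h; rw [hP, Finsupp.single_eq_same]; norm_num
    · rw [Finsupp.single_eq_of_ne h]
      have := hother v h
      omega
  -- every value is taken exactly once, simply
  have hsimple : ∀ (v : Place K F) (c : K), 0 < v.ord (f - algebraMap K F c) →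
      v.ord (f - algebraMap K F c) = 1 := by
    intro v c hv
    set g := f - algebraMap K F c with hg
    have hgt : Transcendental K g := fun h => hf (by
      have := h.add (isAlgebraic_algebraMap (A := F) c)
      rwa [hg, sub_add_cancel] at this)
    have hgp : FF.poles K g = Finsupp.single P 1 := by
      rw [← hpoles]
      ext u
      rw [FF.poles_apply, FF.poles_apply]
      rcases lt_trichotomy (u.ord f) 0 with h | h | h
      · have hf0 : f ≠ 0 := fun h0 => by rw [h0, u.ord_zero] at h; omega
        rw [hg, sub_eq_add_neg, (FF.ord_add_eq_left u (g := -algebraMap K F c) hf0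
          (Or.inr (by rw [FF.ord_neg, FF.ord_algebraMap]; exact h))).2]
      all_goals
        have h0 : 0 ≤ u.ord g := FF.ord_nonneg u (sub_mem ((FF.mem_iff u).mpr (Or.inr (by omega)))
          (u.algebraMap_mem' c))
        omega
    have hdeg : Divisor.degree (FF.poles K g⁻¹) = 1 := by
      rw [FF.degree_zeros hgt, ← FF.degree_poles hgt, hgp, Divisor.degree_single, FF.deg_eq_one,
        Nat.cast_one, mul_one]
    have hle : Finsupp.single v (v.ord g) ≤ FF.poles K g⁻¹ := Finsupp.le_def.mpr fun u => by
      rw [FF.poles_apply, u.ord_inv]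
      by_cases h : u = v
      · subst h; rw [Finsupp.single_eq_same]; omega
      · rw [Finsupp.single_eq_of_ne h]; omega
    have := FF.degree_mono hle
    rw [Divisor.degree_single, FF.deg_eq_one, Nat.cast_one, mul_one, hdeg] at this
    omega
  have hcan : canonicalDivisorOf (FF.D_ne_zero (K := K) hf) = Finsupp.single P (-2) := by
    ext v
    rw [canonicalDivisorOf_apply]
    by_cases h : v = P
    · subst h
      rw [FF.ordDifferential_D_of_ord_neg v (by omega), hP, Finsupp.single_eq_same]
      norm_num
    · obtain ⟨c, hc⟩ := FF.exists_ord_sub_pos v hf (hother v h)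
      rw [FF.ordDifferential_D v c hc.ne', hsimple v c hc, Finsupp.single_eq_of_ne h, sub_self]
  rw [FF.genus_eq_of_dx hf, hcan, Divisor.degree_single, FF.deg_eq_one]
  norm_num

end RatField

theorem natCard_root_quadratic_le (p : ℕ) [Fact p.Prime] (a b : ZMod p) :
    Nat.card {x : ZMod p // x ^ 2 + a * x + b = 0} ≤ 2 := by
  classical
  open Polynomial in
  set P : (ZMod p)[X] := X ^ 2 + C a * X + C b with hP
  have hdeg : P.natDegree = 2 := by rw [hP]; compute_degree!
  have hP0 : P ≠ 0 := fun h => by simp [h] at hdeg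
  rw [Nat.card_eq_fintype_card, Fintype.card_subtype]
  refine le_trans ?_ ((Multiset.toFinset_card_le _).trans ((P.card_roots').trans hdeg.le))
  refine Finset.card_le_card fun x hx => ?_
  rw [Multiset.mem_toFinset, Polynomial.mem_roots hP0, Polynomial.IsRoot]
  simpa [hP] using (Finset.mem_filter.mp hx).2

theorem genusFormula_pos (p : ℕ) [hp : Fact p.Prime] (hp' : p ∉ ({2, 3, 5, 7, 13} : Finset ℕ)) :
    0 < genusFormula p := by
  by_cases h11 : p = 11
  · subst h11
    have h2 : nuTwo 11 = 0 := by
      rw [nuTwo]; exact Nat.card_eq_zero.mpr (Or.inl ⟨fun x => absurd x.2 (by revert x; decide)⟩)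
    have h3 : nuThree 11 = 0 := by
      rw [nuThree]; exact Nat.card_eq_zero.mpr (Or.inl ⟨fun x => absurd x.2 (by revert x; decide)⟩)
    rw [genusFormula, h2, h3, dedekindPsi_prime, cuspCount_prime]
    norm_num
  have hbig : 17 ≤ p := by
    have h := hp.out
    simp only [Finset.mem_insert, Finset.mem_singleton, not_or] at hp'
    by_contra hcon
    interval_cases p <;> simp_all <;> exact absurd h (by decide)
  have h2 : nuTwo p ≤ 2 := by
    have h := natCard_root_quadratic_le p 0 1
    simpa [nuTwo] using h
  have h3 : nuThree p ≤ 2 := by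
    have h := natCard_root_quadratic_le p 1 1
    simpa [nuThree] using h
  rw [genusFormula, dedekindPsi_prime, cuspCount_prime]
  have e1 : (nuTwo p : ℚ) ≤ 2 := by exact_mod_cast h2
  have e2 : (nuThree p : ℚ) ≤ 2 := by exact_mod_cast h3
  have e3 : (17 : ℚ) ≤ p := by exact_mod_cast hbig
  push_cast
  linarith

variable (p : ℕ) [hp : Fact p.Prime]

/-- `c ≠ 0` when `X₀(p)` has positive genus. -/
theorem cuspidal_ne_zero (hp' : p ∉ ({2, 3, 5, 7, 13} : Finset ℕ)) : cuspidal p ≠ 0 := by
  classical
  intro h0
  have h1 := (QuotientAddGroup.eq_zero_iff _).mp h0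
  rw [AddSubgroup.mem_addSubgroupOf] at h1
  obtain ⟨f, hf, hdiv⟩ := h1
  have hne := placeZero_ne_placeInf p
  have hval : ∀ v, cuspDiv p v = v.ord f := hdiv
  have hg := genus_eq_zero_of_single_pole (f := f) (P := placeInf p) ?_ ?_
  · have h := Genus.genus_eq_genusFormula p
    rw [hg, Nat.cast_zero] at h
    exact (genusFormula_pos p hp').ne h
  · rw [← hval, cuspDiv, Finsupp.sub_apply, Finsupp.single_eq_same,
      Finsupp.single_eq_of_ne (Ne.symm hne)]
    norm_num
  · intro v hv
    rw [← hval, cuspDiv, Finsupp.sub_apply, Finsupp.single_eq_of_ne hv, Finsupp.single_apply]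
    split_ifs <;> norm_num

/-- `c` has finite order, dividing `p - 1` and different from `1`. -/
theorem addOrderOf_cuspidal (hp' : p ∉ ({2, 3, 5, 7, 13} : Finset ℕ)) :
    addOrderOf (cuspidal p) ∣ p - 1 ∧ addOrderOf (cuspidal p) ≠ 1 :=
  ⟨addOrderOf_dvd_of_nsmul_eq_zero (nsmul_cuspidal p),
    fun h => cuspidal_ne_zero p hp' (AddMonoid.addOrderOf_eq_one_iff.mp h)⟩

end Fermat.Agent.Mazur.Eisenstein

end
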