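import Fermat.Agent.Mazur.Eisenstein.CuspDiscHecke
import Fermat.Agent.Mazur.Eisenstein.Cuspidal
import Fermat.Agent.Mazur.Eisenstein.RedKernel
import Fermat.Agent.Mazur.Moduli.Main
import Fermat.Agent.Arith.Frobenius

/-!
# Mazur's component lemma

A curve with a stable subgroup of prime order `p ∉ {2, 3, 5, 7, 13}` in the identity component at
the multiplicative places `2` and `3` has it there at every multiplicative place `≠ p`, and
likewise for the other components: the difference of the attached point of `X₀(p)` and a cusp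
would otherwise contradict the Eisenstein descent.
-/

set_option autoImplicit false
set_option linter.unusedSectionVars false
set_option linter.style.haveILetI false

noncomputable section

open AlgebraicCurve ModularCurve
open scoped WeierstrassCurve.Affine Pointwise

namespace Fermat.Agent.Mazur.Eisenstein

local notation "Qb" => AlgebraicClosure ℚ
local notation "GalQ" => (AlgebraicClosure ℚ ≃ₐ[ℚ] AlgebraicClosure ℚ)

section Core

variable (p : ℕ) [NeZero p]

/-- The statement of the Eisenstein descent on `J₀(p)`. -/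
def DescentProperty : Prop :=
  ∀ {r : ℕ}, r.Prime → ∀ (c : JZero p) (ε : HeckeAlg →+* ℤ),
    (∀ σ : GalQ, σ • c = c) →
    (∀ t : HeckeAlg, (letI := heckeModuleBar p; t • c) = ε t • c) →
    0 < addOrderOf c → r ∣ addOrderOf c → r ≠ p →
    ∃ (C : ℕ) (t : HeckeAlg), (r : ℤ) ∣ ε t - 1 ∧
      ∀ y : JZero p, (∀ σ : GalQ, σ • y = y) → ∀ m : ℕ, ∃ z : JZero p,
        (∀ σ : GalQ, σ • z = z) ∧
          r ^ C • (letI := heckeModuleBar p; (t ^ r ^ m) • y) = r ^ m • z

/-- Fixed points of order `r` do not reduce to zero at `r`. -/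
def FixedTorsionProperty : Prop :=
  ∀ {r : ℕ}, r.Prime → r ≠ 2 → r ≠ p → ∀ A : ValuationSubring Qb, A.LiesOverPrime r →
    ∀ x : JZero p, (∀ σ : GalQ, σ • x = x) → r • x = 0 → x ∈ kerRed p A → x = 0

theorem eq_zero_of_coprime_nsmul {G : Type*} [AddCommGroup G] {x : G} {a b : ℕ}
    (hab : Nat.Coprime a b) (ha : a • x = 0) (hb : b • x = 0) : x = 0 := by
  rw [← addOrderOf_dvd_iff_nsmul_eq_zero] at ha hb
  exact AddMonoid.addOrderOf_eq_one_iff.mp
    (Nat.eq_one_of_dvd_one (hab ▸ Nat.dvd_gcd ha hb))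

theorem exists_last_nonzero {G : Type*} [AddCommGroup G] {x : G} {r a : ℕ} (hx : x ≠ 0)
    (ha : r ^ a • x = 0) : ∃ k, r ^ k • x ≠ 0 ∧ r ^ (k + 1) • x = 0 := by
  induction a with
  | zero => exact absurd (by simpa using ha) hx
  | succ n ih =>
    by_cases h : r ^ n • x = 0
    · exact ih h
    · exact ⟨n, h, ha⟩

theorem exists_bound_fixed (hp : p.Prime) {q : ℕ} (hq : q.Prime) (hqp : q ≠ p)
    {A : ValuationSubring Qb} (hA : A.LiesOverPrime q) {r : ℕ} (hr : r.Prime) :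
    ∃ (b δ : ℕ), ¬ r ∣ δ ∧
      ∀ z : JZero p, (∀ σ : GalQ, σ • z = z) → (r ^ b * δ) • z ∈ kerRed p A := by
  haveI := Fact.mk hq
  haveI := Arith.residueField_isAlgClosed A
  have hNA : (p : EichlerShimura.Kappa A) ≠ 0 :=
    EichlerShimura.natCast_ne_zero hq (fun h => hqp ((Nat.prime_dvd_prime_iff_eq hq hp).mp h)) hA
  obtain ⟨δ, hδ, hδ'⟩ := exists_bound_kerRed hNA hq hA
  obtain ⟨b, δ', hrδ, rfl⟩ := Nat.exists_eq_pow_mul_and_not_dvd hδ r hr.ne_one
  obtain ⟨φ, hφ⟩ := Arith.exists_isFrobeniusAt hA hq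
  exact ⟨b, δ', hrδ, fun z hz => hδ' φ hφ z (by rw [hz, hz, sub_self]; exact zero_mem _)⟩

/-- The endgame: a fixed class cannot reduce to zero at `2` and `3` and to a nonzero Eisenstein
torsion class at another place. -/
theorem false_of_descent (hp : p.Prime) (hinj : EichlerShimura.InjectiveOnTorsion p)
    (hdesc : DescentProperty p) (hfix : FixedTorsionProperty p) (h2p : p ≠ 2) (h3p : p ≠ 3)
    (c : JZero p) (ε : HeckeAlg →+* ℤ) (hc : ∀ σ : GalQ, σ • c = c)
    (hεc : ∀ t : HeckeAlg, (letI := heckeModuleBar p; t • c) = ε t • c)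
    (hord : addOrderOf c ∣ p - 1) (hc0 : c ≠ 0)
    (y : JZero p) (hy : ∀ σ : GalQ, σ • y = y)
    {A₂ A₃ : ValuationSubring Qb} (hA₂ : A₂.LiesOverPrime 2) (hA₃ : A₃.LiesOverPrime 3)
    (hy₂ : y ∈ kerRed p A₂) (hy₃ : y ∈ kerRed p A₃)
    {l : ℕ} (hl : l.Prime) (hlp : l ≠ p) (hl2 : l ≠ 2)
    {A : ValuationSubring Qb} (hA : A.LiesOverPrime l) (hyl : y - c ∈ kerRed p A) : False := by
  letI := heckeModuleBar p
  have hp2 := hp.two_le
  have hpos : 0 < addOrderOf c := Nat.pos_of_dvd_of_pos hord (by omega)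
  have hne1 : addOrderOf c ≠ 1 := fun h => hc0 (AddMonoid.addOrderOf_eq_one_iff.mp h)
  obtain ⟨r, hr, hrc⟩ := Nat.exists_prime_and_dvd hne1
  have hrp : r ≠ p := fun h => by
    have := Nat.le_of_dvd (by omega) (hrc.trans hord)
    omega
  obtain ⟨a, N', hrN', hN⟩ := Nat.exists_eq_pow_mul_and_not_dvd hpos.ne' r hr.ne_one
  set cr := N' • c with hcr
  have hcra : r ^ a • cr = 0 := by
    rw [hcr, ← mul_nsmul', ← hN]; exact addOrderOf_nsmul_eq_zero c
  have hcr0 : cr ≠ 0 := fun h => by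
    have h1 := addOrderOf_dvd_of_nsmul_eq_zero h
    exact hrN' (hrc.trans h1)
  obtain ⟨C, t, ht, hdiv⟩ := hdesc hr c ε hc hεc hpos hrc hrp
  -- an auxiliary place
  obtain ⟨q₀, hq₀, hq₀r, hq₀p, A₀, hA₀, hy₀⟩ : ∃ q₀ : ℕ, q₀.Prime ∧ q₀ ≠ r ∧ q₀ ≠ p ∧
      ∃ A₀ : ValuationSubring Qb, A₀.LiesOverPrime q₀ ∧ y ∈ kerRed p A₀ := by
    by_cases h : r = 2
    · exact ⟨3, Nat.prime_three, by omega, Ne.symm h3p, A₃, hA₃, hy₃⟩
    · exact ⟨2, Nat.prime_two, Ne.symm h, Ne.symm h2p, A₂, hA₂, hy₂⟩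
  obtain ⟨b₀, δ₀, hδ₀, hb₀⟩ := exists_bound_fixed p hp hq₀ hq₀p hA₀ hr
  obtain ⟨b, δ, hδ, hb⟩ := exists_bound_fixed p hp hl hlp hA hr
  set m := C + (a + b₀ + b) with hm
  obtain ⟨z, hz, hzy⟩ := hdiv y hy m
  set e := t ^ r ^ m with he
  -- descent at the auxiliary place
  set τ := e • y - r ^ (a + b₀ + b) • z with hτ
  have hτC : r ^ C • τ = 0 := by
    rw [hτ, nsmul_sub, hzy, ← mul_nsmul', ← pow_add, sub_self]
  have hτ0 : τ = 0 := by
    have h1 : δ₀ • τ ∈ kerRed p A₀ := by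
      rw [hτ, nsmul_sub]
      refine sub_mem (nsmul_mem (hecke_mem_kerRed e hy₀) _) ?_
      have : δ₀ • r ^ (a + b₀ + b) • z = r ^ (a + b) • ((r ^ b₀ * δ₀) • z) := by
        rw [← mul_nsmul', ← mul_nsmul']
        congr 1
        ring
      rw [this]
      exact nsmul_mem (hb₀ z hz) _
    have h2 : r ^ C • δ₀ • τ = 0 := by rw [smul_comm, hτC, smul_zero]
    have hq₀N : ¬ q₀ ∣ p := fun h => hq₀p ((Nat.prime_dvd_prime_iff_eq hq₀ hp).mp h)
    have h3 : δ₀ • τ = 0 := eq_zero_of_mem_kerRed hinj hq₀ hq₀N hA₀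
      (fun h => hq₀r ((Nat.prime_dvd_prime_iff_eq hq₀ hr).mp (hq₀.dvd_of_dvd_pow h))) h2 h1
    exact eq_zero_of_coprime_nsmul (Nat.Coprime.pow_left C (hr.coprime_iff_not_dvd.mpr hδ₀)) hτC h3
  rw [hτ, sub_eq_zero] at hτ0
  -- at `l`
  have hecr : N' • (e • c) = cr := by
    have hdvd : ((r ^ a : ℕ) : ℤ) ∣ ε t ^ r ^ m - 1 := by
      have h := dvd_sub_pow_of_dvd_sub (a := ε t) (b := (1 : ℤ)) ht m
      rw [one_pow] at h
      push_cast
      exact (pow_dvd_pow _ (by omega)).trans h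
    obtain ⟨k, hk⟩ := hdvd
    have hεe : e • c = c + ((r ^ a : ℕ) * k : ℤ) • c := by
      rw [he, hεc, map_pow, ← hk, sub_smul, one_smul, add_sub_cancel]
    rw [hεe, nsmul_add, ← hcr, add_eq_left, ← natCast_zsmul, smul_smul,
      show (N' : ℤ) * ((r ^ a : ℕ) * k) = k * (((r ^ a : ℕ) * N' : ℕ) : ℤ) by push_cast; ring,
      mul_smul, natCast_zsmul, ← hN, addOrderOf_nsmul_eq_zero, smul_zero]
  have hmem : δ • cr ∈ kerRed p A := by
    have h1 : δ • (N' • (e • (y - c))) ∈ kerRed p A :=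
      nsmul_mem (nsmul_mem (hecke_mem_kerRed e hyl) _) _
    rw [smul_sub, nsmul_sub, nsmul_sub, hecr, hτ0] at h1
    have h2 : δ • (N' • r ^ (a + b₀ + b) • z) ∈ kerRed p A := by
      have : δ • (N' • r ^ (a + b₀ + b) • z) = (N' * r ^ (a + b₀)) • ((r ^ b * δ) • z) := by
        rw [← mul_nsmul', ← mul_nsmul', ← mul_nsmul']
        congr 1
        ring
      rw [this]
      exact nsmul_mem (hb z hz) _
    have h3 := sub_mem h2 h1
    rwa [sub_sub_cancel] at h3
  have hkill : r ^ a • δ • cr = 0 := by rw [smul_comm, hcra, smul_zero]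
  have hcrfix : ∀ σ : GalQ, σ • cr = cr := fun σ => by
    rw [hcr, EichlerShimura.galois_smul_nsmul, hc]
  have hne : δ • cr ≠ 0 := fun h => hcr0
    (eq_zero_of_coprime_nsmul (Nat.Coprime.pow_left a (hr.coprime_iff_not_dvd.mpr hδ)) hcra h)
  by_cases hlr : l = r
  · subst hlr
    -- a nonzero multiple killed by `r`
    obtain ⟨k, hk0, hk1⟩ := exists_last_nonzero hne hkill
    refine hk0 (hfix hr hl2 hrp A hA _ (fun σ => ?_) ?_ (nsmul_mem hmem _))
    · rw [EichlerShimura.galois_smul_nsmul, EichlerShimura.galois_smul_nsmul, hcrfix]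
    · rw [← mul_nsmul', ← pow_succ']
      exact hk1
  · exact hne (eq_zero_of_mem_kerRed hinj hl
      (fun h => hlp ((Nat.prime_dvd_prime_iff_eq hl hp).mp h)) hA
      (fun h => hlr ((Nat.prime_dvd_prime_iff_eq hl hr).mp (hl.dvd_of_dvd_pow h))) hkill hmem)

end Core

section Component

variable {p : ℕ} [hp : Fact p.Prime]

/-- The class of a place minus the cusp `∞`. -/
def placeClass (x : Place Qb (modularFunctionFieldBar p)) : JZero p :=
  Pic0.mk ⟨Finsupp.single x 1 - Finsupp.single (placeInf p) 1, by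
    rw [Divisor.mem_degZero, map_sub, Divisor.degree_single, Divisor.degree_single,
      FF.deg_eq_one, FF.deg_eq_one, sub_self]⟩

theorem galois_smul_placeClass {x : Place Qb (modularFunctionFieldBar p)}
    (hx : ∀ σ : GalQ, arithmeticGalois (modularFunctionFieldFull p) σ • x = x) (σ : GalQ) :
    σ • placeClass x = placeClass x := by
  rw [placeClass, galois_smul_pic0_def, SemilinearAut.pic0_smul_mk]
  refine congrArg Pic0.mk (Subtype.ext ?_)
  rw [SemilinearAut.coe_degZeroSMulHom, smul_sub, SemilinearAut.smul_single,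
    SemilinearAut.smul_single, hx]
  rw [show arithmeticGalois (modularFunctionFieldFull p) σ • placeInf p = placeInf p from
    galois_smul_placeInf p σ]

variable {A : ValuationSubring Qb} {q : ℕ}

theorem mem_kerRed_of_red_eq (hq : q.Prime) (hqp : q ≠ p) (hA : A.LiesOverPrime q)
    {x P : Place Qb (modularFunctionFieldBar p)} (hP : P = placeInf p ∨ P = placeZero p)
    (h : ∀ h : ReductionInputsModL A p, placeReductionModL h x = placeReductionModL h P)
    (hdeg : Finsupp.single x (1 : ℤ) - Finsupp.single P 1 ∈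
      Divisor.degZero (K := Qb) (F := modularFunctionFieldBar p)) :
    Pic0.mk ⟨_, hdeg⟩ ∈ kerRed p A := by
  haveI := Fact.mk hq
  haveI := Arith.residueField_isAlgClosed A
  have hNA : (p : EichlerShimura.Kappa A) ≠ 0 :=
    EichlerShimura.natCast_ne_zero hq (fun h => hqp ((Nat.prime_dvd_prime_iff_eq hq hp.out).mp h)) hA
  have hin := EichlerShimura.reductionInputsModL (A := A) hNA
  have hPc : InCuspDisc (placeReductionModL hin) P := hP.imp
    (fun e => by rw [e]) (fun e => by rw [e])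
  have hxc : InCuspDisc (placeReductionModL hin) x := by
    unfold InCuspDisc at hPc ⊢
    rwa [h hin]
  refine fun t => reductionModL_smul_eq_zero hNA hin t (mk_mem_discKer ⟨fun P' hP' => ?_, ?_⟩)
  · classical
    rcases Finset.mem_union.mp (Finsupp.support_sub hP') with hs | hs <;>
      rw [Finset.mem_singleton.mp (Finsupp.support_single_subset hs)]
    exacts [hxc, hPc]
  · rw [← Finsupp.mapDomain.addMonoidHom_apply, map_sub, Finsupp.mapDomain.addMonoidHom_apply,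
      Finsupp.mapDomain.addMonoidHom_apply, Finsupp.mapDomain_single, Finsupp.mapDomain_single,
      h hin, sub_self]

theorem placeClass_sub_cuspidal (x : Place Qb (modularFunctionFieldBar p)) :
    ∃ hdeg : Finsupp.single x (1 : ℤ) - Finsupp.single (placeZero p) 1 ∈
        Divisor.degZero (K := Qb) (F := modularFunctionFieldBar p),
      placeClass x - cuspidal p = Pic0.mk ⟨_, hdeg⟩ := by
  refine ⟨by rw [Divisor.mem_degZero, map_sub, Divisor.degree_single, Divisor.degree_single,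
    FF.deg_eq_one, FF.deg_eq_one, sub_self], ?_⟩
  rw [placeClass, cuspidal]
  refine (QuotientAddGroup.mk_sub _ _ _).symm.trans (congrArg Pic0.mk (Subtype.ext ?_))
  exact sub_sub_sub_cancel_right _ _ _

theorem five_le_of_not_mem {p : ℕ} (hp : p.Prime) (hp' : p ∉ ({2, 3, 5, 7, 13} : Finset ℕ)) :
    5 ≤ p := by
  simp only [Finset.mem_insert, Finset.mem_singleton, not_or] at hp'
  have := hp.two_le
  by_contra h
  interval_cases p <;> simp_all (config := { decide := true })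

variable (hp' : p ∉ ({2, 3, 5, 7, 13} : Finset ℕ)) (hinj : EichlerShimura.InjectiveOnTorsion p)
  (hdesc : DescentProperty p) (hfix : FixedTorsionProperty p)
  (W : WeierstrassCurve ℤ) (hΔ : W.Δ ≠ 0)
  (T : ((W.map (Int.castRingHom ℚ))⁄Qb).Point) (hT : addOrderOf T = p)
  (hstable : ∀ σ : GalQ, ∃ k : ℕ, σ • T = k • T)
  (h2Δ : (2 : ℤ) ∣ W.Δ) (h2c₄ : ¬ (2 : ℤ) ∣ W.c₄) (h3Δ : (3 : ℤ) ∣ W.Δ) (h3c₄ : ¬ (3 : ℤ) ∣ W.c₄)
  {l : ℕ} (hl : l.Prime) (hlp : l ≠ p) (hlΔ : (l : ℤ) ∣ W.Δ) (hlc₄ : ¬ (l : ℤ) ∣ W.c₄)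

include hp' hinj hdesc hfix hΔ hT hstable h2Δ h2c₄ h3Δ h3c₄ hl hlp hlΔ hlc₄

/-- Identity component at `2` and `3` implies identity component at `l`. -/
theorem component_eq_in
    (h2 : ∀ A : ValuationSubring Qb, A.LiesOverPrime 2 → W.InZeroComponentAt A T)
    (h3 : ∀ A : ValuationSubring Qb, A.LiesOverPrime 3 → W.InZeroComponentAt A T)
    (A : ValuationSubring Qb) (hA : A.LiesOverPrime l) : W.InZeroComponentAt A T := by
  have hp5 := five_le_of_not_mem hp.out hp'
  by_cases hl2 : l = 2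
  · subst hl2; exact h2 A hA
  by_contra hnot
  obtain ⟨A₂, hA₂⟩ := Arith.exists_liesOverPrime Nat.prime_two
  obtain ⟨A₃, hA₃⟩ := Arith.exists_liesOverPrime Nat.prime_three
  obtain ⟨x, hxfix, hx⟩ := Moduli.exists_moduliPoint hp.out hp5 W hΔ T hT hstable
    ⟨2, A₂, Nat.prime_two, by omega, hA₂, h2Δ, h2c₄, h2 A₂ hA₂⟩
  obtain ⟨ε, hε⟩ := exists_eigen_cuspidal p
  have key : ∀ {q : ℕ}, q.Prime → q ≠ p → (q : ℤ) ∣ W.Δ → ¬ (q : ℤ) ∣ W.c₄ →
      ∀ A : ValuationSubring Qb, A.LiesOverPrime q → W.InZeroComponentAt A T →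
        placeClass x ∈ kerRed p A := fun hq hqp hqΔ hqc A hA hin =>
    mem_kerRed_of_red_eq hq hqp hA (Or.inl rfl)
      (fun h => ((hx _ hq hqp A hA hqΔ hqc h _ _ (ord_placeInf_jB p) (ord_placeZero_jB p)).1 hin)) _
  refine false_of_descent p hp.out hinj hdesc hfix (by omega) (by omega) (cuspidal p) ε
    (galois_smul_cuspidal p) hε (addOrderOf_cuspidal p hp').1 (cuspidal_ne_zero p hp')
    (placeClass x) (galois_smul_placeClass hxfix) hA₂ hA₃
    (key Nat.prime_two (by omega) h2Δ h2c₄ A₂ hA₂ (h2 A₂ hA₂))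
    (key Nat.prime_three (by omega) h3Δ h3c₄ A₃ hA₃ (h3 A₃ hA₃)) hl hlp hl2 hA ?_
  obtain ⟨hdeg, e⟩ := placeClass_sub_cuspidal x
  rw [e]
  exact mem_kerRed_of_red_eq hl hlp hA (Or.inr rfl)
    (fun h => ((hx _ hl hlp A hA hlΔ hlc₄ h _ _ (ord_placeInf_jB p) (ord_placeZero_jB p)).2 hnot)) _

/-- Off the identity component at `2` and `3` implies off it at `l`. -/
theorem component_eq_out
    (h2 : ∀ A : ValuationSubring Qb, A.LiesOverPrime 2 → ¬ W.InZeroComponentAt A T)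
    (h3 : ∀ A : ValuationSubring Qb, A.LiesOverPrime 3 → ¬ W.InZeroComponentAt A T)
    (A : ValuationSubring Qb) (hA : A.LiesOverPrime l) : ¬ W.InZeroComponentAt A T := by
  have hp5 := five_le_of_not_mem hp.out hp'
  by_cases hl2 : l = 2
  · subst hl2; exact h2 A hA
  intro hin
  obtain ⟨A₂, hA₂⟩ := Arith.exists_liesOverPrime Nat.prime_two
  obtain ⟨A₃, hA₃⟩ := Arith.exists_liesOverPrime Nat.prime_three
  obtain ⟨x, hxfix, hx⟩ := Moduli.exists_moduliPoint hp.out hp5 W hΔ T hT hstable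
    ⟨l, A, hl, hlp, hA, hlΔ, hlc₄, hin⟩
  obtain ⟨ε, hε⟩ := exists_eigen_cuspidal p
  obtain ⟨hdeg, e⟩ := placeClass_sub_cuspidal x
  have key : ∀ {q : ℕ}, q.Prime → q ≠ p → (q : ℤ) ∣ W.Δ → ¬ (q : ℤ) ∣ W.c₄ →
      ∀ A : ValuationSubring Qb, A.LiesOverPrime q → ¬ W.InZeroComponentAt A T →
        placeClass x - cuspidal p ∈ kerRed p A := fun hq hqp hqΔ hqc A hA hout => by
    rw [e]
    exact mem_kerRed_of_red_eq hq hqp hA (Or.inr rfl)
      (fun h => ((hx _ hq hqp A hA hqΔ hqc h _ _ (ord_placeInf_jB p) (ord_placeZero_jB p)).2 hout))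
      _
  refine false_of_descent p hp.out hinj hdesc hfix (by omega) (by omega) (-cuspidal p) ε
    (fun σ => ?_) (fun t => ?_) ?_ (neg_ne_zero.mpr (cuspidal_ne_zero p hp'))
    (placeClass x - cuspidal p) (fun σ => ?_) hA₂ hA₃
    (key Nat.prime_two (by omega) h2Δ h2c₄ A₂ hA₂ (h2 A₂ hA₂))
    (key Nat.prime_three (by omega) h3Δ h3c₄ A₃ hA₃ (h3 A₃ hA₃)) hl hlp hl2 hA ?_
  · exact (map_neg (DistribSMul.toAddMonoidHom (JZero p) σ) _).trans
      (congrArg Neg.neg (galois_smul_cuspidal p σ))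
  · letI := heckeModuleBar p
    show t • -cuspidal p = ε t • -cuspidal p
    rw [smul_neg, hε t]
    exact (zsmul_neg _ _).symm
  · rw [addOrderOf_neg]; exact (addOrderOf_cuspidal p hp').1
  · refine (map_sub (DistribSMul.toAddMonoidHom (JZero p) σ) _ _).trans ?_
    show σ • placeClass x - σ • cuspidal p = _
    rw [galois_smul_placeClass hxfix, galois_smul_cuspidal]
  · rw [sub_neg_eq_add, sub_add_cancel]
    exact mem_kerRed_of_red_eq hl hlp hA (Or.inl rfl)
      (fun h => ((hx _ hl hlp A hA hlΔ hlc₄ h _ _ (ord_placeInf_jB p) (ord_placeZero_jB p)).1 hin)) _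

end Component

end Fermat.Agent.Mazur.Eisenstein
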