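import Fermat.Agent.Mazur.Eisenstein.Lattice
import Mathlib.LinearAlgebra.LinearIndependent.BaseChange
import Mathlib.LinearAlgebra.Dimension.Constructions

/-!
# The Eisenstein planes

The decomposition of the Eisenstein lattice into Hecke eigenplanes over an algebraic closure of
`ℚ_r`, and the ranks of Hecke stable sublattices.
-/

set_option autoImplicit false
set_option linter.unusedSectionVars false
set_option linter.style.haveILetI false

noncomputable section

namespace Fermat.Agent.Mazur.Eisenstein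

open Fermat.Agent.Arith Module Matrix

variable {r : ℕ} [Fact r.Prime] {d : ℕ}

/-- A vector of the lattice seen in `Kr r`. -/
def kvec (v : Fin d → ℤ_[r]) : Fin d → Kr r := toK r ∘ v

theorem kvec_add (v w : Fin d → ℤ_[r]) : kvec (v + w) = kvec v + kvec w :=
  funext fun i => map_add (toK r) (v i) (w i)

theorem kvec_smul (c : ℤ_[r]) (v : Fin d → ℤ_[r]) : kvec (c • v) = toK r c • kvec v :=
  funext fun i => map_mul (toK r) c (v i)

theorem kvec_zero : kvec (0 : Fin d → ℤ_[r]) = 0 := funext fun _ => map_zero (toK r)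

theorem kvec_injective : Function.Injective (kvec (r := r) (d := d)) := fun _ _ h =>
  funext fun i => toK_injective (congrFun h i)

theorem kvec_single (i : Fin d) : kvec (Pi.single i (1 : ℤ_[r])) = Pi.single i 1 := by
  funext j
  by_cases h : j = i
  · subst h; simp [kvec]
  · simp [kvec, h]

/-- A matrix over `ℤ_r` seen over `Kr r`. -/
def kmat : Matrix (Fin d) (Fin d) ℤ_[r] →+* Matrix (Fin d) (Fin d) (Kr r) := (toK r).mapMatrix

theorem kvec_mulVec (Y : Matrix (Fin d) (Fin d) ℤ_[r]) (v : Fin d → ℤ_[r]) :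
    kvec (Y *ᵥ v) = kmat Y *ᵥ kvec v :=
  funext fun i => RingHom.map_mulVec (toK r) Y v i

theorem kmat_smul (c : ℤ_[r]) (Y : Matrix (Fin d) (Fin d) ℤ_[r]) :
    kmat (c • Y) = toK r c • kmat Y :=
  Matrix.ext fun i j => map_mul (toK r) c (Y i j)

/-- The space spanned over `Kr r` by a submodule of the lattice. -/
def kspan (X : Submodule ℤ_[r] (Fin d → ℤ_[r])) : Submodule (Kr r) (Fin d → Kr r) :=
  Submodule.span (Kr r) (kvec '' (X : Set (Fin d → ℤ_[r])))

theorem kvec_mem_kspan {X : Submodule ℤ_[r] (Fin d → ℤ_[r])} {v : Fin d → ℤ_[r]} (hv : v ∈ X) :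
    kvec v ∈ kspan X := Submodule.subset_span ⟨v, hv, rfl⟩

/-- A linear map over `ℤ_r` between submodules gives one between the spans. -/
theorem mulVec_mem_kspan {X Y : Submodule ℤ_[r] (Fin d → ℤ_[r])}
    {Z : Matrix (Fin d) (Fin d) ℤ_[r]} (h : ∀ v ∈ X, Z *ᵥ v ∈ Y) {x : Fin d → Kr r}
    (hx : x ∈ kspan X) : kmat Z *ᵥ x ∈ kspan Y := by
  induction hx using Submodule.span_induction with
  | mem x hx => obtain ⟨v, hv, rfl⟩ := hx; rw [← kvec_mulVec]; exact kvec_mem_kspan (h v hv)
  | zero => rw [mulVec_zero]; exact zero_mem _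
  | add x y _ _ ha hb => rw [mulVec_add]; exact add_mem ha hb
  | smul c x _ ha => rw [mulVec_smul]; exact Submodule.smul_mem _ c ha

theorem finrank_kspan (X : Submodule ℤ_[r] (Fin d → ℤ_[r])) :
    finrank (Kr r) (kspan X) = finrank ℤ_[r] X := by
  set b := Module.finBasis ℤ_[r] X
  have halg : algebraMap ℤ_[r] (Kr r) = toK r := IsScalarTower.algebraMap_eq ℤ_[r] ℚ_[r] (Kr r)
  haveI : FaithfulSMul ℤ_[r] (Kr r) :=
    (faithfulSMul_iff_algebraMap_injective ℤ_[r] (Kr r)).mpr (halg ▸ toK_injective)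
  have hli : LinearIndependent (Kr r) fun a => kvec (b a : Fin d → ℤ_[r]) := by
    have := linearIndependent_algebraMap_comp_iff (S := Kr r).mpr
      (b.linearIndependent.map' X.subtype X.ker_subtype)
    rw [halg] at this
    exact this
  have hspan : kspan X = Submodule.span (Kr r) (Set.range fun a => kvec (b a : Fin d → ℤ_[r])) := by
    refine le_antisymm (Submodule.span_le.mpr ?_) (Submodule.span_le.mpr ?_)
    · rintro _ ⟨v, hv, rfl⟩
      have hsum : v = ∑ a, b.repr ⟨v, hv⟩ a • (b a : Fin d → ℤ_[r]) := by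
        have := congrArg X.subtype (b.sum_repr ⟨v, hv⟩)
        rw [map_sum] at this
        simpa using this.symm
      let f : (Fin d → ℤ_[r]) →+ (Fin d → Kr r) := AddMonoidHom.mk' kvec kvec_add
      show f v ∈ _
      rw [hsum, map_sum]
      refine Submodule.sum_mem _ fun a _ => ?_
      show kvec _ ∈ _
      rw [kvec_smul]
      exact Submodule.smul_mem _ _ (Submodule.subset_span ⟨a, rfl⟩)
    · rintro _ ⟨a, rfl⟩; exact kvec_mem_kspan (b a).2
  rw [hspan, finrank_span_eq_card hli, Fintype.card_fin]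

/-- The product of cross products. -/
theorem det_mul_cross {R : Type*} [CommRing R] (G : Matrix (Fin 2) (Fin 2) R) (x l : Fin 2 → R) :
    (G *ᵥ x) 0 * (G *ᵥ l) 1 - (G *ᵥ x) 1 * (G *ᵥ l) 0 = G.det * (x 0 * l 1 - x 1 * l 0) := by
  simp [Matrix.mulVec, dotProduct, Fin.sum_univ_two, Matrix.det_fin_two]
  ring

theorem exists_coords {K : Type*} [Field K] {x l : Fin 2 → K} (h : x 0 * l 1 - x 1 * l 0 ≠ 0)
    (y : Fin 2 → K) : ∃ a c : K, y = a • x + c • l := by
  refine ⟨(y 0 * l 1 - y 1 * l 0) / (x 0 * l 1 - x 1 * l 0),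
    (x 0 * y 1 - x 1 * y 0) / (x 0 * l 1 - x 1 * l 0),
    funext (Fin.forall_fin_two.mpr ⟨?_, ?_⟩)⟩ <;>
    (simp only [Pi.add_apply, Pi.smul_apply, smul_eq_mul, div_mul_eq_mul_div, ← add_div];
     rw [eq_div_iff h]; ring)

/-- Vectors with vanishing cross product are proportional. -/
theorem mem_span_of_cross_eq_zero {K : Type*} [Field K] {x l : Fin 2 → K} (hl : l ≠ 0)
    (h : x 0 * l 1 - x 1 * l 0 = 0) : x ∈ Submodule.span K {l} := by
  rw [Submodule.mem_span_singleton]
  by_cases h0 : l 0 = 0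
  · have h1 : l 1 ≠ 0 := fun h1 => hl (funext fun i => by fin_cases i <;> simp [h0, h1])
    refine ⟨x 1 / l 1, funext fun i => ?_⟩
    fin_cases i
    · simp [h0] at h ⊢
      exact (h.resolve_right h1).symm
    · simp [h1]
  · refine ⟨x 0 / l 0, funext fun i => ?_⟩
    fin_cases i
    · simp [h0]
    · show x 0 / l 0 * l 1 = x 1
      rw [div_mul_eq_mul_div, div_eq_iff h0]
      linear_combination h

variable {p : ℕ} {J : Type} [AddCommGroup J] [DistribMulAction GQ J]
variable {T : Type} [CommRing T] [Module T J]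

namespace EisensteinDatum

variable (D : EisensteinDatum p r J T)

/-- The Hecke action over `Kr r`. -/
def matK : T →+* Matrix (Fin D.d) (Fin D.d) (Kr r) := kmat.comp ((intMat r).comp D.mat)

theorem matK_eq (t : T) : D.matK t = (D.mat t).map (Int.castRingHom (Kr r)) :=
  Matrix.ext fun i j => map_intCast (toK r) (D.mat t i j)

/-- The inclusion of a plane. -/
def planeEmb (i : Fin D.n) : (Fin 2 → Kr r) →ₗ[Kr r] (Fin D.d → Kr r) :=
  Fintype.linearCombination (Kr r) fun k => D.planeBasis (i, k)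

theorem planeEmb_apply (i : Fin D.n) (x : Fin 2 → Kr r) :
    D.planeEmb i x = ∑ k, x k • D.planeBasis (i, k) := Fintype.linearCombination_apply _ _ _

/-- The component on a plane. -/
def planeCoord (i : Fin D.n) : (Fin D.d → Kr r) →ₗ[Kr r] (Fin 2 → Kr r) :=
  LinearMap.pi fun k => D.planeBasis.coord (i, k)

theorem planeCoord_emb (i j : Fin D.n) (x : Fin 2 → Kr r) :
    D.planeCoord j (D.planeEmb i x) = if j = i then x else 0 := by
  funext k
  show D.planeBasis.repr (D.planeEmb i x) (j, k) = _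
  rw [planeEmb_apply, map_sum, Finsupp.finsetSum_apply]
  simp only [map_smul, Basis.repr_self, Finsupp.smul_single, smul_eq_mul, mul_one,
    Finsupp.single_apply, Prod.mk.injEq]
  by_cases h : j = i
  · subst h; simp
  · simp [h, Ne.symm h]

theorem sum_emb_coord (v : Fin D.d → Kr r) : ∑ i, D.planeEmb i (D.planeCoord i v) = v := by
  simp only [planeEmb_apply]
  rw [← Fintype.sum_prod_type (f := fun x : Fin D.n × Fin 2 =>
    D.planeCoord x.1 v x.2 • D.planeBasis x)]
  exact D.planeBasis.sum_repr v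

theorem coord_ext {v w : Fin D.d → Kr r} (h : ∀ i, D.planeCoord i v = D.planeCoord i w) :
    v = w := by
  rw [← D.sum_emb_coord v, ← D.sum_emb_coord w]
  exact Finset.sum_congr rfl fun i _ => by rw [h]

theorem matK_emb (t : T) (i : Fin D.n) (x : Fin 2 → Kr r) :
    D.matK t *ᵥ D.planeEmb i x = D.theta i t • D.planeEmb i x := by
  rw [planeEmb_apply, mulVec_sum, Finset.smul_sum]
  refine Finset.sum_congr rfl fun k _ => ?_
  rw [mulVec_smul, matK_eq, D.mat_planeBasis, smul_smul, smul_smul, mul_comm]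

theorem coord_matK (t : T) (i : Fin D.n) (v : Fin D.d → Kr r) :
    D.planeCoord i (D.matK t *ᵥ v) = D.theta i t • D.planeCoord i v := by
  conv_lhs => rw [← D.sum_emb_coord v, mulVec_sum, map_sum]
  rw [Finset.sum_eq_single i]
  · rw [matK_emb, map_smul, planeCoord_emb, if_pos rfl]
  · intro j _ hj
    rw [matK_emb, map_smul, planeCoord_emb, if_neg (Ne.symm hj), smul_zero]
  · intro h; exact absurd (Finset.mem_univ i) h

/-- The action of an automorphism on a plane. -/
def planeMat (g : GQ) (i : Fin D.n) : Matrix (Fin 2) (Fin 2) (Kr r) :=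
  (D.gal_planeBasis g i).choose

theorem det_planeMat (g : GQ) (i : Fin D.n) : (D.planeMat g i).det = toK r (chi r g) :=
  (D.gal_planeBasis g i).choose_spec.2

theorem galK_emb (g : GQ) (i : Fin D.n) (x : Fin 2 → Kr r) :
    kmat (D.gal g) *ᵥ D.planeEmb i x = D.planeEmb i (D.planeMat g i *ᵥ x) := by
  rw [planeEmb_apply, planeEmb_apply, mulVec_sum]
  simp only [mulVec_smul]
  have h : ∀ j, kmat (D.gal g) *ᵥ D.planeBasis (i, j) =
      ∑ k, D.planeMat g i k j • D.planeBasis (i, k) := (D.gal_planeBasis g i).choose_spec.1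
  simp only [h, Finset.smul_sum, smul_smul]
  rw [Finset.sum_comm]
  refine Finset.sum_congr rfl fun k _ => ?_
  rw [← Finset.sum_smul]
  congr 1
  exact Finset.sum_congr rfl fun j _ => mul_comm _ _

theorem coord_galK (g : GQ) (i : Fin D.n) (v : Fin D.d → Kr r) :
    D.planeCoord i (kmat (D.gal g) *ᵥ v) = D.planeMat g i *ᵥ D.planeCoord i v := by
  conv_lhs => rw [← D.sum_emb_coord v, mulVec_sum, map_sum]
  rw [Finset.sum_eq_single i]
  · rw [galK_emb, planeCoord_emb, if_pos rfl]
  · intro j _ hj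
    rw [galK_emb, planeCoord_emb, if_neg (Ne.symm hj)]
  · intro h; exact absurd (Finset.mem_univ i) h

/-- A Hecke stable subspace contains the plane components of its elements. -/
theorem emb_coord_mem {W : Submodule (Kr r) (Fin D.d → Kr r)}
    (hW : ∀ (t : T), ∀ w ∈ W, D.matK t *ᵥ w ∈ W) {w : Fin D.d → Kr r} (hw : w ∈ W) (i : Fin D.n) :
    D.planeEmb i (D.planeCoord i w) ∈ W := by
  classical
  suffices H : ∀ s : Finset (Fin D.n), i ∉ s → ∃ u ∈ W, D.planeCoord i u = D.planeCoord i w ∧
      ∀ j ∈ s, D.planeCoord j u = 0 by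
    obtain ⟨u, hu, h1, h2⟩ := H (Finset.univ.erase i) (Finset.notMem_erase i _)
    have : u = D.planeEmb i (D.planeCoord i w) := D.coord_ext fun j => by
      rw [planeCoord_emb]
      by_cases h : j = i
      · subst h; rw [if_pos rfl, h1]
      · rw [if_neg h, h2 j (Finset.mem_erase.mpr ⟨h, Finset.mem_univ j⟩)]
    rwa [← this]
  intro s
  induction s using Finset.induction_on with
  | empty => exact fun _ => ⟨w, hw, rfl, by simp⟩
  | insert k s hk ih =>
    intro hi
    rw [Finset.mem_insert, not_or] at hi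
    obtain ⟨u, hu, h1, h2⟩ := ih hi.2
    obtain ⟨t, ht⟩ : ∃ t, D.theta i t ≠ D.theta k t := by
      by_contra hcon
      push Not at hcon
      exact hi.1 (D.theta_injective (RingHom.ext hcon))
    refine ⟨(D.theta i t - D.theta k t)⁻¹ • (D.matK t *ᵥ u - D.theta k t • u),
      W.smul_mem _ (sub_mem (hW t u hu) (W.smul_mem _ hu)), ?_, fun j hj => ?_⟩
    · rw [map_smul, map_sub, coord_matK, map_smul, ← sub_smul, h1,
        inv_smul_smul₀ (sub_ne_zero.mpr ht)]
    · rw [map_smul, map_sub, coord_matK, map_smul, ← sub_smul]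
      rcases Finset.mem_insert.mp hj with rfl | hj
      · rw [sub_self, zero_smul, smul_zero]
      · rw [h2 j hj, smul_zero, smul_zero]

theorem idem_mem_span :
    D.idem ∈ Submodule.span ℤ_[r] (Set.range fun t => intMat r (D.mat t)) := by
  refine mem_of_forall_mem_sup _ fun m => ?_
  obtain ⟨Z, hZ⟩ := (D.idem_modEq m).mono (Nat.le_succ m)
  exact ⟨Z, by rw [← hZ, sub_sub_cancel]; exact Submodule.subset_span ⟨_, rfl⟩⟩

theorem exists_eScal (i : Fin D.n) :
    ∃ e : Kr r, ∀ x, kmat D.idem *ᵥ D.planeEmb i x = e • D.planeEmb i x := by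
  suffices H : ∀ Y ∈ Submodule.span ℤ_[r] (Set.range fun t => intMat r (D.mat t)),
      ∃ e : Kr r, ∀ x, kmat Y *ᵥ D.planeEmb i x = e • D.planeEmb i x from H _ D.idem_mem_span
  intro Y hY
  induction hY using Submodule.span_induction with
  | mem Y hY => obtain ⟨t, rfl⟩ := hY; exact ⟨_, D.matK_emb t i⟩
  | zero => exact ⟨0, fun x => by rw [map_zero, zero_mulVec, zero_smul]⟩
  | add a b _ _ ha hb =>
    obtain ⟨e, he⟩ := ha
    obtain ⟨f, hf⟩ := hb
    exact ⟨e + f, fun x => by rw [map_add, add_mulVec, he, hf, add_smul]⟩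
  | smul c a _ ha =>
    obtain ⟨e, he⟩ := ha
    exact ⟨toK r c * e, fun x => by rw [kmat_smul, smul_mulVec, he, smul_smul]⟩

/-- The value of the Eisenstein idempotent on a plane. -/
def eScal (i : Fin D.n) : Kr r := (D.exists_eScal i).choose

theorem coord_idem (i : Fin D.n) (v : Fin D.d → Kr r) :
    D.planeCoord i (kmat D.idem *ᵥ v) = D.eScal i • D.planeCoord i v := by
  conv_lhs => rw [← D.sum_emb_coord v, mulVec_sum, map_sum]
  rw [Finset.sum_eq_single i]
  · rw [(D.exists_eScal i).choose_spec, map_smul, planeCoord_emb, if_pos rfl]; rfl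
  · intro j _ hj
    rw [(D.exists_eScal j).choose_spec, map_smul, planeCoord_emb, if_neg (Ne.symm hj), smul_zero]
  · intro h; exact absurd (Finset.mem_univ i) h

theorem eScal_eq_zero_or_one (i : Fin D.n) : D.eScal i = 0 ∨ D.eScal i = 1 := by
  have h := congrArg (fun Y => D.planeCoord i (kmat Y *ᵥ D.planeEmb i (Pi.single 0 1))) D.idem_mul_idem
  simp only [map_mul, ← mulVec_mulVec, coord_idem, planeCoord_emb, ↓reduceIte] at h
  have h0 := congrFun h 0
  simp only [Pi.smul_apply, smul_eq_mul, Pi.single_eq_same, mul_one] at h0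
  exact IsIdempotentElem.iff_eq_zero_or_one.mp h0

open scoped Classical in
/-- The planes of the Eisenstein part. -/
def eisPlanes : Finset (Fin D.n) := Finset.univ.filter fun i => D.eScal i = 1

theorem mem_eisPlanes {i : Fin D.n} : i ∈ D.eisPlanes ↔ D.eScal i = 1 := by
  simp [eisPlanes]

/-- The rank of the Eisenstein part, halved. -/
def eisRank : ℕ := D.eisPlanes.card

theorem mem_kspan_eisLat {v : Fin D.d → Kr r} :
    v ∈ kspan D.eisLat ↔ ∀ i ∉ D.eisPlanes, D.planeCoord i v = 0 := by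
  constructor
  · intro hv i hi
    have hfix : kmat D.idem *ᵥ v = v := by
      induction hv using Submodule.span_induction with
      | mem x hx => obtain ⟨w, hw, rfl⟩ := hx; rw [← kvec_mulVec, D.mem_eisLat.mp hw]
      | zero => rw [mulVec_zero]
      | add x y _ _ ha hb => rw [mulVec_add, ha, hb]
      | smul c x _ ha => rw [mulVec_smul, ha]
    rw [← hfix, coord_idem, (D.eScal_eq_zero_or_one i).resolve_right fun h =>
      hi (D.mem_eisPlanes.mpr h), zero_smul]
  · intro h
    have hfix : kmat D.idem *ᵥ v = v := D.coord_ext fun i => by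
      rw [coord_idem]
      by_cases hi : i ∈ D.eisPlanes
      · rw [D.mem_eisPlanes.mp hi, one_smul]
      · rw [h i hi, smul_zero]
    rw [← hfix]
    conv => arg 2; arg 2; rw [pi_eq_sum_univ' v]
    rw [mulVec_sum]
    refine Submodule.sum_mem _ fun j _ => ?_
    rw [mulVec_smul]
    refine Submodule.smul_mem _ _ ?_
    rw [← kvec_single, ← kvec_mulVec]
    exact kvec_mem_kspan (D.idem_mulVec_mem _)

theorem emb_mem_kspan_eisLat {i : Fin D.n} (hi : i ∈ D.eisPlanes) (x : Fin 2 → Kr r) :
    D.planeEmb i x ∈ kspan D.eisLat :=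
  D.mem_kspan_eisLat.mpr fun j hj => by
    rw [planeCoord_emb, if_neg (by rintro rfl; exact hj hi)]

theorem matK_mem_kspan {X : Submodule ℤ_[r] (Fin D.d → ℤ_[r])}
    (hX : ∀ (t : T), ∀ v ∈ X, intMat r (D.mat t) *ᵥ v ∈ X) (t : T) :
    ∀ w ∈ kspan X, D.matK t *ᵥ w ∈ kspan X := fun _ hw => mulVec_mem_kspan (hX t) hw

/-- The rank of a Hecke stable sublattice is the sum of those of its components. -/
theorem finrank_eq_sum {X : Submodule ℤ_[r] (Fin D.d → ℤ_[r])} (hle : X ≤ D.eisLat)
    (hX : ∀ (t : T), ∀ v ∈ X, intMat r (D.mat t) *ᵥ v ∈ X) :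
    finrank ℤ_[r] X =
      ∑ i ∈ D.eisPlanes, finrank (Kr r) ((kspan X).map (D.planeCoord i)) := by
  classical
  set W := kspan X with hW
  have hWle : W ≤ kspan D.eisLat := Submodule.span_mono (Set.image_mono hle)
  let f : W →ₗ[Kr r] ((i : D.eisPlanes) → W.map (D.planeCoord i)) :=
    LinearMap.pi fun i => ((D.planeCoord i).domRestrict W).codRestrict _ fun w => ⟨w, w.2, rfl⟩
  have hinj : Function.Injective f := by
    intro a b h
    refine Subtype.ext (D.coord_ext fun i => ?_)
    by_cases hi : i ∈ D.eisPlanes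
    · exact congrArg Subtype.val (congrFun h ⟨i, hi⟩)
    · rw [D.mem_kspan_eisLat.mp (hWle a.2) i hi, D.mem_kspan_eisLat.mp (hWle b.2) i hi]
  have hsurj : Function.Surjective f := by
    intro y
    choose w hw hwy using fun i => (y i).2
    refine ⟨⟨∑ i : D.eisPlanes, D.planeEmb i (D.planeCoord i (w i)),
      Submodule.sum_mem _ fun i _ => D.emb_coord_mem (D.matK_mem_kspan hX) (hw i) i⟩,
      funext fun j => Subtype.ext ?_⟩
    show D.planeCoord j (∑ i : D.eisPlanes, D.planeEmb i (D.planeCoord i (w i))) = (y j : Fin 2 → Kr r)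
    rw [map_sum, Finset.sum_eq_single j]
    · rw [planeCoord_emb, if_pos rfl, hwy]
    · intro i _ hij
      rw [planeCoord_emb, if_neg fun h => hij (Subtype.ext h.symm)]
    · intro h; exact absurd (Finset.mem_univ j) h
  rw [← finrank_kspan, ← hW, (LinearEquiv.ofBijective f ⟨hinj, hsurj⟩).finrank_eq,
    Module.finrank_pi_fintype]
  exact Finset.sum_coe_sort D.eisPlanes (fun i => finrank (Kr r) (W.map (D.planeCoord i)))

theorem map_coord_eisLat {i : Fin D.n} (hi : i ∈ D.eisPlanes) :
    (kspan D.eisLat).map (D.planeCoord i) = ⊤ :=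
  eq_top_iff.mpr fun x _ => ⟨_, D.emb_mem_kspan_eisLat hi x, by rw [planeCoord_emb, if_pos rfl]⟩

/-- The rank of the Eisenstein lattice. -/
theorem finrank_eisLat : finrank ℤ_[r] D.eisLat = 2 * D.eisRank := by
  rw [D.finrank_eq_sum le_rfl fun t v hv => D.mat_mem_eisLat t hv, Finset.sum_congr rfl fun i hi => by
    rw [D.map_coord_eisLat hi, finrank_top, Module.finrank_fintype_fun_eq_card, Fintype.card_fin]]
  rw [Finset.sum_const, smul_eq_mul, eisRank, mul_comm]

end EisensteinDatum

end Fermat.Agent.Mazur.Eisenstein
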