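import Fermat.Agent.Mazur.Eisenstein.Local
import Fermat.Agent.Mazur.Eisenstein.Planes

/-!
# The lines reducing to zero in the Eisenstein planes

In each plane the part reducing to zero at `r` is a line; consequences for the Frobenius at `r`
and for Frobenius and monodromy at `p`.
-/

set_option autoImplicit false
set_option linter.unusedSectionVars false
set_option linter.style.haveILetI false

noncomputable section

namespace Fermat.Agent.Mazur.Eisenstein

open Fermat.Agent.Arith Module Matrix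
open scoped Pointwise

variable {r : ℕ} [Fact r.Prime] {d : ℕ}

theorem kmat_mulVec_eq {X : Submodule ℤ_[r] (Fin d → ℤ_[r])}
    {Y Z : Matrix (Fin d) (Fin d) ℤ_[r]} (h : ∀ v ∈ X, Y *ᵥ v = Z *ᵥ v) {w : Fin d → Kr r}
    (hw : w ∈ kspan X) : kmat Y *ᵥ w = kmat Z *ᵥ w := by
  have h2 : kmat (Y - Z) *ᵥ w = 0 := by
    induction hw using Submodule.span_induction with
    | mem x hx =>
      obtain ⟨v, hv, rfl⟩ := hx
      rw [← kvec_mulVec, sub_mulVec, h v hv, sub_self, kvec_zero]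
    | zero => rw [mulVec_zero]
    | add x y _ _ ha hb => rw [mulVec_add, ha, hb, add_zero]
    | smul c x _ ha => rw [mulVec_smul, ha, smul_zero]
  rwa [map_sub, sub_mulVec, sub_eq_zero] at h2

theorem kspan_map (X : Submodule ℤ_[r] (Fin d → ℤ_[r])) (Z : Matrix (Fin d) (Fin d) ℤ_[r]) :
    kspan (X.map Z.mulVecLin) = (kspan X).map (kmat Z).mulVecLin := by
  rw [kspan, kspan, Submodule.map_span]
  congr 1
  rw [Submodule.map_coe, Set.image_image, Set.image_image]
  exact Set.image_congr fun v _ => kvec_mulVec Z v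

theorem kspan_sup (X Y : Submodule ℤ_[r] (Fin d → ℤ_[r])) :
    kspan (X ⊔ Y) = kspan X ⊔ kspan Y := by
  refine le_antisymm (Submodule.span_le.mpr ?_)
    (sup_le (Submodule.span_mono (Set.image_mono (le_sup_left : X ≤ X ⊔ Y)))
      (Submodule.span_mono (Set.image_mono (le_sup_right : Y ≤ X ⊔ Y))))
  rintro _ ⟨v, hv, rfl⟩
  obtain ⟨a, ha, b, hb, rfl⟩ := Submodule.mem_sup.mp hv
  rw [kvec_add]
  exact Submodule.add_mem_sup (kvec_mem_kspan ha) (kvec_mem_kspan hb)

theorem toK_ne_zero (c : ℤ_[r]ˣ) : toK r (c : ℤ_[r]) ≠ 0 :=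
  (map_ne_zero_iff _ toK_injective).mpr c.ne_zero

variable {p : ℕ} {J : Type} [AddCommGroup J] [DistribMulAction GQ J]
variable {T : Type} [CommRing T] [Module T J]

namespace EisensteinDatum

variable (D : EisensteinDatum p r J T) {A : ValuationSubring QBar}

/-- The component on a plane of the lattice reducing to zero. -/
def connK (A : ValuationSubring QBar) (i : Fin D.n) : Submodule (Kr r) (Fin 2 → Kr r) :=
  (kspan (D.connLat A)).map (D.planeCoord i)

section AtR

variable (hA : A.LiesOverPrime r)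
include hA

theorem mat_connLat : ∀ (t : T), ∀ v ∈ D.connLat A, intMat r (D.mat t) *ᵥ v ∈ D.connLat A :=
  fun t _ hv => D.mat_mem_connLat A (Fact.out : r.Prime) D.ne hA t hv

theorem planeMat_connK {σ : GQ} (hσ : σ ∈ A.inertiaSubgroupIn ℚ) {i : Fin D.n}
    {x : Fin 2 → Kr r} (hx : x ∈ D.connK A i) :
    D.planeMat σ i *ᵥ x = toK r (chi r σ : ℤ_[r]) • x := by
  obtain ⟨w, hw, rfl⟩ := hx
  rw [← coord_galK, kmat_mulVec_eq (Z := (chi r σ : ℤ_[r]) • 1) (fun v hv => by
    rw [smul_mulVec, one_mulVec, D.gal_mulVec_connLat hA hσ hv]) hw, kmat_smul, map_one,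
    smul_mulVec, one_mulVec, map_smul]

theorem planeMat_sub_mem {σ : GQ} (hσ : σ ∈ A.inertiaSubgroupIn ℚ) {i : Fin D.n}
    (hi : i ∈ D.eisPlanes) (x : Fin 2 → Kr r) : D.planeMat σ i *ᵥ x - x ∈ D.connK A i := by
  refine ⟨kmat (D.gal σ - 1) *ᵥ D.planeEmb i x, mulVec_mem_kspan (fun v hv => ?_)
    (D.emb_mem_kspan_eisLat hi x), ?_⟩
  · rw [sub_mulVec, one_mulVec]
    exact D.inertia_sub_mem_connLat A (Fact.out : r.Prime) D.ne hA hσ hv
  · rw [map_sub, sub_mulVec, map_one, one_mulVec, map_sub, coord_galK, planeCoord_emb, if_pos rfl]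

theorem finrank_connK {i : Fin D.n} (hi : i ∈ D.eisPlanes) :
    finrank (Kr r) (D.connK A i) = 1 := by
  obtain ⟨σ, hσ, hne⟩ := exists_inertia_chi_ne_one (r := r) hA
  have hK : toK r (chi r σ : ℤ_[r]) ≠ 1 := fun h => hne (toK_injective (h.trans (map_one _).symm))
  have hle := Submodule.finrank_le (D.connK A i)
  rw [Module.finrank_fintype_fun_eq_card, Fintype.card_fin] at hle
  have hne0 : finrank (Kr r) (D.connK A i) ≠ 0 := by
    intro h0
    rw [Submodule.finrank_eq_zero] at h0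
    have hG : D.planeMat σ i = 1 := Matrix.ext_of_mulVec_single fun j => by
      have := D.planeMat_sub_mem hA hσ hi (Pi.single j 1)
      rw [h0, Submodule.mem_bot, sub_eq_zero] at this
      rw [this, one_mulVec]
    have := D.det_planeMat σ i
    rw [hG, det_one] at this
    exact hK this.symm
  have hne2 : finrank (Kr r) (D.connK A i) ≠ 2 := by
    intro h2
    have htop : D.connK A i = ⊤ := Submodule.eq_top_of_finrank_eq (by
      rw [h2, Module.finrank_fintype_fun_eq_card, Fintype.card_fin])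
    have hG : D.planeMat σ i = toK r (chi r σ : ℤ_[r]) • 1 :=
      Matrix.ext_of_mulVec_single fun j => by
        rw [D.planeMat_connK hA hσ (x := Pi.single j 1) (by rw [htop]; trivial), smul_mulVec,
          one_mulVec]
    have := D.det_planeMat σ i
    rw [hG, det_smul, det_one, mul_one, Fintype.card_fin, sq] at this
    exact hK (mul_right_cancel₀ (toK_ne_zero (chi r σ)) (this.trans (one_mul _).symm))
  omega

/-- The rank of the lattice reducing to zero. -/
theorem finrank_connLat : finrank ℤ_[r] (D.connLat A) = D.eisRank := by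
  refine ((D.finrank_eq_sum (D.connLat_le A) (D.mat_connLat hA)).trans
    (Finset.sum_congr rfl fun i hi => D.finrank_connK hA hi)).trans ?_
  rw [Finset.sum_const, smul_eq_mul, mul_one, eisRank]

variable {φ : GQ} (hφ : A.IsFrobeniusAt φ r)
include hφ

theorem planeMat_mem_connK {i : Fin D.n} {x : Fin 2 → Kr r} (hx : x ∈ D.connK A i) :
    D.planeMat φ i *ᵥ x ∈ D.connK A i := by
  obtain ⟨w, hw, rfl⟩ := hx
  exact ⟨kmat (D.gal φ) *ᵥ w, mulVec_mem_kspan (fun v hv => D.gal_mem_connLat A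
    (Fact.out : r.Prime) D.ne hA (isFrobeniusAt_iff_forall_mem.mp hφ).1 hv) hw,
    D.coord_galK φ i w⟩

theorem mem_connK_of_sq {i : Fin D.n} (hi : i ∈ D.eisPlanes) {x : Fin 2 → Kr r}
    (h : D.planeMat φ i *ᵥ (D.planeMat φ i *ᵥ x) - x ∈ D.connK A i) : x ∈ D.connK A i := by
  classical
  set F : Matrix (Fin D.d) (Fin D.d) ℤ_[r] :=
    (D.gal φ * D.gal φ - 1) * D.idem + (1 - D.idem) with hF
  have hFlat : ∀ v ∈ D.eisLat, F *ᵥ v = D.gal φ *ᵥ (D.gal φ *ᵥ v) - v := fun v hv => by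
    rw [hF, add_mulVec, ← mulVec_mulVec, D.mem_eisLat.mp hv, sub_mulVec, sub_mulVec, one_mulVec,
      D.mem_eisLat.mp hv, sub_self, add_zero, ← mulVec_mulVec]
  have hstab := fun (v : Fin D.d → ℤ_[r]) (hv : v ∈ D.connLat A) => D.gal_mem_connLat A
    (Fact.out : r.Prime) D.ne hA (isFrobeniusAt_iff_forall_mem.mp hφ).1 hv
  have hX : ∀ v ∈ D.connLat A, F.mulVecLin v ∈ D.connLat A := fun v hv => by
    rw [mulVecLin_apply, hFlat v hv.1]
    exact sub_mem (hstab _ (hstab _ hv)) hv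
  have hinj : ∀ v, F.mulVecLin v ∈ D.connLat A → v ∈ D.connLat A := fun v hv => by
    have hv' : v ∈ D.eisLat := by
      rw [D.mem_eisLat]
      have h1 := D.mem_eisLat.mp hv.1
      rw [mulVecLin_apply, mulVec_mulVec] at h1
      have hc : D.idem * (D.gal φ * D.gal φ - 1) = (D.gal φ * D.gal φ - 1) * D.idem := by
        rw [mul_sub, sub_mul, mul_one, one_mul, ← mul_assoc, ← D.gal_idem, mul_assoc,
          ← D.gal_idem, ← mul_assoc]
      have h2 : D.idem * F = (D.gal φ * D.gal φ - 1) * D.idem := by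
        rw [hF, mul_add, mul_sub D.idem 1, mul_one, D.idem_mul_idem, sub_self, add_zero,
          ← mul_assoc, hc, mul_assoc, D.idem_mul_idem]
      rw [h2, hF, add_mulVec, left_eq_add, sub_mulVec, one_mulVec, sub_eq_zero] at h1
      exact h1.symm
    rw [mulVecLin_apply, hFlat v hv'] at hv
    exact D.mem_connLat_of_sq (Fact.out : r.Prime) D.ne hA hφ hv' hv
  obtain ⟨g, δ, hδ, hgX, hg⟩ := exists_adjugate (D.connLat_saturated A) F.mulVecLin hX hinj
  set G := LinearMap.toMatrix' g with hG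
  have hgG : ∀ v, g v = G *ᵥ v := fun v => (LinearMap.toMatrix'_mulVec g v).symm
  have hkey : ∀ v ∈ D.eisLat, (G * F - δ • 1) *ᵥ v ∈ D.connLat A := fun v _ => by
    rw [sub_mulVec, smul_mulVec, one_mulVec, ← mulVec_mulVec, ← hgG]
    exact hg v
  set w := D.planeEmb i x with hw
  have hwE := D.emb_mem_kspan_eisLat hi x
  have h1 : kmat (G * F - δ • 1) *ᵥ w ∈ kspan (D.connLat A) := mulVec_mem_kspan hkey hwE
  have h2 : kmat F *ᵥ w ∈ kspan (D.connLat A) := by
    have e : kmat F *ᵥ w = D.planeEmb i (D.planeMat φ i *ᵥ (D.planeMat φ i *ᵥ x) - x) := by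
      rw [kmat_mulVec_eq (Z := D.gal φ * D.gal φ - 1) (fun v hv => by
        rw [hFlat v hv, sub_mulVec, one_mulVec, ← mulVec_mulVec]) hwE, map_sub, map_mul,
        sub_mulVec, map_one, one_mulVec, ← mulVec_mulVec, galK_emb, galK_emb, map_sub]
    obtain ⟨z, hz, hzx⟩ := h
    rw [e, ← hzx]
    exact D.emb_coord_mem (D.matK_mem_kspan (D.mat_connLat hA)) hz i
  have h3 : kmat G *ᵥ (kmat F *ᵥ w) ∈ kspan (D.connLat A) := by
    exact mulVec_mem_kspan (fun v hv => hgG v ▸ hgX v hv) h2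
  rw [map_sub, map_mul, kmat_smul, map_one, sub_mulVec, smul_mulVec, one_mulVec,
    ← mulVec_mulVec] at h1
  have h6 : toK r δ • w ∈ kspan (D.connLat A) := by simpa using sub_mem h3 h1
  have h7 : w ∈ kspan (D.connLat A) := by
    have := Submodule.smul_mem _ (toK r δ)⁻¹ h6
    rwa [inv_smul_smul₀ ((map_ne_zero_iff _ toK_injective).mpr hδ)] at this
  exact ⟨w, h7, by rw [hw, planeCoord_emb, if_pos rfl]⟩

theorem exists_line {i : Fin D.n} (hi : i ∈ D.eisPlanes) :
    ∃ l : Fin 2 → Kr r, l ≠ 0 ∧ l ∈ D.connK A i ∧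
      (∀ y ∈ D.connK A i, ∃ c : Kr r, y = c • l) ∧ ∃ a : Kr r, D.planeMat φ i *ᵥ l = a • l ∧
      ∀ x, x ∉ D.connK A i → ∃ a' c : Kr r, D.planeMat φ i *ᵥ x = a' • x + c • l ∧
        a * a' = toK r (chi r φ : ℤ_[r]) ∧ a' * a' ≠ 1 := by
  obtain ⟨⟨l, hl⟩, hl0, hgen⟩ := finrank_eq_one_iff'.mp (D.finrank_connK hA hi)
  have hl0' : l ≠ 0 := fun h => hl0 (Subtype.ext h)
  have hgen' : ∀ y ∈ D.connK A i, ∃ c : Kr r, y = c • l := fun y hy => by
    obtain ⟨c, hc⟩ := hgen ⟨y, hy⟩
    exact ⟨c, (congrArg Subtype.val hc).symm⟩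
  obtain ⟨a, ha⟩ := hgen' _ (D.planeMat_mem_connK hA hφ hl)
  refine ⟨l, hl0', hl, hgen', a, ha, fun x hx => ?_⟩
  have hcross : x 0 * l 1 - x 1 * l 0 ≠ 0 := fun h => by
    obtain ⟨c, hc⟩ := Submodule.mem_span_singleton.mp (mem_span_of_cross_eq_zero hl0' h)
    exact hx (hc ▸ Submodule.smul_mem _ c hl)
  obtain ⟨a', c, hxc⟩ := exists_coords hcross (D.planeMat φ i *ᵥ x)
  refine ⟨a', c, hxc, ?_, fun h1 => hx (D.mem_connK_of_sq hA hφ hi ?_)⟩
  · have h := det_mul_cross (D.planeMat φ i) x l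
    rw [hxc, ha, D.det_planeMat] at h
    simp only [Pi.add_apply, Pi.smul_apply, smul_eq_mul] at h
    refine mul_right_cancel₀ hcross ?_
    linear_combination h
  · rw [hxc, mulVec_add, mulVec_smul, mulVec_smul, hxc, ha, smul_add, smul_smul, smul_smul,
      smul_smul, h1, one_smul, add_assoc, add_sub_cancel_left]
    exact add_mem (Submodule.smul_mem _ _ hl) (Submodule.smul_mem _ _ hl)

/-- A map from the Eisenstein lattice to its part reducing to zero, killing that part, commuting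
with the Hecke action and twisted by the cyclotomic character under a Frobenius, vanishes. -/
theorem eq_zero_of_twisted (X : Matrix (Fin D.d) (Fin D.d) ℤ_[r])
    (h1 : ∀ v ∈ D.eisLat, X *ᵥ v ∈ D.connLat A) (h0 : ∀ v ∈ D.connLat A, X *ᵥ v = 0)
    (hc : ∀ (t : T), ∀ v ∈ D.eisLat,
      X *ᵥ (intMat r (D.mat t) *ᵥ v) = intMat r (D.mat t) *ᵥ (X *ᵥ v))
    (hF : ∀ v ∈ D.eisLat,
      (chi r φ : ℤ_[r]) • (X *ᵥ (D.gal φ *ᵥ v)) = D.gal φ *ᵥ (X *ᵥ v))
    {v : Fin D.d → ℤ_[r]} (hv : v ∈ D.eisLat) : X *ᵥ v = 0 := by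
  classical
  have h0K : ∀ w ∈ kspan (D.connLat A), kmat X *ᵥ w = 0 := fun w hw => by
    rw [kmat_mulVec_eq (Z := 0) (fun v hv => by rw [h0 v hv, zero_mulVec]) hw, map_zero,
      zero_mulVec]
  suffices H : ∀ (i : Fin D.n) (x : Fin 2 → Kr r), i ∈ D.eisPlanes →
      kmat X *ᵥ D.planeEmb i x = 0 by
    apply kvec_injective
    rw [kvec_zero, kvec_mulVec, ← D.sum_emb_coord (kvec v), mulVec_sum]
    refine Finset.sum_eq_zero fun i _ => ?_
    by_cases hi : i ∈ D.eisPlanes
    · exact H i _ hi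
    · rw [D.mem_kspan_eisLat.mp (kvec_mem_kspan hv) i hi, map_zero, mulVec_zero]
  intro i x hi
  set w := D.planeEmb i x with hw
  have hwE := D.emb_mem_kspan_eisLat hi x
  have hXw : kmat X *ᵥ w ∈ kspan (D.connLat A) := mulVec_mem_kspan h1 hwE
  set y := D.planeCoord i (kmat X *ᵥ w) with hy
  have hyi : kmat X *ᵥ w = D.planeEmb i y := by
    refine D.coord_ext fun j => ?_
    rw [planeCoord_emb]
    by_cases hj : j = i
    · subst hj; rw [if_pos rfl]
    rw [if_neg hj]
    obtain ⟨t, ht⟩ : ∃ t, D.theta j t ≠ D.theta i t := by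
      by_contra hcon
      push Not at hcon
      exact hj (D.theta_injective (RingHom.ext hcon))
    have e := kmat_mulVec_eq (Y := X * intMat r (D.mat t)) (Z := intMat r (D.mat t) * X)
      (fun v hv => by rw [← mulVec_mulVec, ← mulVec_mulVec, hc t v hv]) hwE
    rw [map_mul, map_mul, ← mulVec_mulVec, ← mulVec_mulVec] at e
    have e1 : kmat (intMat r (D.mat t)) *ᵥ w = D.theta i t • w := D.matK_emb t i x
    rw [e1, mulVec_smul] at e
    have e2 := congrArg (D.planeCoord j) e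
    rw [map_smul, show kmat (intMat r (D.mat t)) = D.matK t from rfl, coord_matK] at e2
    rw [← sub_eq_zero, ← sub_smul, smul_eq_zero] at e2
    exact e2.resolve_left (sub_ne_zero.mpr ht.symm)
  obtain ⟨l, hl0, hl, hgen, a, ha, hout⟩ := D.exists_line hA hφ hi
  by_cases hx : x ∈ D.connK A i
  · obtain ⟨z, hz, hzx⟩ := hx
    rw [hw, ← hzx]
    exact h0K _ (D.emb_coord_mem (D.matK_mem_kspan (D.mat_connLat hA)) hz i)
  obtain ⟨a', c, hxc, haa, ha1⟩ := hout x hx
  obtain ⟨b, hb⟩ := hgen y ⟨_, hXw, rfl⟩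
  have hXl : kmat X *ᵥ D.planeEmb i l = 0 := by
    obtain ⟨z, hz, hzl⟩ := hl
    rw [← hzl]
    exact h0K _ (D.emb_coord_mem (D.matK_mem_kspan (D.mat_connLat hA)) hz i)
  have e := kmat_mulVec_eq (Y := (chi r φ : ℤ_[r]) • (X * D.gal φ)) (Z := D.gal φ * X)
    (fun v hv => by rw [smul_mulVec, ← mulVec_mulVec, ← mulVec_mulVec, hF v hv]) hwE
  rw [kmat_smul, smul_mulVec, map_mul, map_mul, ← mulVec_mulVec, ← mulVec_mulVec, galK_emb,
    hxc, map_add, map_smul, map_smul, mulVec_add, mulVec_smul, mulVec_smul, hXl, smul_zero,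
    add_zero, ← hw, hyi, galK_emb, hb, mulVec_smul, ha, smul_smul, smul_smul, ← map_smul,
    smul_smul] at e
  have e2 := congrArg (D.planeCoord i) e
  simp only [planeCoord_emb, ↓reduceIte] at e2
  have e3 := smul_left_injective (Kr r) hl0 e2
  have e4 : b * toK r (chi r φ : ℤ_[r]) * (a' * a' - 1) = 0 := by
    linear_combination a' * e3 + b * haa
  have hb0 : b = 0 := by
    rcases mul_eq_zero.mp e4 with h | h
    · exact (mul_eq_zero.mp h).resolve_right (toK_ne_zero (chi r φ))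
    · exact absurd (sub_eq_zero.mp h) ha1
  rw [hyi, hb, hb0, zero_smul, map_zero]

/-- A Frobenius at `r` has no eigenvalue `χ` on the lattice reducing to zero. -/
theorem eq_zero_of_gal_eq_smul {v : Fin D.d → ℤ_[r]} (hv : v ∈ D.connLat A)
    (h : D.gal φ *ᵥ v = (chi r φ : ℤ_[r]) • v) : v = 0 := by
  apply kvec_injective
  rw [kvec_zero]
  refine D.coord_ext fun i => ?_
  rw [map_zero]
  by_cases hi : i ∈ D.eisPlanes
  · obtain ⟨l, hl0, hl, hgen, a, ha, hout⟩ := D.exists_line hA hφ hi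
    obtain ⟨b, hb⟩ := hgen _ ⟨_, kvec_mem_kspan hv, rfl⟩
    have e := congrArg (fun w => D.planeCoord i (kvec w)) h
    simp only [kvec_mulVec, coord_galK, kvec_smul, map_smul, hb, mulVec_smul, ha, smul_smul] at e
    have e3 := smul_left_injective (Kr r) hl0 e
    rw [hb]
    by_contra hne
    have hb0 : b ≠ 0 := fun h0 => hne (by rw [h0, zero_smul])
    have hau : a = toK r (chi r φ : ℤ_[r]) := mul_left_cancel₀ hb0 (by rw [e3, mul_comm])
    obtain ⟨x, hx⟩ : ∃ x, x ∉ D.connK A i := by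
      by_contra hall
      push Not at hall
      have h1 := D.finrank_connK hA hi
      rw [Submodule.eq_top_iff'.mpr hall, finrank_top, Module.finrank_fintype_fun_eq_card,
        Fintype.card_fin] at h1
      omega
    obtain ⟨a', c, -, haa, ha1⟩ := hout x hx
    rw [hau, mul_right_eq_self₀] at haa
    exact ha1 (by rw [haa.resolve_right (toK_ne_zero (chi r φ)), one_mul])
  · exact D.mem_kspan_eisLat.mp (kvec_mem_kspan hv.1) i hi

end AtR

section AtP

variable [CharZero (Kr r)]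

/-- At `p` the image of `F - p` is not contained in that of the monodromy. -/
theorem not_range_le {q : ℕ} (hq : 1 < q) (N G : Matrix (Fin 2) (Fin 2) (Kr r)) (hN : N * N = 0)
    (hrel : G * N = (q : Kr r) • (N * G)) (hdet : G.det = q) :
    ¬ LinearMap.range (G - (q : Kr r) • 1).mulVecLin ≤ LinearMap.range N.mulVecLin := by
  intro hle
  have hq0 : (q : Kr r) ≠ 0 := Nat.cast_ne_zero.mpr (by omega)
  have hNG : N * G = (q : Kr r) • N := by
    refine Matrix.ext_of_mulVec_single fun j => ?_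
    obtain ⟨z, hz⟩ := hle ⟨Pi.single j 1, rfl⟩
    simp only [mulVecLin_apply, sub_mulVec, smul_mulVec, one_mulVec] at hz
    have := congrArg (N *ᵥ ·) hz
    simp only [mulVec_mulVec, hN, zero_mulVec, mulVec_sub, mulVec_smul] at this
    rw [smul_mulVec]
    exact sub_eq_zero.mp this.symm
  by_cases hN0 : N = 0
  · have hG : G = (q : Kr r) • 1 := Matrix.ext_of_mulVec_single fun j => by
      obtain ⟨z, hz⟩ := hle ⟨Pi.single j 1, rfl⟩
      rw [hN0] at hz
      simp only [mulVecLin_apply, sub_mulVec, zero_mulVec] at hz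
      exact sub_eq_zero.mp hz.symm
    rw [hG, det_smul, det_one, mul_one, Fintype.card_fin] at hdet
    have : q ^ 2 = q := by exact_mod_cast hdet
    nlinarith
  obtain ⟨v, hv⟩ : ∃ v, N *ᵥ v ≠ 0 := by
    by_contra hall
    push Not at hall
    exact hN0 (Matrix.ext_of_mulVec_single fun j => by rw [hall, zero_mulVec])
  set l := N *ᵥ v with hl
  have hNl : N *ᵥ l = 0 := by rw [hl, mulVec_mulVec, hN, zero_mulVec]
  have hcross : v 0 * l 1 - v 1 * l 0 ≠ 0 := fun h => by
    obtain ⟨c, hc⟩ := Submodule.mem_span_singleton.mp (mem_span_of_cross_eq_zero hv h)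
    refine hv ?_
    rw [hl]
    conv_lhs => rw [← hc, mulVec_smul, hNl, smul_zero]
  obtain ⟨z, hz⟩ := hle ⟨v, rfl⟩
  obtain ⟨a, c, hac⟩ := exists_coords hcross z
  simp only [mulVecLin_apply, sub_mulVec, smul_mulVec, one_mulVec, hac, mulVec_add, mulVec_smul,
    hNl, smul_zero, add_zero, ← hl] at hz
  have hGl : G *ᵥ l = ((q : Kr r) * q) • l := by
    rw [hl, mulVec_mulVec, hrel, hNG, smul_smul, smul_mulVec]
  have hGv : G *ᵥ v = (q : Kr r) • v + a • l := by rw [hz, add_sub_cancel]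
  have h := det_mul_cross G v l
  rw [hGv, hGl, hdet] at h
  simp only [Pi.add_apply, Pi.smul_apply, smul_eq_mul] at h
  have h2 : ((q : Kr r) * q * q - q) * (v 0 * l 1 - v 1 * l 0) = 0 := by linear_combination h
  have h3 : q * q * q = q := by
    exact_mod_cast sub_eq_zero.mp ((mul_eq_zero.mp h2).resolve_right hcross)
  nlinarith

/-- The image of an operator on the Eisenstein lattice. -/
def imLat (Z : Matrix (Fin D.d) (Fin D.d) ℤ_[r]) : Submodule ℤ_[r] (Fin D.d → ℤ_[r]) :=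
  D.eisLat.map Z.mulVecLin

/-- The monodromy and Frobenius at `p` together gain one in every plane. -/
theorem finrank_imLat_add_le {σ F : GQ} (hsq : (D.gal σ - 1) * (D.gal σ - 1) = 0)
    (hrel : D.gal F * (D.gal σ - 1) = (p : ℤ_[r]) • ((D.gal σ - 1) * D.gal F))
    (hF : (chi r F : ℤ_[r]) = p) :
    finrank ℤ_[r] (D.imLat (D.gal σ - 1)) + D.eisRank ≤
      finrank ℤ_[r] (D.imLat (D.gal σ - 1) ⊔ D.imLat (D.gal F - (p : ℤ_[r]) • 1) :
        Submodule ℤ_[r] (Fin D.d → ℤ_[r])) := by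
  set N := D.gal σ - 1 with hN
  set Φ := D.gal F - (p : ℤ_[r]) • 1 with hΦ
  have hle : ∀ Z, (∀ v ∈ D.eisLat, Z *ᵥ v ∈ D.eisLat) → D.imLat Z ≤ D.eisLat := fun Z h =>
    Submodule.map_le_iff_le_comap.mpr h
  have hmat : ∀ Z, (∀ t, Z * intMat r (D.mat t) = intMat r (D.mat t) * Z) →
      ∀ (t : T), ∀ v ∈ D.imLat Z, intMat r (D.mat t) *ᵥ v ∈ D.imLat Z := by
    rintro Z h t _ ⟨v, hv, rfl⟩
    refine ⟨_, D.mat_mem_eisLat t hv, ?_⟩
    simp only [mulVecLin_apply, mulVec_mulVec, h]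
  have hNE : ∀ v ∈ D.eisLat, N *ᵥ v ∈ D.eisLat := fun v hv => by
    rw [hN, sub_mulVec, one_mulVec]; exact sub_mem (D.gal_mem_eisLat σ hv) hv
  have hΦE : ∀ v ∈ D.eisLat, Φ *ᵥ v ∈ D.eisLat := fun v hv => by
    rw [hΦ, sub_mulVec, smul_mulVec, one_mulVec]
    exact sub_mem (D.gal_mem_eisLat F hv) (D.eisLat.smul_mem _ hv)
  have hNmat : ∀ t, N * intMat r (D.mat t) = intMat r (D.mat t) * N := fun t => by
    rw [hN, sub_mul, mul_sub, one_mul, mul_one, D.gal_mat]
  have hΦmat : ∀ t, Φ * intMat r (D.mat t) = intMat r (D.mat t) * Φ := fun t => by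
    rw [hΦ, sub_mul, mul_sub, smul_mul_assoc, mul_smul_comm, one_mul, mul_one, D.gal_mat]
  rw [D.finrank_eq_sum (hle N hNE) (hmat N hNmat),
    D.finrank_eq_sum (sup_le (hle N hNE) (hle Φ hΦE)) (fun t v hv => by
      obtain ⟨a, ha, b, hb, rfl⟩ := Submodule.mem_sup.mp hv
      rw [mulVec_add]
      exact Submodule.add_mem_sup (hmat N hNmat t a ha) (hmat Φ hΦmat t b hb)),
    eisRank, Finset.card_eq_sum_ones, ← Finset.sum_add_distrib]
  refine Finset.sum_le_sum fun i hi => ?_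
  -- the components are ranges of the plane operators
  have hcomp : ∀ (Z : Matrix (Fin D.d) (Fin D.d) ℤ_[r]) (Zi : Matrix (Fin 2) (Fin 2) (Kr r)),
      (∀ w, D.planeCoord i (kmat Z *ᵥ w) = Zi *ᵥ D.planeCoord i w) →
      (kspan (D.imLat Z)).map (D.planeCoord i) = LinearMap.range Zi.mulVecLin := by
    intro Z Zi h
    rw [imLat, kspan_map, ← Submodule.map_comp, LinearMap.range_eq_map,
      ← D.map_coord_eisLat hi, ← Submodule.map_comp]
    exact congrArg (fun f => Submodule.map f (kspan D.eisLat)) (LinearMap.ext fun w => h w)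
  set Ni := D.planeMat σ i - 1 with hNi
  set Gi := D.planeMat F i with hGi
  have eN : ∀ w, D.planeCoord i (kmat N *ᵥ w) = Ni *ᵥ D.planeCoord i w := fun w => by
    rw [hN, map_sub, map_one, sub_mulVec, one_mulVec, map_sub, coord_galK, hNi, sub_mulVec,
      one_mulVec]
  have eΦ : ∀ w, D.planeCoord i (kmat Φ *ᵥ w) = (Gi - (p : Kr r) • 1) *ᵥ D.planeCoord i w :=
    fun w => by
      rw [hΦ, map_sub, kmat_smul, map_natCast, map_one, sub_mulVec, smul_mulVec, one_mulVec,
        map_sub, map_smul, coord_galK, sub_mulVec, smul_mulVec, one_mulVec]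
  rw [kspan_sup, Submodule.map_sup, hcomp N Ni eN, hcomp Φ _ eΦ]
  have eG : ∀ w, D.planeCoord i (kmat (D.gal F) *ᵥ w) = Gi *ᵥ D.planeCoord i w := fun w =>
    D.coord_galK F i w
  have hsq' : Ni * Ni = 0 := Matrix.ext_of_mulVec_single fun j => by
    have h1 := congrArg (fun Z => D.planeCoord i (kmat Z *ᵥ D.planeEmb i (Pi.single j 1))) hsq
    simp only [map_mul, map_zero, zero_mulVec, ← mulVec_mulVec, eN, planeCoord_emb,
      ↓reduceIte] at h1
    rw [← mulVec_mulVec, h1, zero_mulVec]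
  have hrel' : Gi * Ni = (p : Kr r) • (Ni * Gi) := Matrix.ext_of_mulVec_single fun j => by
    have h1 := congrArg (fun Z => D.planeCoord i (kmat Z *ᵥ D.planeEmb i (Pi.single j 1))) hrel
    simp only [map_mul, kmat_smul, map_natCast, ← mulVec_mulVec, smul_mulVec, map_smul, eN, eG,
      planeCoord_emb, ↓reduceIte] at h1
    rw [smul_mulVec, ← mulVec_mulVec, ← mulVec_mulVec, h1]
  have hdet : Gi.det = (p : Kr r) := by rw [hGi, D.det_planeMat, hF, map_natCast]
  have hlt : LinearMap.range Ni.mulVecLin <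
      LinearMap.range Ni.mulVecLin ⊔ LinearMap.range (Gi - (p : Kr r) • 1).mulVecLin :=
    lt_of_le_of_ne le_sup_left fun h => not_range_le (q := p) (by have := D.five_le; omega) Ni Gi hsq'
      hrel' hdet (le_sup_right.trans_eq h.symm)
  exact Nat.succ_le_of_lt (Submodule.finrank_lt_finrank_of_lt hlt)

end AtP

end EisensteinDatum

end Fermat.Agent.Mazur.Eisenstein
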