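import Fermat.Agent.Mazur.Eisenstein.Local
import Fermat.Agent.Mazur.Eisenstein.Tame
import Mathlib.FieldTheory.Galois.Infinite

/-!
# One generator for inertia at `p`

On points killed by a power of `r` and a point above them inertia at `p` is generated by one
element, which a Frobenius conjugates to its `p`-th power.
-/

set_option autoImplicit false
set_option linter.unusedSectionVars false
set_option linter.style.haveILetI false

noncomputable section

namespace Fermat.Agent.Mazur.Eisenstein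

open Fermat.Agent.Arith Module Matrix
open scoped Pointwise

theorem smul_pow_eq {M : Type*} [AddCommGroup M] [DistribMulAction GQ M] (σ : GQ) (x : M)
    (h : σ • (σ • (σ • x - x) - (σ • x - x)) = σ • (σ • x - x) - (σ • x - x)) (n : ℕ) :
    (σ ^ n) • x = x + n • (σ • x - x) + n.choose 2 • (σ • (σ • x - x) - (σ • x - x)) := by
  induction n with
  | zero => simp
  | succ n ih =>
    set z := σ • (σ • x - x) - (σ • x - x) with hz
    set y := σ • x - x with hy
    have hy' : σ • y = y + z := by rw [hz]; abel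
    have hx' : σ • x = x + y := by rw [hy]; abel
    rw [pow_succ', mul_smul, ih, smul_add, smul_add, SMulCommClass.smul_comm σ n,
      SMulCommClass.smul_comm σ (n.choose 2), h, hy', hx', Nat.choose_succ_succ, Nat.choose_one_right,
      add_smul, add_smul, one_smul, smul_add]
    abel

theorem pow_dvd_choose_two {r : ℕ} (hr : r.Prime) (m : ℕ) :
    r ^ m ∣ (r ^ (2 * m + 1)).choose 2 := by
  set n := r ^ (2 * m + 1) with hn
  have h1 : n ∣ n.choose 2 * 2 := by
    obtain ⟨k, hk⟩ := Nat.exists_eq_succ_of_ne_zero (pow_ne_zero (2 * m + 1) hr.ne_zero)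
    rw [← hn] at hk
    rw [hk, ← Nat.add_one_mul_choose_eq k 1]
    exact dvd_mul_right _ _
  have h2 : r ^ (m + 1) ∣ n.choose 2 * 2 := (pow_dvd_pow r (by omega)).trans h1
  rcases eq_or_ne r 2 with rfl | h3
  · rw [pow_succ] at h2
    exact Nat.dvd_of_mul_dvd_mul_right two_pos h2
  · exact (((Nat.coprime_primes hr Nat.prime_two).mpr h3).pow_left m).dvd_of_dvd_mul_right
      ((pow_dvd_pow r (Nat.le_succ m)).trans h2)

variable {p r : ℕ} [Fact r.Prime] {J : Type} [AddCommGroup J] [DistribMulAction GQ J]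
variable {T : Type} [CommRing T] [Module T J]

namespace EisensteinDatum

variable (D : EisensteinDatum p r J T) {Ap : ValuationSubring QBar}

include D in
theorem finite_torsion (m : ℕ) : {x : J | r ^ m • x = 0}.Finite := by
  haveI : NeZero (r ^ m) := ⟨pow_ne_zero _ (Fact.out : r.Prime).ne_zero⟩
  exact (Set.finite_range (D.ι m)).subset fun x hx => D.exists_ι_eq m x hx

include D in
/-- On points killed by `r ^ m` and a point above them, inertia at `p` is generated by `σ₀`, and
a Frobenius conjugates `σ₀` to its `p`-th power. -/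
theorem exists_eq_pow (hA : Ap.LiesOverPrime p) {π : QBar} (hπ : π ^ r = p) {σ₀ F : GQ}
    (hσ₀ : σ₀ ∈ Ap.inertiaSubgroupIn ℚ) (hne : σ₀ π ≠ π) (hF : Ap.IsFrobeniusAt F p)
    (m : ℕ) (w : J) (hw : ∀ g : GQ, r ^ m • (g • w - w) = 0) :
    (∀ σ ∈ Ap.inertiaSubgroupIn ℚ, ∃ j : ℕ,
      (∀ x : J, r ^ m • x = 0 → σ • x = (σ₀ ^ j) • x) ∧ σ • w = (σ₀ ^ j) • w) ∧
    ((∀ x : J, r ^ m • x = 0 → (F * σ₀ * F⁻¹) • x = (σ₀ ^ p) • x) ∧
      (F * σ₀ * F⁻¹) • w = (σ₀ ^ p) • w) := by
  classical
  have hr : r.Prime := Fact.out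
  set S : Set J := insert w {x : J | r ^ m • x = 0} with hS
  haveI : Finite S := ((D.finite_torsion m).insert w).to_subtype
  set H : Subgroup GQ := fixingSubgroup GQ S with hH
  have hmem : ∀ g, g ∈ H ↔ ∀ x ∈ S, g • x = x := fun g => mem_fixingSubgroup_iff GQ
  have hopen : IsOpen (H : Set GQ) := by
    choose K hK hKfix using fun x : S => D.isOpen (x : J)
    refine Subgroup.isOpen_mono (H₁ := ⨅ x, K x) (fun g hg => (hmem g).mpr fun x hx =>
      hKfix ⟨x, hx⟩ g (Subgroup.mem_iInf.mp hg _)) ?_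
    rw [Subgroup.coe_iInf]
    exact isOpen_iInter_of_finite hK
  haveI hnormal : H.Normal := ⟨fun n hn g => (hmem _).mpr fun x hx => by
    have hx' : (g⁻¹ : GQ) • x = x + ((g⁻¹ : GQ) • x - x) := by abel
    have key : n • (g⁻¹ : GQ) • x = (g⁻¹ : GQ) • x := by
      rcases hx with rfl | hx
      · rw [hx', smul_add, (hmem n).mp hn x (Or.inl rfl), (hmem n).mp hn _ (Or.inr (hw g⁻¹))]
      · exact (hmem n).mp hn _ (Or.inr (by
          show r ^ m • ((g⁻¹ : GQ) • x) = 0
          rw [← SMulCommClass.smul_comm (g⁻¹ : GQ) (r ^ m) x, hx, smul_zero]))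
    rw [mul_smul, mul_smul, key, smul_inv_smul]⟩
  let Hc : ClosedSubgroup GQ := ⟨H, Subgroup.isClosed_of_isOpen H hopen⟩
  set L := IntermediateField.fixedField H with hL
  have hfix : L.fixingSubgroup = H := InfiniteGalois.fixingSubgroup_fixedField Hc
  haveI : FiniteDimensional ℚ L :=
    (InfiniteGalois.isOpen_iff_finite L).mp (by rw [hfix]; exact hopen)
  haveI : IsGalois ℚ L := (InfiniteGalois.normal_iff_isGalois L).mp (by rw [hfix]; exact hnormal)
  have hagree : ∀ g g' : GQ, (∀ x ∈ L, g x = g' x) → ∀ x ∈ S, g • x = g' • x := by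
    intro g g' h x hx
    have : g'⁻¹ * g ∈ H := by
      rw [← hfix, IntermediateField.mem_fixingSubgroup_iff]
      intro y hy
      rw [AlgEquiv.mul_apply, h y hy, ← AlgEquiv.mul_apply, inv_mul_cancel, AlgEquiv.one_apply]
    have h2 := (hmem _).mp this x hx
    rwa [mul_smul, inv_smul_eq_iff] at h2
  have hpow : ∀ σ ∈ Ap.inertiaSubgroupIn ℚ, ∃ b : ℕ, ∀ x ∈ L, (σ ^ r ^ b) x = x := by
    intro σ hσ
    refine ⟨2 * m + 1, ?_⟩
    rw [← IntermediateField.mem_fixingSubgroup_iff, hfix, hmem]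
    intro x hx
    have htor : r ^ m • (σ • x - x) = 0 := by
      rcases hx with rfl | hx
      · exact hw σ
      · rw [smul_sub, ← SMulCommClass.smul_comm σ (r ^ m) x, hx, smul_zero, sub_zero]
    have hz : r ^ m • (σ • (σ • x - x) - (σ • x - x)) = 0 := by
      rw [smul_sub, ← SMulCommClass.smul_comm σ (r ^ m), htor, smul_zero, sub_zero]
    have hss := D.semistable Ap hA σ hσ m _ htor
    obtain ⟨a, ha⟩ : r ^ m ∣ r ^ (2 * m + 1) := pow_dvd_pow r (by omega)
    obtain ⟨b, hb⟩ := pow_dvd_choose_two hr m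
    rw [smul_pow_eq σ x (sub_eq_zero.mp hss), hb, ha, mul_comm (r ^ m) a, mul_comm (r ^ m) b,
      mul_smul, mul_smul, htor, hz, smul_zero, smul_zero, add_zero, add_zero]
  refine ⟨fun σ hσ => ?_, ?_⟩
  · obtain ⟨j, hj⟩ := exists_pow_eq hA D.prime hr D.ne hπ hσ₀ hne L hpow hσ
    exact ⟨j, fun x hx => hagree _ _ hj x (Or.inr hx), hagree _ _ hj w (Or.inl rfl)⟩
  · have h := frobenius_conj hA D.prime hr D.ne L hpow hF hσ₀
    exact ⟨fun x hx => hagree _ _ h x (Or.inr hx), hagree _ _ h w (Or.inl rfl)⟩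

end EisensteinDatum

end Fermat.Agent.Mazur.Eisenstein
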