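import Fermat.Agent.Mazur.Eisenstein.DescentCore
import Fermat.Agent.Mazur.Eisenstein.Lines
import Fermat.Agent.Mazur.Eisenstein.Monodromy

/-!
# Counting modulo `r ^ m` on the Eisenstein torsion

Indices of the images of sublattices in the Eisenstein torsion, and the bounded defect of cocycles
at `p`.
-/

set_option autoImplicit false
set_option linter.unusedSectionVars false
set_option linter.style.haveILetI false

noncomputable section

namespace Fermat.Agent.Mazur.Eisenstein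

open Fermat.Agent.Arith Module Matrix
open scoped Pointwise

/-- For an endomorphism preserving a subgroup of a finite abelian group, the kernel on the
quotient has as many elements as the cokernel. -/
theorem card_ker_quotientMap {B : Type*} [AddCommGroup B] [Finite B] (N : AddSubgroup B)
    (f : B →+ B) (hN : N ≤ N.comap f) :
    Nat.card (QuotientAddGroup.map N N f hN).ker = (N ⊔ f.range).index := by
  set θ := QuotientAddGroup.map N N f hN
  have h1 : θ.range = f.range.map (QuotientAddGroup.mk' N) := by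
    ext q
    constructor
    · rintro ⟨x, rfl⟩
      induction x using QuotientAddGroup.induction_on with
      | _ b => exact ⟨f b, ⟨b, rfl⟩, rfl⟩
    · rintro ⟨_, ⟨b, rfl⟩, rfl⟩
      exact ⟨(b : B ⧸ N), rfl⟩
  have h2 : θ.range.index = (N ⊔ f.range).index := by
    rw [← AddSubgroup.index_comap_of_surjective _ (QuotientAddGroup.mk'_surjective N), h1,
      AddSubgroup.comap_map_eq, QuotientAddGroup.ker_mk', sup_comm]
  rw [← h2]
  have h3 := θ.range.card_mul_index
  have h4 := θ.ker.card_mul_index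
  rw [AddSubgroup.index_ker] at h4
  exact Nat.eq_of_mul_eq_mul_left (Nat.card_pos : 0 < Nat.card θ.range)
    (by rw [h3, ← h4, mul_comm])

variable {p r : ℕ} [Fact r.Prime] {J : Type} [AddCommGroup J] [DistribMulAction GQ J]
variable {T : Type} [CommRing T] [Module T J]

namespace EisensteinDatum

variable (D : EisensteinDatum p r J T)

instance finite_eisTors' (m : ℕ) : Finite (D.eisTors m) := D.finite_eisTors m

/-- The reduction of the Eisenstein lattice modulo `r ^ m`. -/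
def latHom (m : ℕ) : D.eisLat →+ D.eisTors m :=
  AddMonoidHom.mk' (fun v => ⟨D.pm m v, D.pm_mem_eisTors m v.2⟩)
    fun a b => Subtype.ext (map_add (D.pm m) (a : Fin D.d → ℤ_[r]) b)

theorem latHom_surjective (m : ℕ) : Function.Surjective (D.latHom m) := fun b => by
  obtain ⟨v, hv, hvb⟩ := b.2
  exact ⟨⟨v, hv⟩, Subtype.ext hvb⟩

/-- The image modulo `r ^ m` of a sublattice. -/
def imTors (Y : Submodule ℤ_[r] (Fin D.d → ℤ_[r])) (m : ℕ) : AddSubgroup (D.eisTors m) :=
  (Y.comap D.eisLat.subtype).toAddSubgroup.map (D.latHom m)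

theorem mem_imTors {Y : Submodule ℤ_[r] (Fin D.d → ℤ_[r])} {m : ℕ} {b : D.eisTors m} :
    b ∈ D.imTors Y m ↔ ∃ v ∈ D.eisLat, v ∈ Y ∧ D.pm m v = (b : J) := by
  constructor
  · rintro ⟨v, hv, rfl⟩; exact ⟨v, v.2, hv, rfl⟩
  · rintro ⟨v, hv, hvY, h⟩; exact ⟨⟨v, hv⟩, hvY, Subtype.ext h⟩

theorem ker_latHom (m : ℕ) : (D.latHom m).ker =
    (LinearMap.range ((r : ℤ_[r]) ^ m • (LinearMap.id : D.eisLat →ₗ[ℤ_[r]] D.eisLat))).toAddSubgroup := by
  ext v
  rw [AddMonoidHom.mem_ker, Submodule.mem_toAddSubgroup, LinearMap.mem_range]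
  constructor
  · intro h
    obtain ⟨w, hw⟩ := (D.pm_eq_zero_iff m v).mp (congrArg Subtype.val h)
    exact ⟨⟨w, D.eisLat_saturated _ _ (pow_ne_zero m natCast_prime_ne_zero) (hw ▸ v.2)⟩,
      Subtype.ext hw.symm⟩
  · rintro ⟨w, rfl⟩
    exact Subtype.ext ((D.pm_eq_zero_iff m _).mpr ⟨w, rfl⟩)

/-- The index of the image of a sublattice. -/
theorem exists_index_bounds {Y : Submodule ℤ_[r] (Fin D.d → ℤ_[r])} (hY : Y ≤ D.eisLat) :
    ∃ C : ℕ, ∀ m : ℕ,
      r ^ (m * (2 * D.eisRank - finrank ℤ_[r] Y)) ≤ (D.imTors Y m).index ∧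
        (D.imTors Y m).index ≤ r ^ (m * (2 * D.eisRank - finrank ℤ_[r] Y) + C) := by
  obtain ⟨C, hC⟩ := exists_card_bounds (Module.finBasisOfFinrankEq ℤ_[r] D.eisLat D.finrank_eisLat)
    (Y.comap D.eisLat.subtype)
  rw [(Submodule.comapSubtypeEquivOfLe hY).finrank_eq] at hC
  refine ⟨C, fun m => ?_⟩
  have h : (D.imTors Y m).index = Nat.card (D.eisLat ⧸ (Y.comap D.eisLat.subtype ⊔
      LinearMap.range ((r : ℤ_[r]) ^ m • (LinearMap.id : D.eisLat →ₗ[ℤ_[r]] D.eisLat)))) := by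
    rw [← AddSubgroup.index_comap_of_surjective _ (D.latHom_surjective m), imTors,
      AddSubgroup.comap_map_eq, ker_latHom, ← Submodule.sup_toAddSubgroup, AddSubgroup.index]
    rfl
  rw [h]
  exact hC m

theorem index_imTors_bot (m : ℕ) : (D.imTors ⊥ m).index = Nat.card (D.eisTors m) := by
  have : D.imTors ⊥ m = ⊥ := by
    rw [eq_bot_iff]
    intro b hb
    obtain ⟨v, -, hv, h⟩ := D.mem_imTors.mp hb
    rw [(Submodule.mem_bot _).mp hv, map_zero] at h
    exact Subtype.ext h.symm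
  rw [this, AddSubgroup.index_bot]

theorem imTors_connLat (A : ValuationSubring QBar) (m : ℕ) :
    D.imTors (D.connLat A) m = (D.connTors A m).addSubgroupOf (D.eisTors m) := by
  ext b
  rw [mem_imTors, AddSubgroup.mem_addSubgroupOf]
  exact ⟨fun ⟨v, _, hv, h⟩ => ⟨v, hv, h⟩, fun ⟨v, hv, h⟩ => ⟨v, hv.1, hv, h⟩⟩

variable {Ap : ValuationSubring QBar}

/-- The cardinalities at `p` and the defect of cocycles there. -/
theorem exists_atP (hA : Ap.LiesOverPrime p) :
    ∃ rN rS C : ℕ, rN + D.eisRank ≤ rS ∧ rS ≤ 2 * D.eisRank ∧ ∀ m : ℕ,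
      letI := subAction (D.eisTors m) (D.gal_mem_eisTors m)
      r ^ (m * (2 * D.eisRank - rN)) ≤
          Nat.card (fixedBy (D.eisTors m) (Ap.inertiaSubgroupIn ℚ)) ∧
        ∃ k : ℕ, k ≠ 0 ∧ k ≤ r ^ (m * (2 * D.eisRank - rS) + C) ∧
          ∀ w : J, (∀ g : GQ, g • w - w ∈ D.eisTors m) → ∃ b ∈ D.eisTors m,
            ∀ g ∈ Ap.inertiaSubgroupIn ℚ, k • (g • w - w) = g • b - b := by
  classical
  have hr : r.Prime := Fact.out
  obtain ⟨π, hπ⟩ := IsAlgClosed.exists_pow_nat_eq (p : QBar) hr.pos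
  obtain ⟨σ₀, hσ₀, hne⟩ := exists_inertia_ne hA D.prime hr hπ
  obtain ⟨F, hF⟩ := exists_isFrobeniusAt hA D.prime
  -- the exact relations on the lattice
  have hsq := D.gal_sub_sq hA hσ₀
  have hpowpm : ∀ (m j : ℕ) (v : Fin D.d → ℤ_[r]),
      (σ₀ ^ j) • D.pm m v = D.pm m v + j • (σ₀ • D.pm m v - D.pm m v) := by
    intro m j v
    have h0 := D.semistable Ap hA σ₀ hσ₀ m _ (D.pow_smul_pm m v)
    rw [smul_pow_eq σ₀ _ (by rw [h0, smul_zero]), h0, smul_zero, add_zero]
  have hrel : D.gal F * (D.gal σ₀ - 1) = (p : ℤ_[r]) • ((D.gal σ₀ - 1) * D.gal F) := by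
    refine Matrix.ext_of_mulVec_single fun j => D.pm_ext fun m => ?_
    set v : Fin D.d → ℤ_[r] := Pi.single j 1
    obtain ⟨-, hconj, -⟩ := D.exists_eq_pow hA hπ hσ₀ hne hF m 0 (fun g => by simp)
    have h1 := hconj (D.pm m (D.gal F *ᵥ v)) (D.pow_smul_pm m _)
    rw [hpowpm] at h1
    nth_rw 1 [← gal_smul_pm] at h1
    rw [mul_smul, mul_smul, inv_smul_smul] at h1
    rw [smul_mulVec, ← mulVec_mulVec, ← mulVec_mulVec, sub_mulVec, sub_mulVec, one_mulVec,
      one_mulVec, mulVec_sub, map_sub, ← gal_smul_pm, ← gal_smul_pm, Nat.cast_smul_eq_nsmul,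
      map_nsmul, map_sub, ← gal_smul_pm]
    simp only [← gal_smul_pm] at h1 ⊢
    rw [h1]
    abel
  have hchi : (chi r F : ℤ_[r]) = p := chi_frobenius hA D.prime (Ne.symm D.ne) hF
  set N := D.gal σ₀ - 1 with hN
  set Φ := D.gal F - (p : ℤ_[r]) • 1 with hΦ
  have hNE : ∀ v ∈ D.eisLat, N *ᵥ v ∈ D.eisLat := fun v hv => by
    rw [hN, sub_mulVec, one_mulVec]; exact sub_mem (D.gal_mem_eisLat σ₀ hv) hv
  have hNle : D.imLat N ≤ D.eisLat := Submodule.map_le_iff_le_comap.mpr hNE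
  have hSle : D.imLat N ⊔ D.imLat Φ ≤ D.eisLat :=
    sup_le hNle (Submodule.map_le_iff_le_comap.mpr fun v hv => by
      show Φ *ᵥ v ∈ D.eisLat
      rw [hΦ, sub_mulVec, smul_mulVec, one_mulVec]
      exact sub_mem (D.gal_mem_eisLat F hv) (D.eisLat.smul_mem _ hv))
  obtain ⟨_, hCN⟩ := D.exists_index_bounds hNle
  obtain ⟨C, hCS⟩ := D.exists_index_bounds hSle
  refine ⟨_, _, C, D.finrank_imLat_add_le hsq hrel hchi,
    D.finrank_eisLat ▸ Submodule.finrank_mono hSle, fun m => ?_⟩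
  letI := subAction (D.eisTors m) (D.gal_mem_eisTors m)
  set Nop : D.eisTors m →+ D.eisTors m :=
    DistribSMul.toAddMonoidHom (D.eisTors m) σ₀ - AddMonoidHom.id _ with hNop
  set f : D.eisTors m →+ D.eisTors m :=
    DistribSMul.toAddMonoidHom (D.eisTors m) F - p • AddMonoidHom.id _ with hf
  have hNapp : ∀ b : D.eisTors m, (Nop b : J) = σ₀ • (b : J) - b := fun b => rfl
  have hfapp : ∀ b : D.eisTors m, (f b : J) = F • (b : J) - p • (b : J) := fun b => by
    simp [hf]
    rfl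
  have hNrange : Nop.range = D.imTors (D.imLat N) m := by
    ext b
    rw [mem_imTors]
    constructor
    · rintro ⟨a, rfl⟩
      obtain ⟨v, hv, hva⟩ := a.2
      refine ⟨_, hNE v hv, ⟨v, hv, rfl⟩, ?_⟩
      rw [hNapp, ← hva, gal_smul_pm, ← map_sub]
      simp [hN, sub_mulVec]
    · rintro ⟨_, -, ⟨v, hv, rfl⟩, hvb⟩
      refine ⟨⟨D.pm m v, D.pm_mem_eisTors m hv⟩, Subtype.ext ?_⟩
      rw [hNapp, ← hvb, gal_smul_pm, ← map_sub]
      simp [hN]
  have hsup : Nop.range ⊔ f.range = D.imTors (D.imLat N ⊔ D.imLat Φ) m := by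
    refine le_antisymm (sup_le ?_ ?_) ?_
    · rw [hNrange]
      intro b hb
      obtain ⟨v, hv, hvY, h⟩ := D.mem_imTors.mp hb
      exact D.mem_imTors.mpr ⟨v, hv, Submodule.mem_sup_left hvY, h⟩
    · rintro _ ⟨a, rfl⟩
      obtain ⟨v, hv, hva⟩ := a.2
      refine D.mem_imTors.mpr ⟨Φ *ᵥ v, hSle (Submodule.mem_sup_right ⟨v, hv, rfl⟩),
        Submodule.mem_sup_right ⟨v, hv, rfl⟩, ?_⟩
      rw [hfapp, ← hva, gal_smul_pm, hΦ, sub_mulVec, smul_mulVec, one_mulVec, map_sub,
        Nat.cast_smul_eq_nsmul, map_nsmul]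
    · intro b hb
      obtain ⟨_, -, hvY, h⟩ := D.mem_imTors.mp hb
      obtain ⟨_, ⟨a, ha, rfl⟩, _, ⟨c, hc, rfl⟩, rfl⟩ := Submodule.mem_sup.mp hvY
      refine AddSubgroup.mem_sup.mpr ⟨_, ⟨⟨D.pm m a, D.pm_mem_eisTors m ha⟩, rfl⟩, _,
        ⟨⟨D.pm m c, D.pm_mem_eisTors m hc⟩, rfl⟩, Subtype.ext ?_⟩
      rw [AddSubgroup.coe_add, hNapp, hfapp, ← h]
      show σ₀ • D.pm m a - D.pm m a + (F • D.pm m c - p • D.pm m c) = D.pm m (N *ᵥ a + Φ *ᵥ c)
      simp only [hN, hΦ, sub_mulVec, smul_mulVec, one_mulVec, map_add, map_sub,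
        gal_smul_pm, Nat.cast_smul_eq_nsmul, map_nsmul]
  have hstable : Nop.range ≤ Nop.range.comap f := by
    rintro _ ⟨a, rfl⟩
    obtain ⟨v, hv, hva⟩ := a.2
    refine ⟨p • ⟨F • (a : J), D.gal_mem_eisTors m F _ a.2⟩ - p • a, Subtype.ext ?_⟩
    have h3 : F • (σ₀ • (a : J) - a) = p • (σ₀ • F • (a : J) - F • (a : J)) := by
      have := congrArg (fun Z : Matrix (Fin D.d) (Fin D.d) ℤ_[r] => D.pm m (Z *ᵥ v)) hrel
      simp only [← mulVec_mulVec, hN, sub_mulVec, one_mulVec, smul_mulVec, mulVec_sub, map_sub,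
        Nat.cast_smul_eq_nsmul, map_nsmul, ← gal_smul_pm, hva] at this
      rw [smul_sub]
      exact this
    rw [map_sub, map_nsmul, map_nsmul, AddSubgroup.coe_sub, AddSubmonoidClass.coe_nsmul,
      AddSubmonoidClass.coe_nsmul, hfapp, hNapp, hNapp]
    exact (congrArg (· - p • (σ₀ • (a : J) - (a : J))) h3).symm
  refine ⟨?_, ?_⟩
  · have hfix : fixedBy (D.eisTors m) (Ap.inertiaSubgroupIn ℚ) = Nop.ker := by
      ext b
      rw [mem_fixedBy, AddMonoidHom.mem_ker]
      constructor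
      · intro h
        exact Subtype.ext ((hNapp b).trans (sub_eq_zero.mpr (congrArg Subtype.val (h σ₀ hσ₀))))
      · intro h g hg
        have hb : σ₀ • (b : J) = b := sub_eq_zero.mp ((hNapp b).symm.trans (congrArg Subtype.val h))
        obtain ⟨hgen, -⟩ := D.exists_eq_pow hA hπ hσ₀ hne hF m 0 (fun g => by simp)
        obtain ⟨j, hj, -⟩ := hgen g hg
        refine Subtype.ext ((hj b (D.pow_smul_eisTors b.2)).trans ?_)
        clear hj
        induction j with
        | zero => rw [pow_zero, one_smul]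
        | succ j ih => rw [pow_succ, mul_smul, hb, ih]
    have hcard : Nat.card Nop.ker = Nop.range.index := by
      have h3 := Nop.range.card_mul_index
      have h4 := Nop.ker.card_mul_index
      rw [AddSubgroup.index_ker] at h4
      exact Nat.eq_of_mul_eq_mul_left (Nat.card_pos : 0 < Nat.card Nop.range)
        (by rw [h3, ← h4, mul_comm])
    rw [hfix, hcard, hNrange]
    exact (hCN m).1
  · refine ⟨(Nop.range ⊔ f.range).index, AddSubgroup.index_ne_zero_of_finite,
      hsup ▸ (hCS m).2, fun w hw => ?_⟩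
    obtain ⟨hgen, -, hconj⟩ := D.exists_eq_pow hA hπ hσ₀ hne hF m w
      (fun g => D.pow_smul_eisTors (hw g))
    set x : D.eisTors m := ⟨σ₀ • w - w, hw σ₀⟩ with hx
    have hxker : ((x : D.eisTors m) : D.eisTors m ⧸ Nop.range) ∈
        (QuotientAddGroup.map Nop.range Nop.range f hstable).ker := by
      rw [AddMonoidHom.mem_ker, QuotientAddGroup.map_mk, QuotientAddGroup.eq_zero_iff]
      set y : D.eisTors m := ⟨F⁻¹ • w - w, hw F⁻¹⟩ with hy
      refine ⟨p.choose 2 • x - p • ⟨F • (y : J), D.gal_mem_eisTors m F _ y.2⟩, Subtype.ext ?_⟩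
      have hyv : F⁻¹ • w = w + (y : J) := (add_sub_cancel _ _).symm
      have hxv : σ₀ • w = w + (x : J) := (add_sub_cancel _ _).symm
      have hFy : F • w = w - F • (y : J) := by
        rw [hy, smul_sub, smul_inv_smul]; abel
      have hzz : σ₀ • (σ₀ • (x : J) - (x : J)) - (σ₀ • (x : J) - (x : J)) = 0 :=
        D.semistable Ap hA σ₀ hσ₀ m _ (D.pow_smul_eisTors x.2)
      have h2 : F • (σ₀ • (y : J) - (y : J)) = p • (σ₀ • F • (y : J) - F • (y : J)) := by
        obtain ⟨v, hv, hva⟩ := y.2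
        have := congrArg (fun Z : Matrix (Fin D.d) (Fin D.d) ℤ_[r] => D.pm m (Z *ᵥ v)) hrel
        simp only [← mulVec_mulVec, hN, sub_mulVec, one_mulVec, smul_mulVec, mulVec_sub, map_sub,
          Nat.cast_smul_eq_nsmul, map_nsmul, ← gal_smul_pm, hva] at this
        rw [smul_sub]
        exact this
      have h1 : F • σ₀ • F⁻¹ • w =
          w + p • (x : J) + p.choose 2 • (σ₀ • (x : J) - (x : J)) := by
        rw [← mul_smul, ← mul_smul, hconj, smul_pow_eq σ₀ w (sub_eq_zero.mp hzz)]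
      rw [hyv, smul_add, hxv, smul_add, smul_add, hFy,
        show σ₀ • (y : J) = (σ₀ • (y : J) - (y : J)) + (y : J) by abel, smul_add, h2] at h1
      rw [map_sub, map_nsmul, map_nsmul, AddSubgroup.coe_sub, AddSubmonoidClass.coe_nsmul,
        AddSubmonoidClass.coe_nsmul, hNapp, hNapp, hfapp]
      linear_combination (norm := abel) -h1
    have hk : ((Nop.range ⊔ f.range).index • x : D.eisTors m) ∈ Nop.range := by
      rw [← QuotientAddGroup.eq_zero_iff, QuotientAddGroup.mk_nsmul,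
        ← card_ker_quotientMap Nop.range f hstable]
      exact congrArg Subtype.val (card_nsmul_eq_zero'
        (x := (⟨_, hxker⟩ : (QuotientAddGroup.map Nop.range Nop.range f hstable).ker)))
    obtain ⟨b, hb⟩ := hk
    set k := (Nop.range ⊔ f.range).index
    have hb' : σ₀ • (b : J) - b = k • (σ₀ • w - w) := by
      rw [← hNapp, hb]; rfl
    refine ⟨b, b.2, fun g hg => ?_⟩
    obtain ⟨j, hj, hjw⟩ := hgen g hg
    have hfixz : σ₀ • (k • w - (b : J)) = k • w - (b : J) := by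
      rw [smul_sub, SMulCommClass.smul_comm σ₀ k, show σ₀ • w = (σ₀ • w - w) + w by abel, smul_add,
        ← hb']
      abel
    have hfixj : (σ₀ ^ j) • (k • w - (b : J)) = k • w - (b : J) := by
      clear hj hjw
      induction j with
      | zero => rw [pow_zero, one_smul]
      | succ j ih => rw [pow_succ, mul_smul, hfixz, ih]
    rw [hjw, hj b (D.pow_smul_eisTors b.2)]
    rw [smul_sub, SMulCommClass.smul_comm _ k] at hfixj
    rw [smul_sub]
    linear_combination (norm := abel) hfixj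

end EisensteinDatum

end Fermat.Agent.Mazur.Eisenstein
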