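import Fermat.Agent.FiniteFlat.GalOrder
import Fermat.Agent.Mazur.Eisenstein.GalData
import Fermat.Agent.Mazur.Eisenstein.Padic
import Mathlib.LinearAlgebra.Matrix.ToLin
import Mathlib.RingTheory.Norm.Basic

/-!
# The inputs of the Eisenstein descent

The structure `EisensteinDatum` collects what the descent uses about a Jacobian, its Tate
lattice and the Hecke action; also the maps from the lattice to residue vectors and the
cyclotomic character with values in `ℤ_r`.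
-/

set_option autoImplicit false
set_option linter.unusedSectionVars false
set_option linter.style.haveILetI false

noncomputable section

namespace Fermat.Agent.Mazur.Eisenstein

open Fermat.Agent.Arith Module Matrix
open scoped Pointwise

/-- The cyclotomic character with values in `ℤ_r`. -/
def chi (r : ℕ) [Fact r.Prime] : GQ →* ℤ_[r]ˣ where
  toFun g := cyclotomicCharacter QBar r (g : QBar ≃+* QBar)
  map_one' := map_one (cyclotomicCharacter QBar r)
  map_mul' g h := map_mul (cyclotomicCharacter QBar r) (g : QBar ≃+* QBar) (h : QBar ≃+* QBar)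

variable {r : ℕ} [Fact r.Prime]

theorem chi_spec (g : GQ) {m : ℕ} {ζ : QBar} (hζ : ζ ^ r ^ m = 1) :
    g ζ = ζ ^ (PadicInt.toZModPow m (chi r g : ℤ_[r])).val :=
  cyclotomicCharacter.spec r (g : QBar ≃+* QBar) ζ hζ

theorem toZModPow_chi_eq (g : GQ) {m c : ℕ} (h : ∀ ζ : QBar, ζ ^ r ^ m = 1 → g ζ = ζ ^ c) :
    PadicInt.toZModPow m (chi r g : ℤ_[r]) = c := by
  haveI : NeZero (r ^ m) := ⟨pow_ne_zero _ (Fact.out : r.Prime).ne_zero⟩
  refine (cyclotomicCharacter.toZModPow r (g : QBar ≃+* QBar)).trans ?_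
  exact modularCyclotomicCharacter_eq_natCast _ h

/-- The algebraic closure of `ℚ_r`. -/
abbrev Kr (r : ℕ) [Fact r.Prime] : Type := AlgebraicClosure ℚ_[r]

/-- The embedding of `ℤ_r` into `Kr r`. -/
def toK (r : ℕ) [Fact r.Prime] : ℤ_[r] →+* Kr r :=
  (algebraMap ℚ_[r] (Kr r)).comp PadicInt.Coe.ringHom

theorem toK_injective : Function.Injective (toK r) :=
  (algebraMap ℚ_[r] (Kr r)).injective.comp Subtype.val_injective

/-- Integral matrices over `ℤ_r`. -/
def intMat (r : ℕ) [Fact r.Prime] {d : ℕ} :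
    Matrix (Fin d) (Fin d) ℤ →+* Matrix (Fin d) (Fin d) ℤ_[r] :=
  (Int.castRingHom ℤ_[r]).mapMatrix

/-- Reduction of vectors modulo `r ^ m`. -/
def redVec (r : ℕ) [Fact r.Prime] (d m : ℕ) : (Fin d → ℤ_[r]) →+ (Fin d → ZMod (r ^ m)) :=
  (PadicInt.toZModPow m : ℤ_[r] →+* ZMod (r ^ m)).toAddMonoidHom.compLeft (Fin d)

/-- The inputs of the Eisenstein descent. -/
structure EisensteinDatum (p r : ℕ) [Fact r.Prime] (J : Type) [AddCommGroup J]
    [DistribMulAction GQ J] (T : Type) [CommRing T] [Module T J] where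
  prime : p.Prime
  five_le : 5 ≤ p
  ne : r ≠ p
  smul_comm : ∀ (g : GQ) (t : T) (x : J), g • t • x = t • g • x
  isOpen : ∀ x : J, ∃ H : Subgroup GQ, IsOpen (H : Set GQ) ∧ ∀ h ∈ H, h • x = x
  divisible : ∀ x : J, ∃ y : J, r • y = x
  /-- the rank of the Tate module -/
  d : ℕ
  /-- the Hecke action on the Tate module -/
  mat : T →+* Matrix (Fin d) (Fin d) ℤ
  /-- the Galois action on the Tate module -/
  gal : GQ →* Matrix (Fin d) (Fin d) ℤ_[r]
  gal_mat : ∀ (g : GQ) (t : T), gal g * intMat r (mat t) = intMat r (mat t) * gal g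
  /-- the torsion points -/
  ι : (m : ℕ) → (Fin d → ZMod (r ^ m)) →+ J
  ι_injective : ∀ m, Function.Injective (ι m)
  exists_ι_eq : ∀ (m : ℕ) (x : J), r ^ m • x = 0 → ∃ v, ι m v = x
  ι_compat : ∀ (m : ℕ) (v : Fin d → ℤ_[r]),
    r • ι (m + 1) (redVec r d (m + 1) v) = ι m (redVec r d m v)
  ι_mat : ∀ (m : ℕ) (t : T) (v : Fin d → ℤ_[r]),
    t • ι m (redVec r d m v) = ι m (redVec r d m (intMat r (mat t) *ᵥ v))
  ι_gal : ∀ (m : ℕ) (g : GQ) (v : Fin d → ℤ_[r]),
    g • ι m (redVec r d m v) = ι m (redVec r d m (gal g *ᵥ v))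
  /-- the points reducing to zero at a place -/
  ker : ValuationSubring QBar → AddSubgroup J
  inertia_sub_mem : ∀ q : ℕ, q.Prime → q ≠ p → ∀ A : ValuationSubring QBar, A.LiesOverPrime q →
    ∀ σ ∈ A.inertiaSubgroupIn ℚ, ∀ x : J, σ • x - x ∈ ker A
  eq_zero_of_mem : ∀ q : ℕ, q.Prime → q ≠ p → ∀ A : ValuationSubring QBar, A.LiesOverPrime q →
    ∀ (m : ℕ) (x : J), ¬ q ∣ m → m • x = 0 → x ∈ ker A → x = 0
  smul_mem : ∀ q : ℕ, q.Prime → q ≠ p → ∀ A : ValuationSubring QBar, A.LiesOverPrime q →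
    ∀ σ : GQ, σ • A = A → ∀ x ∈ ker A, σ • x ∈ ker A
  hecke_mem : ∀ q : ℕ, q.Prime → q ≠ p → ∀ A : ValuationSubring QBar, A.LiesOverPrime q →
    ∀ (t : T), ∀ x ∈ ker A, t • x ∈ ker A
  exists_bound : ∀ q : ℕ, q.Prime → q ≠ p → ∀ A : ValuationSubring QBar, A.LiesOverPrime q →
    ∃ δ : ℕ, δ ≠ 0 ∧ ∀ φ : GQ, A.IsFrobeniusAt φ q → ∀ x : J, φ • φ • x - x ∈ ker A →
      δ • x ∈ ker A
  exists_order : ∀ A : ValuationSubring QBar, A.LiesOverPrime r → ∀ m : ℕ,
    ∃ (M : Type) (_ : AddCommGroup M) (_ : DistribMulAction GQ M) (_ : Finite M) (i : M →+ J)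
      (O : FiniteFlat.GalOrder r M),
      Function.Injective i ∧ (∀ (g : GQ) (x : M), i (g • x) = g • i x) ∧
      (∀ x : J, r ^ m • x = 0 → x ∈ i.range) ∧
      ∀ f ∈ O.H, ∀ x : M, i x ∈ ker A → f x - f 0 ∈ A.nonunits
  semistable : ∀ A : ValuationSubring QBar, A.LiesOverPrime p → ∀ σ ∈ A.inertiaSubgroupIn ℚ,
    ∀ (m : ℕ) (x : J), r ^ m • x = 0 → σ • (σ • x - x) - (σ • x - x) = 0
  /-- the Eisenstein character -/
  eps : T →+* ℤ
  v₁ : Fin d → ZMod r
  v₁_ne : v₁ ≠ 0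
  mat_v₁ : ∀ t, ((mat t).map (Int.castRingHom (ZMod r))) *ᵥ v₁ = (eps t : ZMod r) • v₁
  eps_frobenius : ∀ q : ℕ, q.Prime → q ≠ p → q ≠ r → ∀ A : ValuationSubring QBar,
    A.LiesOverPrime q → ∀ σ : GQ, A.IsFrobeniusAt σ q → ∃ t : T, eps t = 1 + q ∧
      gal σ * gal σ - intMat r (mat t) * gal σ + (q : ℤ_[r]) • 1 = 0
  /-- the number of planes -/
  n : ℕ
  theta : Fin n → T →+* Kr r
  theta_injective : Function.Injective theta
  /-- the adapted basis -/
  planeBasis : Basis (Fin n × Fin 2) (Kr r) (Fin d → Kr r)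
  mat_planeBasis : ∀ (t : T) (x : Fin n × Fin 2),
    (mat t).map (Int.castRingHom (Kr r)) *ᵥ planeBasis x = theta x.1 t • planeBasis x
  gal_planeBasis : ∀ (g : GQ) (i : Fin n), ∃ G : Matrix (Fin 2) (Fin 2) (Kr r),
    (∀ j, (gal g).map (toK r) *ᵥ planeBasis (i, j) = ∑ k, G k j • planeBasis (i, k)) ∧
      G.det = toK r (chi r g)

end Fermat.Agent.Mazur.Eisenstein
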