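import Fermat.Agent.Mazur.Eisenstein.AtR

/-!
# Cocycles reducing to zero on inertia at `r`

A bounded multiple of such a cocycle satisfies the unit condition of the Selmer groups at `r`.
-/

set_option autoImplicit false
set_option linter.unusedSectionVars false
set_option linter.style.haveILetI false

noncomputable section

namespace Fermat.Agent.Mazur.Eisenstein

open Fermat.Agent.Arith Module Matrix
open scoped Pointwise

variable {p r : ℕ} [Fact r.Prime] {J : Type} [AddCommGroup J] [DistribMulAction GQ J]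
variable {T : Type} [CommRing T] [Module T J]

namespace EisensteinDatum

variable (D : EisensteinDatum p r J T) {A : ValuationSubring QBar}

/-- A bounded multiple of a cocycle reducing to zero on inertia at `r` satisfies the condition
at `r` of the Selmer groups. -/
theorem exists_unit_multiple (hA : A.LiesOverPrime r) :
    ∃ e : ℕ, ∀ m : ℕ,
      letI := subAction (D.eisTors m) (D.gal_mem_eisTors m)
      ∀ c ∈ cocycles (G := GQ) (D.eisTors m), (∀ g ∈ A.inertiaSubgroupIn ℚ, (c g : J) ∈ D.ker A) →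
        ∃ hmem : ∀ g : A.inertiaSubgroupIn ℚ, ((2 * r ^ e) • c) g ∈ D.connSub A m,
          ∀ χ : D.connSub A m →+ UnitsBar, ∃ y ∈ unitsAt A, ∀ g : A.inertiaSubgroupIn ℚ,
            χ ⟨((2 * r ^ e) • c) g, hmem g⟩ = (g : GQ) • y - y := by
  classical
  have hr : r.Prime := Fact.out
  obtain ⟨φ, hφ⟩ := exists_isFrobeniusAt hA hr
  have hφA : φ • A = A := (isFrobeniusAt_iff_forall_mem.mp hφ).1
  obtain ⟨P, hP, hPX⟩ := exists_proj (D.connLat_saturated A)
  -- `F - χ` on the lattice reducing to zero, completed to an injective map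
  set f : (Fin D.d → ℤ_[r]) →ₗ[ℤ_[r]] (Fin D.d → ℤ_[r]) :=
    ((D.gal φ).mulVecLin - (chi r φ : ℤ_[r]) • LinearMap.id).comp P + (LinearMap.id - P) with hf
  have hfinj : Function.Injective f := by
    refine (injective_iff_map_eq_zero f).mpr fun v hv => ?_
    simp only [hf, LinearMap.add_apply, LinearMap.comp_apply, LinearMap.sub_apply,
      LinearMap.smul_apply, LinearMap.id_apply, mulVecLin_apply] at hv
    have hmem : D.gal φ *ᵥ P v - (chi r φ : ℤ_[r]) • P v ∈ D.connLat A :=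
      sub_mem (D.gal_mem_connLat A hr D.ne hA hφA (hP v)) (Submodule.smul_mem _ _ (hP v))
    have hvc : v ∈ D.connLat A := by
      have h1 : v - P v ∈ D.connLat A := by
        rw [eq_neg_of_add_eq_zero_right hv]
        exact neg_mem hmem
      simpa using add_mem h1 (hP v)
    rw [hPX v hvc, sub_self, add_zero, sub_eq_zero] at hv
    exact D.eq_zero_of_gal_eq_smul hA hφ hvc hv
  obtain ⟨g', δ, hδ, hg'⟩ := exists_adjugate_of_injective f hfinj
  obtain ⟨u, e, hu⟩ : ∃ (u : ℤ_[r]ˣ) (e : ℕ), δ = (u : ℤ_[r]) * (r : ℤ_[r]) ^ e :=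
    ⟨_, _, PadicInt.unitCoeff_spec hδ⟩
  refine ⟨e, fun m => ?_⟩
  letI := subAction (D.eisTors m) (D.gal_mem_eisTors m)
  intro c hc hker
  -- lifts to the lattice
  have hlift : ∀ g : GQ, ∃ v ∈ D.eisLat, D.pm m v = 2 • (c g : J) ∧
      (g ∈ A.inertiaSubgroupIn ℚ → v ∈ D.connLat A) := by
    intro g
    by_cases hg : g ∈ A.inertiaSubgroupIn ℚ
    · obtain ⟨v, hv, hv'⟩ := D.two_smul_mem_connTors hA m (c g).2 (hker g hg)
      exact ⟨v, hv.1, hv', fun _ => hv⟩
    · obtain ⟨v, hv, hv'⟩ := (D.eisTors m).nsmul_mem (c g).2 2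
      exact ⟨v, hv, hv', fun h => absurd h hg⟩
  choose V hVE hV hVA using hlift
  have hcoc : ∀ g h : GQ, D.pm m (V (g * h)) = D.pm m (V g + D.gal g *ᵥ V h) := by
    intro g h
    rw [map_add, ← gal_smul_pm, hV, hV, hV, hc.1 g h, SMulCommClass.smul_comm g 2, ← smul_add]
    rfl
  have hVcoc : IsVCoc (A.inertiaSubgroupIn ℚ) m V := fun j => by
    refine ⟨fun g hg h hh => ?_, ?_⟩
    · have := D.toZModPow_eq_of_pm_eq (hcoc g h) j
      rw [D.gal_mulVec_connLat hA hg (hVA h hh), Pi.add_apply, Pi.smul_apply, smul_eq_mul, map_add,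
        map_mul] at this
      exact this
    · obtain ⟨L, hL, hLfac⟩ := exists_level_of_cocycle hc
      exact ⟨L, hL, fun g _ g' _ hx => D.toZModPow_eq_of_pm_eq
        (by rw [hV, hV, hLfac g g' hx]) j⟩
  -- the Frobenius relation
  set z := kvv A m V with hz
  have hPz : (LinearMap.toMatrix' P).map (PadicInt.toZModPow m) *ᵥ z = z := by
    rw [hz, ← kvv_mulVec hA _ hVcoc]
    refine (kvv_congr hA hVcoc fun g hg k => ?_).symm
    rw [LinearMap.toMatrix'_mulVec, hPX _ (hVA g hg)]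
  have hconjmem : ∀ g ∈ A.inertiaSubgroupIn ℚ, φ * g * φ⁻¹ ∈ A.inertiaSubgroupIn ℚ := fun g hg => by
    have := (mem_inertia_smul_iff (g := φ)).mpr hg
    rwa [hφA] at this
  have hrel : ∀ g : GQ, D.pm m (V (φ * g * φ⁻¹)) =
      D.pm m (D.gal φ *ᵥ V g - D.transV (V φ) (φ * g * φ⁻¹)) := by
    intro g
    rw [hcoc (φ * g) φ⁻¹, map_add, hcoc φ g, map_add, map_sub, transV, D.mem_eisLat.mp (hVE φ), map_sub,
      ← gal_smul_pm, ← gal_smul_pm, ← gal_smul_pm]
    have h0 : D.pm m (V φ⁻¹) = -(φ⁻¹ • D.pm m (V φ)) := by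
      have h1 := hcoc φ⁻¹ φ
      rw [inv_mul_cancel, map_add, ← gal_smul_pm] at h1
      have h2 := hcoc 1 1
      rw [mul_one, map_add, ← gal_smul_pm, one_smul, left_eq_add] at h2
      rw [h2] at h1
      exact eq_neg_of_add_eq_zero_left h1.symm
    simp only [h0, smul_neg, mul_smul]
    abel
  have htw : chiMod r m φ • z = (D.gal φ).map (PadicInt.toZModPow m) *ᵥ z := by
    funext j
    obtain ⟨hcm, hcv⟩ := kv_conj hA (φ := φ) hφA (hVcoc j)
    obtain ⟨htm, htv⟩ := kv_conj hA (φ := φ) hφA (D.isVCoc_transV hA m (V φ) j)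
    rw [show kv A m (vcoord m (D.transV (V φ)) j) = 0 from
      congrFun (D.kvv_transV_eq_zero hA m (V φ)) j, mul_zero] at htv
    rw [Pi.smul_apply, smul_eq_mul, hz, ← kvv_mulVec hA _ hVcoc]
    show _ * kv A m (vcoord m V j) = kv A m _
    rw [← hcv]
    have hm1 := isVCoc_mulVec hA (D.gal φ) hVcoc j
    refine (kv_congr hA hcm (b := vcoord m (fun g => D.gal φ *ᵥ V g) j -
      fun g => vcoord m (D.transV (V φ)) j (φ * g * φ⁻¹)) fun g _ => ?_).trans ?_
    · exact (D.toZModPow_eq_of_pm_eq (hrel g) j).trans (map_sub _ _ _)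
    · have := kv_add hA (sub_mem hm1 htm) htm
      rw [sub_add_cancel, htv, add_zero] at this
      exact this.symm
  set zl : Fin D.d → ℤ_[r] := P fun k => ((z k).val : ℤ_[r]) with hzl
  have hzred : ∀ j, PadicInt.toZModPow m (zl j) = z j := fun j => by
    rw [hzl, ← LinearMap.toMatrix'_mulVec P, toZModPow_mulVec]
    simp only [map_natCast, ZMod.natCast_zmod_val]
    exact congrFun hPz j
  have hfz : ∃ w, f zl = (r : ℤ_[r]) ^ m • w := by
    rw [← D.redVec_eq_zero_iff]
    funext j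
    show PadicInt.toZModPow m (f zl j) = 0
    have e1 : f zl = D.gal φ *ᵥ zl - (chi r φ : ℤ_[r]) • zl := by
      simp only [hf, LinearMap.add_apply, LinearMap.comp_apply, LinearMap.sub_apply,
        LinearMap.smul_apply, LinearMap.id_apply, mulVecLin_apply, hPX zl (hP _), sub_self,
        add_zero]
    rw [e1, Pi.sub_apply, Pi.smul_apply, smul_eq_mul, map_sub, map_mul, toZModPow_mulVec,
      funext hzred, hzred, ← htw, Pi.smul_apply, smul_eq_mul]
    exact sub_self _
  obtain ⟨w, hw⟩ := hfz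
  have hzero : ∀ j, (r : ZMod (r ^ m)) ^ e * z j = 0 := by
    intro j
    have h1 : δ • zl = (r : ℤ_[r]) ^ m • g' w := by rw [← hg', hw, map_smul]
    have h2 := congrArg (fun v => PadicInt.toZModPow m (v j)) h1
    simp only [Pi.smul_apply, smul_eq_mul, map_mul, map_pow, map_natCast, hu, hzred] at h2
    rw [show (r : ZMod (r ^ m)) ^ m = 0 by rw [← Nat.cast_pow, ZMod.natCast_self], zero_mul,
      mul_assoc] at h2
    exact ((u.isUnit.map (PadicInt.toZModPow m)).mul_right_eq_zero).mp h2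
  -- the multiple
  set V' : GQ → (Fin D.d → ℤ_[r]) :=
    fun g => ((r : ℤ_[r]) ^ e • (1 : Matrix (Fin D.d) (Fin D.d) ℤ_[r])) *ᵥ V g with hV'
  have hV'zero : kvv A m V' = 0 := by
    rw [hV', kvv_mulVec hA _ hVcoc]
    funext j
    have e2 : ((r : ℤ_[r]) ^ e • (1 : Matrix (Fin D.d) (Fin D.d) ℤ_[r])).map
        (PadicInt.toZModPow m) = (r : ZMod (r ^ m)) ^ e • 1 :=
      Matrix.ext fun a b => by simp [Matrix.one_apply, apply_ite (PadicInt.toZModPow m)]
    rw [e2, smul_mulVec, one_mulVec, Pi.smul_apply, smul_eq_mul, Pi.zero_apply]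
    exact hzero j
  have hpm : ∀ g, D.pm m (V' g) = ((((2 * r ^ e) • c) g : D.eisTors m) : J) := fun g => by
    simp only [hV', smul_mulVec, one_mulVec]
    rw [← Nat.cast_pow, Nat.cast_smul_eq_nsmul, map_nsmul, hV,
      Pi.smul_apply, AddSubmonoidClass.coe_nsmul, smul_smul, mul_comm]
  have hV'mem : ∀ g ∈ A.inertiaSubgroupIn ℚ, V' g ∈ D.connLat A := fun g hg => by
    simp only [hV', smul_mulVec, one_mulVec]
    exact Submodule.smul_mem _ _ (hVA g hg)
  refine ⟨fun g => ⟨_, hV'mem g g.2, hpm g⟩, fun χ => ?_⟩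
  exact D.exists_unit hA V' (isVCoc_mulVec hA _ hVcoc) hV'mem hV'zero _ (fun g _ => hpm g) _ χ

end EisensteinDatum

end Fermat.Agent.Mazur.Eisenstein
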