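import Fermat.Agent.GaloisReps.Attach
import Fermat.Agent.Mazur.Eisenstein.Datum

/-!
# The determinant of Galois on an eigenplane is the cyclotomic character

At every Galois element, not only at Frobenius elements, and read in an algebraic closure of `ℚ_r`.
-/

set_option autoImplicit false
set_option linter.unusedSectionVars false
set_option linter.style.haveILetI false

noncomputable section

open Module Matrix
open Fermat.Agent.GaloisReps

namespace Fermat.Agent.Mazur.Eisenstein

/-- Independent integral vectors stay independent under an embedding into a field. -/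
theorem linearIndependent_comp_domain {O : Type} [CommRing O] [IsDomain O] {E : Type} [Field E]
    (J : O →+* E) (hJ : Function.Injective J) {d s : ℕ} {v : Fin s → Fin d → O}
    (hv : LinearIndependent O v) : LinearIndependent E fun a i => J (v a i) := by
  set L := ((Algebra.linearMap O (FractionRing O)).compLeft (Fin d))
  have hL : LinearMap.ker L = ⊥ := LinearMap.ker_eq_bot.mpr fun x y h =>
    funext fun i => IsFractionRing.injective O (FractionRing O) (congrFun h i)
  have h1 : LinearIndependent (FractionRing O) fun a => L (v a) := by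
    rw [← LinearIndependent.iff_fractionRing O (FractionRing O)]
    exact hv.map' L hL
  have h2 := linearIndependent_comp_fieldHom (IsFractionRing.lift hJ) h1
  have e : (fun a i => (IsFractionRing.lift hJ : FractionRing O →+* E) (L (v a) i)) =
      fun a i => J (v a i) := by
    funext a i
    exact IsFractionRing.lift_algebraMap hJ (v a i)
  rwa [e] at h2

variable {N r : ℕ} [NeZero N] [hr : Fact r.Prime] (D : HeckeGaloisModel N r)

section Integral

variable {O : Type} [CommRing O] [IsDomain O] [IsDiscreteValuationRing O] [CharZero O]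
  (ιO : ℤ_[r] →+* O) (θ : FullHecke N →+* O) (hp : (r : O) ∈ IsLocalRing.maximalIdeal O)

include hp in
/-- The determinant of Galois on the eigen-lattice is the cyclotomic character. -/
theorem det_eigenAction_eq_chi (h : Arith.GQ) :
    LinearMap.det (D.eigenAction ιO θ h) = ιO (chi r h : ℤ_[r]) := by
  refine sub_eq_zero.mp (HeckeGaloisModel.eq_zero_of_forall_pow_dvd hp fun n => ?_)
  haveI : NeZero (r ^ n) := ⟨pow_ne_zero _ hr.out.ne_zero⟩
  have h1 := D.pow_dvd_det_sub ιO θ frobeniusDensity hp fun ζ (hζ : ζ ^ r ^ n = 1) => chi_spec h hζ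
  have h2 : (r : ℤ_[r]) ^ n ∣
      ((PadicInt.toZModPow n (chi r h : ℤ_[r])).val : ℤ_[r]) - chi r h := by
    rw [← Ideal.mem_span_singleton, ← PadicInt.ker_toZModPow, RingHom.mem_ker, map_sub,
      map_natCast, ZMod.natCast_zmod_val, sub_self]
  have h3 := map_dvd ιO h2
  rw [map_pow, map_natCast, map_sub, map_natCast] at h3
  simpa using dvd_add h1 h3

end Integral

set_option maxHeartbeats 1000000 in
/-- Planes over an algebraic closure of `ℚ_r` on which Galois has determinant `χ`. -/
theorem exists_planes :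
    ∃ κ : AlgebraicClosure ℚ →+* Kr r, ∀ θ₀ : FullHecke N →+* AlgebraicClosure ℚ,
      ∃ w : Fin 2 → Fin D.d → Kr r, LinearIndependent (Kr r) w ∧
        (∀ j, w j ∈ eigenspace D.hecke (κ.comp θ₀)) ∧
        ∀ g : Arith.GQ, ∃ G : Matrix (Fin 2) (Fin 2) (Kr r),
          (∀ j, (D.gal g).map (toK r) *ᵥ w j = ∑ k, G k j • w k) ∧
            G.det = toK r (chi r g) := by
  classical
  haveI : Finite (IsLocalRing.ResidueField ℤ_[r]) :=
    Finite.of_equiv _ (PadicInt.residueField (p := r)).symm.toEquiv
  have hinjF : Function.Injective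
      (algebraMap ℤ_[r] (AlgebraicClosure (FractionRing ℤ_[r]))) := by
    rw [IsScalarTower.algebraMap_eq ℤ_[r] (FractionRing ℤ_[r]), RingHom.coe_comp]
    exact (algebraMap (FractionRing ℤ_[r]) _).injective.comp (IsFractionRing.injective ℤ_[r] _)
  let toKr : FractionRing ℤ_[r] →+* Kr r := IsFractionRing.lift (toK_injective (r := r))
  letI := toKr.toAlgebra
  let k : AlgebraicClosure (FractionRing ℤ_[r]) →ₐ[FractionRing ℤ_[r]] Kr r := IsAlgClosed.lift
  haveI : CharZero (AlgebraicClosure (FractionRing ℤ_[r])) :=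
    charZero_of_injective_algebraMap (R := ℤ_[r]) hinjF
  haveI : Algebra.IsAlgebraic ℚ (AlgebraicClosure ℚ) := AlgebraicClosure.isAlgebraic ℚ
  let ιF : AlgebraicClosure ℚ →+* AlgebraicClosure (FractionRing ℤ_[r]) :=
    (IsAlgClosed.lift :
      AlgebraicClosure ℚ →ₐ[ℚ] AlgebraicClosure (FractionRing ℤ_[r])).toRingHom
  refine ⟨k.toRingHom.comp ιF, fun θ₀ => ?_⟩
  obtain ⟨O', i1, i2, i3, i4, i5, i6, i7, i8, i9, j, θ', hinjO, hj, hjc, hjθ⟩ :=
    exists_coeffExt ℤ_[r] (ιF.comp θ₀)
  have hp : (r : O') ∈ IsLocalRing.maximalIdeal O' := by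
    rw [← map_natCast (algebraMap ℤ_[r] O') r]
    exact map_nonunit (algebraMap ℤ_[r] O') _ (by
      rw [PadicInt.maximalIdeal_eq_span_p]; exact Ideal.mem_span_singleton_self _)
  set J : O' →+* Kr r := k.toRingHom.comp j with hJ
  have hJinj : Function.Injective J := k.injective.comp hj
  have hJc : ∀ a : ℤ_[r], J (algebraMap ℤ_[r] O' a) = toK r a := fun a => by
    show k (j (algebraMap ℤ_[r] O' a)) = _
    rw [← RingHom.comp_apply j, hjc, IsScalarTower.algebraMap_apply ℤ_[r] (FractionRing ℤ_[r]),
      AlgHom.commutes]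
    exact IsFractionRing.lift_algebraMap _ a
  set b := D.eigenBasis θ'
  refine ⟨fun a i => J ((b a : Fin D.d → O') i), linearIndependent_comp_domain J hJinj
    (b.linearIndependent.map' (Submodule.subtype _) (Submodule.ker_subtype _)), fun a => ?_,
    fun g => ⟨(D.eigenMatrix (algebraMap ℤ_[r] O') θ' g).map J, fun a => ?_, ?_⟩⟩
  · have := D.map_mem_eigenspace J θ' (b a).2
    rwa [hJ, RingHom.comp_assoc, hjθ, ← RingHom.comp_assoc] at this
  · funext i
    have e1 : ((D.gal g).map (toK r) *ᵥ fun i => J ((b a : Fin D.d → O') i)) i =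
        J ((D.eigenAction (algebraMap ℤ_[r] O') θ' g (b a) : Fin D.d → O') i) := by
      rw [HeckeGaloisModel.coe_eigenAction, RingHom.map_mulVec, Matrix.map_map]
      congr 2
      exact funext fun x => (hJc x).symm
    rw [e1, ← b.sum_repr (D.eigenAction (algebraMap ℤ_[r] O') θ' g (b a)), Submodule.coe_sum,
      Finset.sum_apply, map_sum, Finset.sum_apply]
    refine Finset.sum_congr rfl fun k _ => ?_
    rw [SetLike.val_smul, Pi.smul_apply, Pi.smul_apply, smul_eq_mul, smul_eq_mul, map_mul,
      Matrix.map_apply, HeckeGaloisModel.eigenMatrix, LinearMap.toMatrix_apply]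
  · rw [← RingHom.mapMatrix_apply, ← RingHom.map_det]
    rw [HeckeGaloisModel.eigenMatrix, LinearMap.det_toMatrix, det_eigenAction_eq_chi D _ θ' hp,
      hJc]

end Fermat.Agent.Mazur.Eisenstein

end
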