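import Fermat.Agent.FiniteFlat.GalOrderOps
import Fermat.Agent.Mazur.Eisenstein.Assembly
import Fermat.Agent.Mazur.Eisenstein.Connected
import Fermat.Agent.Mazur.Eisenstein.Inputs
import Fermat.Agent.Mazur.Large.Line

/-!
# Fixed points of odd prime order do not reduce to zero

A Galois-fixed point of order `r` congruent to zero in a Galois order at `r` would see inertia act
through the cyclotomic character, which is not trivial for `r > 2`.
-/

set_option autoImplicit false
set_option linter.style.haveILetI false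
set_option linter.unusedSectionVars false

noncomputable section

open ModularCurve
open Fermat.Agent.Arith

namespace Fermat.Agent.Mazur.Eisenstein

/-- A fixed point of order `r` of a Galois order is not congruent to zero, for `r` odd. -/
theorem eq_zero_of_fixed_congruent {r : ℕ} [hr : Fact r.Prime] (hr2 : 2 < r)
    {M : Type} [AddCommGroup M] [DistribMulAction GQ M] [Finite M] {A : ValuationSubring QBar}
    (hA : A.LiesOverPrime r) (O : FiniteFlat.GalOrder r M) {x : M} (hfix : ∀ g : GQ, g • x = x)
    (hx : r • x = 0) (hcong : ∀ f ∈ O.H, ∀ k : ℕ, f (k • x) - f 0 ∈ A.nonunits) : x = 0 := by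
  classical
  by_contra h0
  set S := AddSubgroup.zmultiples x with hS
  have hsfix : ∀ (g : GQ), ∀ y ∈ S, g • y = y := fun g y hy => by
    obtain ⟨k, rfl⟩ := AddSubgroup.mem_zmultiples_iff.mp hy
    rw [show g • (k • x) = k • (g • x) from
      map_zsmul (DistribSMul.toAddMonoidHom M g) k x, hfix]
  letI := subAction S fun g y hy => by rw [hsfix g y hy]; exact hy
  set O' := O.restrict S.subtype Subtype.val_injective fun _ _ => rfl
  obtain ⟨σ, hσ, hne⟩ := Large.exists_inertia_cyc_ne_one r hr2 hA
  have hS0 : ∀ y : S, r • y = 0 := fun y => by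
    obtain ⟨k, hk⟩ := AddSubgroup.mem_zmultiples_iff.mp y.2
    refine Subtype.ext ?_
    show r • (y : M) = 0
    rw [← hk, smul_comm, hx, smul_zero]
  have hexp : Monoid.exponent (Multiplicative S) ∣ r :=
    Monoid.exponent_dvd_of_forall_pow_eq_one fun y =>
      Multiplicative.toAdd.injective (by rw [toAdd_pow, toAdd_one]; exact hS0 _)
  set c := ((cyclotomicHom r σ : (ZMod r)ˣ) : ZMod r).val with hc
  have hroot : ∀ ζ : QBar, ζ ^ Monoid.exponent (Multiplicative S) = 1 → σ ζ = ζ ^ c := by
    intro ζ hζ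
    have hζr : ζ ^ r = 1 := by
      obtain ⟨k, hk⟩ := hexp
      rw [hk, pow_mul, hζ, one_pow]
    exact cyclotomicHom_spec σ hζr
  have key := inertia_smul_of_congruent hA hr.out O' (1 : A.inertiaSubgroupIn ℚ →* (ZMod r)ˣ) ⊤
    (fun _ _ _ => trivial) (by
      letI := subAction (G := A.inertiaSubgroupIn ℚ) (⊤ : AddSubgroup S) (fun _ _ _ => trivial)
      refine ⟨fun b => ⟨1, Subtype.ext (by rw [pow_one]; exact hS0 _)⟩, fun g b => ⟨1, ?_⟩⟩
      have hb : g • b = b := Subtype.ext (Subtype.ext (hsfix g _ (b : S).2))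
      simp [pieceOp, hb])
    (fun f hf y _ => by
      obtain ⟨g, hg, rfl⟩ := hf
      obtain ⟨k, hk⟩ : ∃ k : ℕ, k • x = (y : M) :=
        (AddSubmonoid.mem_multiples_iff _ _).mp
          ((isOfFinAddOrder_of_finite x).mem_multiples_iff_mem_zmultiples.mpr y.2)
      show g (y : M) - g 0 ∈ _
      rw [← hk]
      exact hcong g hg k)
    hσ hroot (x := ⟨x, AddSubgroup.mem_zmultiples x⟩) trivial
  have h1 : x = c • x := (hfix σ).symm.trans (congrArg Subtype.val key)
  have hord : addOrderOf x = r := addOrderOf_eq_prime hx h0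
  have h2 : c % r = 1 % r := by
    have := nsmul_eq_nsmul_iff_modEq.mp (((one_nsmul x).trans h1) : 1 • x = c • x)
    rw [hord] at this
    exact this.symm
  refine hne (Units.ext ?_)
  rw [Units.val_one, ← ZMod.natCast_zmod_val ((cyclotomicHom r σ : (ZMod r)ˣ) : ZMod r), ← hc,
    ← ZMod.natCast_mod, h2, ZMod.natCast_mod, Nat.cast_one]

/-- Galois orders at every prime give the fixed torsion property. -/
theorem fixedTorsionProperty (p : ℕ) [NeZero p] (hp : p.Prime) (hord : OrderProperty p) :
    FixedTorsionProperty p := by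
  intro r hr hr2 hrp A hA x hfix hx hker
  haveI := Fact.mk hr
  obtain ⟨M, iM, iA, iF, i, O, hi, heq, hrange, hcong⟩ := hord r hr
    (fun h => hrp ((Nat.prime_dvd_prime_iff_eq hr hp).mp h)) A hA 1
  obtain ⟨y, rfl⟩ := hrange x (by rw [pow_one]; exact hx)
  rw [← map_zero i]
  refine congrArg i (eq_zero_of_fixed_congruent (lt_of_le_of_ne hr.two_le (Ne.symm hr2)) hA O
    (fun g => hi (by rw [heq, hfix])) (hi (by rw [map_nsmul, hx, map_zero])) fun f hf k => ?_)
  refine hcong f hf _ (reductionModL_eq_zero_of_mem ?_)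
  rw [map_nsmul]
  exact nsmul_mem hker k

end Fermat.Agent.Mazur.Eisenstein

end
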