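import Fermat.Agent.GaloisReps.LatticeHecke
import Fermat.Agent.Newforms.Semisimple
import Fermat.Agent.GaloisReps.EigenPlane
import Fermat.Agent.S08
import Mathlib.RingTheory.Algebraic.Integral
import Mathlib.FieldTheory.IsAlgClosed.AlgebraicClosure

/-!
# The Hecke eigenspaces span the lattice of a prime level

There are no old forms at a prime level, so by multiplicity one the eigenvectors of the operators
away from the level are eigenvectors of the whole Hecke algebra; hence the planes attached to the
systems of eigenvalues fill the lattice over any algebraically closed field of characteristic zero.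
-/

set_option autoImplicit false
set_option linter.unusedSectionVars false

noncomputable section

open CongruenceSubgroup ModularFormClass
open Fermat.Agent.GaloisReps

namespace Fermat.Agent.Mazur.Eisenstein

variable (p : ℕ) [NeZero p] [hp : Fact p.Prime]

/-- Over `ℂ` the forms are spanned by the common eigenvectors. -/
theorem iSup_formEigen : (⨆ θ : FullHecke p →+* ℂ, formEigen θ) = ⊤ := by
  rw [eq_top_iff, ← Newforms.span_eigenvectors_eq_top, Submodule.span_le]
  intro f hf
  rcases eq_or_ne f 0 with rfl | hf0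
  · exact zero_mem _
  classical
  have hp' : p.Prime := hp.out
  set lam : ℕ → ℂ := fun ℓ =>
    if h : ℓ.Prime ∧ ¬ ℓ ∣ p then (hf ℓ h.1 h.2).choose else 0
  have hlam : ∀ ℓ (hℓ : ℓ.Prime), ¬ ℓ ∣ p → Newforms.hOp p hℓ f = lam ℓ • f := fun ℓ hℓ hℓp => by
    simp only [lam, dif_pos (And.intro hℓ hℓp)]
    exact (hf ℓ hℓ hℓp).choose_spec
  obtain ⟨g, hg, hgl⟩ := Newforms.exists_eigenform_of_eigen hf0 (fun ℓ => ¬ ℓ ∣ p) lam hlam
  obtain ⟨M, g', hM, hg', hgg⟩ := Newforms.exists_newform hg
  obtain hM1 | hMp := hp'.eq_one_or_self_of_dvd M hM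
  · subst hM1
    exact absurd (Fermat.Agent.S08.result g') hg'.ne_zero
  subst hMp
  have hfeq : f = qCoeff f 1 • g' := Newforms.eq_smul_of_eigen hg' fun ℓ hℓ hℓp => by
    rw [hlam ℓ hℓ hℓp, hgg ℓ hℓ hℓp, hgl ℓ hℓ hℓp]
  have hall : ∀ t : FullHecke M, ∃ c : ℂ, t.1 f = c • f := by
    rintro ⟨x, hx⟩
    show ∃ c : ℂ, x f = c • f
    induction hx using Algebra.adjoin_induction with
    | mem y hy =>
      rcases hy with ⟨ℓ, hℓ, hℓM, -, rfl⟩ | ⟨q, hqM, hq, -, rfl⟩
      · exact ⟨qCoeff g' ℓ, by
          rw [← Newforms.hOp_eq_heckeTLin hℓ hℓM, hfeq, map_smul,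
            Newforms.hOp_of_isNormalizedEigenform hg'.1 hℓ, smul_comm]⟩
      · exact ⟨qCoeff g' q, by
          rw [← Newforms.hOp_eq_heckeULin hq hqM, hfeq, map_smul,
            Newforms.hOp_of_isNormalizedEigenform hg'.1 hq, smul_comm]⟩
    | algebraMap z => exact ⟨(z : ℂ), by simp [Int.cast_smul_eq_zsmul]⟩
    | add a b _ _ ha hb =>
      obtain ⟨c, hc⟩ := ha
      obtain ⟨e, he⟩ := hb
      exact ⟨c + e, by rw [LinearMap.add_apply, hc, he, add_smul]⟩
    | mul a b _ _ ha hb =>
      obtain ⟨c, hc⟩ := ha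
      obtain ⟨e, he⟩ := hb
      exact ⟨e * c, by rw [Module.End.mul_apply, he, map_smul, hc, smul_smul]⟩
  choose c hc using hall
  have huniq : ∀ {a b : ℂ}, a • f = b • f → a = b := fun h => smul_left_injective ℂ hf0 h
  let θ : FullHecke M →+* ℂ :=
    { toFun := c
      map_one' := huniq (by rw [← hc, one_smul]; rfl)
      map_mul' := fun a b => huniq (by
        rw [← hc, Subalgebra.coe_mul, Module.End.mul_apply, hc b, map_smul, hc a, smul_smul,
          mul_comm])
      map_zero' := huniq (by rw [← hc, zero_smul]; rfl)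
      map_add' := fun a b => huniq (by
        rw [← hc, Subalgebra.coe_add, LinearMap.add_apply, hc a, hc b, add_smul]) }
  exact Submodule.mem_iSup_of_mem θ ((mem_formEigen θ f).mpr fun t => hc t)

/-- Over `ℂ` the eigenspaces span the lattice. -/
theorem iSup_eigenspace_complex :
    (⨆ θ : FullHecke p →+* ℂ, eigenspace (latticeMat p) θ) = ⊤ := by
  refine eq_top_iff.mpr fun v _ => ?_
  obtain ⟨⟨f, g⟩, rfl⟩ := (periodCoord p).surjective v
  have h : ∀ f : CuspForm (Gamma0 p) 2,
      periodCoord p (f, 0) ∈ ⨆ θ : FullHecke p →+* ℂ, eigenspace (latticeMat p) θ ∧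
        periodCoord p (0, f) ∈ ⨆ θ : FullHecke p →+* ℂ, eigenspace (latticeMat p) θ := by
    intro f
    have hf : f ∈ ⨆ θ : FullHecke p →+* ℂ, formEigen θ := iSup_formEigen p ▸ trivial
    induction hf using Submodule.iSup_induction' with
    | mem θ f hf =>
      exact ⟨Submodule.mem_iSup_of_mem θ
          ((periodCoord_mem_eigenspace θ f 0).mpr ⟨hf, zero_mem _⟩),
        Submodule.mem_iSup_of_mem θ
          ((periodCoord_mem_eigenspace θ 0 f).mpr ⟨zero_mem _, hf⟩)⟩
    | zero =>
      rw [show ((0, 0) : CuspForm (Gamma0 p) 2 × CuspForm (Gamma0 p) 2) = 0 from rfl, map_zero]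
      exact ⟨zero_mem _, zero_mem _⟩
    | add a b _ _ ha hb =>
      refine ⟨?_, ?_⟩
      · rw [show ((a + b, 0) : CuspForm (Gamma0 p) 2 × CuspForm (Gamma0 p) 2) = (a, 0) + (b, 0) by
          simp, map_add]
        exact add_mem ha.1 hb.1
      · rw [show ((0, a + b) : CuspForm (Gamma0 p) 2 × CuspForm (Gamma0 p) 2) = (0, a) + (0, b) by
          simp, map_add]
        exact add_mem ha.2 hb.2
  rw [show ((f, g) : CuspForm (Gamma0 p) 2 × CuspForm (Gamma0 p) 2) = (f, 0) + (0, g) by simp,
    map_add]
  exact add_mem (h f).1 (h g).2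

variable {p}

/-- Eigenvectors of distinct characters are independent. -/
theorem eq_zero_of_sum_eigen {A : Type*} [CommRing A] {d : ℕ} (h : A →+* Matrix (Fin d) (Fin d) ℤ)
    {E : Type*} [Field E] {ι : Type*} (s : Finset ι) (θ : ι → A →+* E)
    (hθ : Function.Injective θ) (u : ι → Fin d → E) (hu : ∀ i, u i ∈ eigenspace h (θ i))
    (h0 : ∑ i ∈ s, u i = 0) : ∀ i ∈ s, u i = 0 := by
  classical
  induction s using Finset.induction_on generalizing u with
  | empty => simp
  | insert j s hj ih =>
    rw [Finset.sum_insert hj] at h0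
    have hrest : ∀ i ∈ s, u i = 0 := by
      intro i hi
      obtain ⟨a, ha⟩ : ∃ a, θ i a ≠ θ j a := by
        by_contra hall
        simp only [not_exists, not_not] at hall
        exact hj (hθ (RingHom.ext hall) ▸ hi)
      have hz : ∑ k ∈ s, (θ k a - θ j a) • u k = 0 := by
        have h1 := congrArg (fun v => (matIn h E a).mulVec v - θ j a • v) h0
        simp only [Matrix.mulVec_add, Matrix.mulVec_sum, (mem_eigenspace h _ _).mp (hu _) a,
          Matrix.mulVec_zero, smul_zero, sub_zero, smul_add, Finset.smul_sum] at h1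
        rw [add_sub_add_left_eq_sub, ← Finset.sum_sub_distrib] at h1
        simpa [sub_smul] using h1
      have := ih (fun k => (θ k a - θ j a) • u k)
        (fun k => Submodule.smul_mem _ _ (hu k)) hz i hi
      exact (smul_eq_zero.mp this).resolve_left (sub_ne_zero.mpr ha)
    intro i hi
    rcases Finset.mem_insert.mp hi with rfl | hi
    · rwa [Finset.sum_eq_zero hrest, add_zero] at h0
    · exact hrest i hi

/-- A family of independent vectors in each of distinct eigenspaces is independent. -/
theorem linearIndependent_planes {A : Type*} [CommRing A] {d : ℕ}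
    (h : A →+* Matrix (Fin d) (Fin d) ℤ) {E : Type*} [Field E] {ι κ : Type*} [Finite ι] [Finite κ]
    (θ : ι → A →+* E) (hθ : Function.Injective θ) (w : ι → κ → Fin d → E)
    (hw : ∀ i, LinearIndependent E (w i)) (hmem : ∀ i k, w i k ∈ eigenspace h (θ i)) :
    LinearIndependent E fun x : ι × κ => w x.1 x.2 := by
  classical
  have := Fintype.ofFinite ι
  have := Fintype.ofFinite κ
  rw [Fintype.linearIndependent_iff]
  intro c hc x
  rw [Fintype.sum_prod_type] at hc
  have h0 := eq_zero_of_sum_eigen h Finset.univ θ hθ (fun i => ∑ k, c (i, k) • w i k)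
    (fun i => Submodule.sum_mem _ fun k _ => Submodule.smul_mem _ _ (hmem i k)) hc x.1
    (Finset.mem_univ _)
  exact Fintype.linearIndependent_iff.mp (hw x.1) _ h0 x.2

variable (p)

set_option maxHeartbeats 800000 in
/-- Composition with an embedding of `ℚ̄` identifies the characters of the Hecke algebra. -/
theorem bijective_comp_qbar {E : Type} [Field E] [IsAlgClosed E]
    (κ : AlgebraicClosure ℚ →+* E) :
    Function.Bijective fun θ : FullHecke p →+* AlgebraicClosure ℚ => κ.comp θ := by
  refine ⟨fun a b h => RingHom.ext fun t => κ.injective (RingHom.congr_fun h t), fun θ => ?_⟩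
  have hmem : ∀ t, θ t ∈ κ.range := by
    intro t
    obtain ⟨q, hq, h0⟩ := (Algebra.IsIntegral.isIntegral (R := ℤ) t)
    set P : Polynomial (AlgebraicClosure ℚ) := q.map (Int.castRingHom _)
    have hP : P.Splits := IsAlgClosed.splits P
    have hroot : (P.map κ).IsRoot (θ t) := by
      rw [Polynomial.IsRoot.def, Polynomial.map_map, Polynomial.eval_map,
        RingHom.ext_int (κ.comp (Int.castRingHom (AlgebraicClosure ℚ)))
          (θ.comp (algebraMap ℤ (FullHecke p))), ← Polynomial.hom_eval₂, h0, map_zero]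
    exact hP.mem_range_of_isRoot (hq.map _).ne_zero hroot
  choose g hg using hmem
  let θ' : FullHecke p →+* AlgebraicClosure ℚ :=
    { toFun := g
      map_one' := κ.injective (by rw [hg 1, map_one, map_one])
      map_mul' := fun a b => κ.injective (by rw [hg (a * b), map_mul θ, map_mul κ, hg a, hg b])
      map_zero' := κ.injective (by rw [hg 0, map_zero, map_zero])
      map_add' := fun a b => κ.injective (by rw [hg (a + b), map_add θ, map_add κ, hg a, hg b]) }
  exact ⟨θ', RingHom.ext hg⟩

/-- The characters into `ℚ̄` are finite in number, half the rank of the lattice. -/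
theorem card_char : Finite (FullHecke p →+* AlgebraicClosure ℚ) ∧
    2 * Nat.card (FullHecke p →+* AlgebraicClosure ℚ) = 2 * Gamma0.genus p := by
  classical
  have : Algebra.IsAlgebraic ℚ (AlgebraicClosure ℚ) := AlgebraicClosure.isAlgebraic ℚ
  let κ : AlgebraicClosure ℚ →+* ℂ :=
    (IsAlgClosed.lift : AlgebraicClosure ℚ →ₐ[ℚ] ℂ).toRingHom
  let w : (FullHecke p →+* AlgebraicClosure ℚ) → Fin 2 → Fin (2 * Gamma0.genus p) → ℂ := fun θ j =>
    ((Module.finBasisOfFinrankEq ℂ _ (finrank_eigenspace_latticeMat (κ.comp θ)) j :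
      eigenspace (latticeMat p) (κ.comp θ)) : Fin (2 * Gamma0.genus p) → ℂ)
  have hw : ∀ θ, LinearIndependent ℂ (w θ) := fun θ =>
    (Module.finBasisOfFinrankEq ℂ _ (finrank_eigenspace_latticeMat (κ.comp θ))).linearIndependent.map'
      (Submodule.subtype _) (Submodule.ker_subtype _)
  have hfin : ∀ s : Finset (FullHecke p →+* AlgebraicClosure ℚ),
      2 * s.card ≤ 2 * Gamma0.genus p := fun s => by
    have hli := linearIndependent_planes (latticeMat p) (fun θ : s => κ.comp θ.1)
      (fun a b h => Subtype.ext ((bijective_comp_qbar p κ).1 h)) (fun θ j => w θ.1 j)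
      (fun θ => hw θ.1) fun θ j => SetLike.coe_mem _
    have := hli.fintype_card_le_finrank
    simpa [mul_comm] using this
  have : Finite (FullHecke p →+* AlgebraicClosure ℚ) := by
    by_contra hinf
    rw [not_finite_iff_infinite] at hinf
    obtain ⟨s, hs⟩ := Infinite.exists_subset_card_eq (FullHecke p →+* AlgebraicClosure ℚ)
      (Gamma0.genus p + 1)
    have := hfin s
    omega
  refine ⟨inferInstance, ?_⟩
  have := Fintype.ofFinite (FullHecke p →+* AlgebraicClosure ℚ)
  have hli := linearIndependent_planes (latticeMat p)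
    (fun θ : FullHecke p →+* AlgebraicClosure ℚ => κ.comp θ) (bijective_comp_qbar p κ).1 w hw
    fun θ j => SetLike.coe_mem _
  have hspan : Submodule.span ℂ (Set.range fun x : (FullHecke p →+* AlgebraicClosure ℚ) × Fin 2 =>
      w x.1 x.2) = ⊤ := by
    rw [eq_top_iff, ← iSup_eigenspace_complex p, iSup_le_iff]
    intro θ v hv
    obtain ⟨θ', rfl⟩ := (bijective_comp_qbar p κ).2 θ
    have hv' := (Module.finBasisOfFinrankEq ℂ _
      (finrank_eigenspace_latticeMat (κ.comp θ'))).sum_repr ⟨v, hv⟩
    rw [← show (_ : Fin (2 * Gamma0.genus p) → ℂ) = v from congrArg Subtype.val hv',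
      Submodule.coe_sum]
    exact Submodule.sum_mem _ fun j _ =>
      Submodule.smul_mem _ _ (Submodule.subset_span ⟨(θ', j), rfl⟩)
  have := finrank_span_eq_card hli
  rw [hspan, finrank_top, Module.finrank_fintype_fun_eq_card] at this
  rw [Nat.card_eq_fintype_card]
  simp [Fintype.card_prod] at this
  omega

/-- Eigenvectors on every plane give a basis, over every algebraically closed field. -/
theorem exists_planeBasis {E : Type} [Field E] [IsAlgClosed E] (κ : AlgebraicClosure ℚ →+* E)
    (w : (FullHecke p →+* AlgebraicClosure ℚ) → Fin 2 → Fin (2 * Gamma0.genus p) → E)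
    (hw : ∀ θ, LinearIndependent E (w θ))
    (hmem : ∀ θ j, w θ j ∈ eigenspace (latticeMat p) (κ.comp θ)) :
    ∃ (n : ℕ) (e : Fin n ≃ (FullHecke p →+* AlgebraicClosure ℚ))
      (b : Module.Basis (Fin n × Fin 2) E (Fin (2 * Gamma0.genus p) → E)),
      ∀ x, b x = w (e x.1) x.2 := by
  classical
  obtain ⟨hfin, hcard⟩ := card_char p
  have := Fintype.ofFinite (FullHecke p →+* AlgebraicClosure ℚ)
  set n := Fintype.card (FullHecke p →+* AlgebraicClosure ℚ)
  set e := (Fintype.equivFin (FullHecke p →+* AlgebraicClosure ℚ)).symm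
  have hli := linearIndependent_planes (latticeMat p) (fun i : Fin n => κ.comp (e i))
    ((bijective_comp_qbar p κ).1.comp e.injective) (fun i => w (e i)) (fun i => hw (e i))
    fun i j => hmem (e i) j
  have hd : Fintype.card (Fin n × Fin 2) =
      Module.finrank E (Fin (2 * Gamma0.genus p) → E) := by
    rw [Module.finrank_fintype_fun_eq_card, Fintype.card_prod, Fintype.card_fin, Fintype.card_fin,
      Fintype.card_fin, ← hcard, Nat.card_eq_fintype_card, mul_comm]
  refine ⟨n, e, Module.Basis.mk hli (hli.span_eq_top_of_card_eq_finrank' hd).ge, fun x => ?_⟩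
  rw [Module.Basis.mk_apply]

end Fermat.Agent.Mazur.Eisenstein

end
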