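import Fermat.Agent.GaloisReps.OfInjective
import Fermat.Agent.Mazur.Eisenstein.Assembly
import Fermat.Agent.Mazur.Eisenstein.Descent
import Fermat.Agent.Mazur.Eisenstein.DetChar
import Fermat.Agent.Mazur.Eisenstein.HeckeCommute
import Fermat.Agent.Mazur.Eisenstein.Inputs
import Fermat.Agent.Mazur.Eisenstein.LevelPrime
import Fermat.Prelude.Def_CuspForm_HeckeEvalForms

/-!
# The Eisenstein datum of `J₀(p)`

The Tate module of `J₀(p)` with its Galois and Hecke actions satisfies the hypotheses of the
Eisenstein descent, which gives the descent property.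
-/

set_option autoImplicit false
set_option linter.unusedSectionVars false
set_option linter.style.haveILetI false

noncomputable section

open AlgebraicCurve ModularCurve Matrix
open Fermat.Agent.GaloisReps
open scoped Pointwise

namespace Fermat.Agent.Mazur.Eisenstein

local notation "Qb" => AlgebraicClosure ℚ
local notation "GalQ" => (AlgebraicClosure ℚ ≃ₐ[ℚ] AlgebraicClosure ℚ)

section Generators

variable (N : ℕ) [NeZero N]

theorem heckeEvalForms_heckeGen_eq (q : Nat.Primes) :
    CuspForm.heckeEvalForms N 2 (heckeGen q) = HeckeDuality.heckeOp N 2 q q.2 := by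
  rw [CuspForm.heckeEvalForms_heckeGen]
  rfl

/-- The Hecke polynomial ring acting on the lattice. -/
def latMat : HeckeAlg →+* Matrix (Fin (2 * Gamma0.genus N)) (Fin (2 * Gamma0.genus N)) ℤ :=
  (latticeMat N).comp (CuspForm.heckeEvalForms N 2)

theorem latMat_heckeGen (q : Nat.Primes) : latMat N (heckeGen q) = opMat N q q.2 := by
  rw [latMat, RingHom.comp_apply, heckeEvalForms_heckeGen_eq, latticeMat_heckeOp]

end Generators

section Torsion

variable (N : ℕ) [NeZero N] (r : ℕ) [hr : Fact r.Prime]

/-- The coordinates on the `r`-power torsion of `J₀(N)`. -/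
def tateIso : TorsionIso N r := torsionIso N r (conjProperty N)

/-- The torsion point with the given coordinates. -/
def tatePoint (m : ℕ) : (Fin (2 * Gamma0.genus N) → ZMod (r ^ m)) →+ JZero N :=
  (JTors N r m).subtype.comp ((tateIso N r).psi m).symm.toAddMonoidHom

theorem tatePoint_psi (m : ℕ) (x : JTors N r m) :
    tatePoint N r m ((tateIso N r).psi m x) = x := by
  show (((tateIso N r).psi m).symm ((tateIso N r).psi m x) : JZero N) = x
  rw [AddEquiv.symm_apply_apply]

theorem tatePoint_injective (m : ℕ) : Function.Injective (tatePoint N r m) :=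
  Subtype.val_injective.comp ((tateIso N r).psi m).symm.injective

theorem mem_jTors {m : ℕ} {x : JZero N} (hx : r ^ m • x = 0) : x ∈ JTors N r m :=
  Pic0.mem_torsion.mpr (by rw [natCast_zsmul]; exact hx)

theorem pow_smul_jTors {m : ℕ} (x : JTors N r m) : r ^ m • (x : JZero N) = 0 := by
  have := Pic0.mem_torsion.mp x.2
  rwa [natCast_zsmul] at this

theorem exists_tatePoint_eq (m : ℕ) (x : JZero N) (hx : r ^ m • x = 0) :
    ∃ v, tatePoint N r m v = x :=
  ⟨(tateIso N r).psi m ⟨x, mem_jTors N r hx⟩, tatePoint_psi N r m _⟩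

theorem tatePoint_compat (m : ℕ) (v : Fin (2 * Gamma0.genus N) → ℤ_[r]) :
    r • tatePoint N r (m + 1) (redVec r _ (m + 1) v) = tatePoint N r m (redVec r _ m v) := by
  set z := ((tateIso N r).psi (m + 1)).symm (redVec r _ (m + 1) v) with hz
  have hmem : r • (z : JZero N) ∈ JTors N r m :=
    mem_jTors N r (by rw [← mul_nsmul', ← pow_succ]; exact pow_smul_jTors N r z)
  have key : (tateIso N r).psi m ⟨_, hmem⟩ = redVec r _ m v := by
    have h1 : (tateIso N r).psi m ⟨_, hmem⟩ =
        ⇑(ZMod.castHom (pow_dvd_pow r m.le_succ) (ZMod (r ^ m))) ∘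
          (tateIso N r).psi (m + 1) z := by
      rw [TorsionIso.psi_apply, TorsionIso.psi_apply,
        (tateIso N r).compat m z ⟨_, hmem⟩ rfl]
      rfl
    rw [h1, hz, AddEquiv.apply_symm_apply]
    funext i
    exact RingHom.congr_fun (GaloisReps.cast_castRingHom (p := r) m) (v i)
  rw [← key, tatePoint_psi]
  rfl

theorem tatePoint_gal (m : ℕ) (g : GalQ) (v : Fin (2 * Gamma0.genus N) → ℤ_[r]) :
    g • tatePoint N r m (redVec r _ m v) =
      tatePoint N r m (redVec r _ m ((tateIso N r).gal g *ᵥ v)) := by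
  set z := ((tateIso N r).psi m).symm (redVec r _ m v) with hz
  have e : redVec r _ m ((tateIso N r).gal g *ᵥ v) =
      ((tateIso N r).galLvl m g) *ᵥ redVec r _ m v := by
    funext i
    rw [← TorsionIso.map_gal]
    exact RingHom.map_mulVec (PadicInt.toZModPow m) _ _ i
  rw [e, show redVec r _ m v = (tateIso N r).psi m z from (AddEquiv.apply_symm_apply _ _).symm,
    TorsionIso.galLvl_mulVec, tatePoint_psi, tatePoint_psi]
  rfl

theorem tatePoint_hecke_gen (m : ℕ) (q : Nat.Primes) (v : Fin (2 * Gamma0.genus N) → ℤ_[r]) :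
    heckeOperatorBar N q (tatePoint N r m (redVec r _ m v)) =
      tatePoint N r m (redVec r _ m (intMat r (opMat N q q.2) *ᵥ v)) := by
  set z := ((tateIso N r).psi m).symm (redVec r _ m v) with hz
  have e : redVec r _ m (intMat r (opMat N q q.2) *ᵥ v) =
      ((opMat N q q.2).map (Int.castRingHom (ZMod (r ^ m)))) *ᵥ redVec r _ m v := by
    funext i
    rw [← GaloisReps.map_intCast_toZModPow (p := r)]
    exact RingHom.map_mulVec (PadicInt.toZModPow m) _ _ i
  rw [e, show redVec r _ m v = (tateIso N r).psi m z from (AddEquiv.apply_symm_apply _ _).symm,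
    ← TorsionIso.mat_heckeTors, TorsionIso.mat_mulVec, tatePoint_psi, tatePoint_psi]
  rfl

theorem tatePoint_hecke (hcomm : HeckeOperatorsCommuteBar N) (m : ℕ) (t : HeckeAlg) :
    letI := heckeModuleBar N
    ∀ v : Fin (2 * Gamma0.genus N) → ℤ_[r], t • tatePoint N r m (redVec r _ m v) =
      tatePoint N r m (redVec r _ m (intMat r (latMat N t) *ᵥ v)) := by
  letI := heckeModuleBar N
  induction t using MvPolynomial.induction_on with
  | C a =>
    intro v
    rw [heckeModuleBar_C_smul, show latMat N (MvPolynomial.C a) = (a : Matrix _ _ ℤ) from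
      map_intCast (latMat N) a, map_intCast, ← zsmul_one (R := Matrix _ _ ℤ_[r]),
      Matrix.smul_mulVec, Matrix.one_mulVec, map_zsmul, map_zsmul]
  | add f g hf hg =>
    intro v
    rw [add_smul, hf, hg, map_add (latMat N), map_add (intMat r), Matrix.add_mulVec,
      map_add (redVec r _ m), map_add (tatePoint N r m)]
  | mul_X f q hf =>
    intro v
    rw [mul_smul, show (MvPolynomial.X q : HeckeAlg) = heckeGen q from rfl,
      heckeModuleBar_heckeGen_smul hcomm, tatePoint_hecke_gen, hf, Matrix.mulVec_mulVec,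
      ← map_mul (intMat r), ← latMat_heckeGen, ← map_mul (latMat N)]

end Torsion

section Datum

variable {p : ℕ} [NeZero p] (hp : p.Prime) (h5 : 5 ≤ p) {r : ℕ} [hr : Fact r.Prime] (hrp : r ≠ p)
  (hinj : EichlerShimura.InjectiveOnTorsion p) (hord : OrderProperty p)
  (hsemi : SemistableProperty p p)

include hp in
theorem kappa_ne_zero {q : ℕ} (hq : q.Prime) (hqp : q ≠ p) {A : ValuationSubring Qb}
    (hA : A.LiesOverPrime q) : (p : EichlerShimura.Kappa A) ≠ 0 :=
  EichlerShimura.natCast_ne_zero hq (fun h => hqp ((Nat.prime_dvd_prime_iff_eq hq hp).mp h)) hA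

include hp in
theorem not_dvd_level {q : ℕ} (hq : q.Prime) (hqp : q ≠ p) : ¬ q ∣ p :=
  fun h => hqp ((Nat.prime_dvd_prime_iff_eq hq hp).mp h)

include hp h5 hrp hinj hord hsemi in
/-- The Eisenstein descent on `J₀(p)` at a system of eigenvalues with a fixed eigenclass. -/
theorem exists_descent_of_eigenclass (x : JZero p) (eps : HeckeAlg →+* ℤ) (hx0 : x ≠ 0)
    (hrx : r • x = 0) (heps : ∀ t : HeckeAlg, (letI := heckeModuleBar p; t • x) = eps t • x)
    (heq : ∀ (q : ℕ) (hq : q.Prime), q ≠ p → q ≠ r → eps (heckeGen ⟨q, hq⟩) = 1 + q) :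
    ∃ (C : ℕ) (t : HeckeAlg), (eps t : ZMod r) = 1 ∧
      ∀ y : JZero p, (∀ σ : GalQ, σ • y = y) → ∀ m : ℕ, ∃ z : JZero p,
        (∀ σ : GalQ, σ • z = z) ∧
          r ^ C • (letI := heckeModuleBar p; (t ^ r ^ m) • y) = r ^ m • z := by
  classical
  haveI := Fact.mk hp
  letI := heckeModuleBar p
  have hcomm : HeckeOperatorsCommuteBar p := heckeOperatorsCommuteBar p
  have hES : CongruenceProperty p r := congruenceProperty_of_injective hinj
  set E := tateIso p r with hE
  set DM := E.toModel (torsionGalois p r hES) with hDM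
  obtain ⟨κ, hκ⟩ := exists_planes DM
  choose w hwli hwmem hwdet using hκ
  obtain ⟨n, e, b, hb⟩ := exists_planeBasis p κ w hwli hwmem
  -- the eigenvector modulo `r`
  obtain ⟨v, hv⟩ := exists_tatePoint_eq p r 1 x (by rw [pow_one]; exact hrx)
  obtain ⟨z, rfl⟩ : ∃ z : Fin (2 * Gamma0.genus p) → ℤ, (fun i => (z i : ZMod (r ^ 1))) = v :=
    ⟨fun i => (ZMod.intCast_surjective (v i)).choose,
      funext fun i => (ZMod.intCast_surjective (v i)).choose_spec⟩
  have hred : redVec r _ 1 (fun i => (z i : ℤ_[r])) = fun i => (z i : ZMod (r ^ 1)) :=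
    funext fun i => map_intCast (PadicInt.toZModPow 1) (z i)
  have hdvd : ∀ (t : HeckeAlg) (i : Fin (2 * Gamma0.genus p)),
      (r : ℤ) ∣ (latMat p t *ᵥ z) i - eps t * z i := by
    intro t i
    have h1 := tatePoint_hecke p r hcomm 1 t (fun i => (z i : ℤ_[r]))
    rw [hred, hv, heps, ← hv, ← map_zsmul] at h1
    have h2 := congrFun (tatePoint_injective p r 1 h1) i
    have e1 : (intMat r (latMat p t) *ᵥ fun i => (z i : ℤ_[r])) =
        fun i => ((latMat p t *ᵥ z) i : ℤ_[r]) := by
      funext j
      exact (RingHom.map_mulVec (Int.castRingHom ℤ_[r]) _ _ j).symm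
    rw [e1] at h2
    have h3 : ((eps t * z i : ℤ) : ZMod (r ^ 1)) = ((latMat p t *ᵥ z) i : ℤ) := by
      rw [Int.cast_mul]
      refine Eq.trans ?_ (h2.trans (map_intCast (PadicInt.toZModPow 1) _))
      rw [Pi.smul_apply, zsmul_eq_mul]
    have := (ZMod.intCast_eq_intCast_iff_dvd_sub _ _ _).mp h3
    rwa [pow_one] at this
  have hisOpen : ∀ y : JZero p, ∃ H : Subgroup Arith.GQ, IsOpen (H : Set Arith.GQ) ∧
      ∀ h ∈ H, h • y = y := by
    intro y
    obtain ⟨L, hL, hfix⟩ := (MordellWeil.x0GalAct p).exists_field_fix y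
    exact ⟨L.fixingSubgroup, L.fixingSubgroup_isOpen, fun h hh =>
      hfix h fun q hq => (IntermediateField.mem_fixingSubgroup_iff L h).mp hh q hq⟩
  let D : EisensteinDatum p r (JZero p) HeckeAlg :=
    { prime := hp
      five_le := h5
      ne := hrp
      smul_comm := fun g t y => galois_smul_hecke g t y
      isOpen := hisOpen
      divisible := fun y => EichlerShimura.exists_nsmul_eq_JZero r hr.out.pos y
      d := 2 * Gamma0.genus p
      mat := latMat p
      gal := E.gal
      gal_mat := fun g t => DM.gal_comm g (CuspForm.heckeEvalForms p 2 t)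
      ι := tatePoint p r
      ι_injective := tatePoint_injective p r
      exists_ι_eq := exists_tatePoint_eq p r
      ι_compat := tatePoint_compat p r
      ι_mat := fun m t v => tatePoint_hecke p r hcomm m t v
      ι_gal := tatePoint_gal p r
      ker := fun A => kerRed p A
      inertia_sub_mem := fun q hq hqp A hA σ hσ y => by
        haveI := Fact.mk hq
        haveI := Arith.residueField_isAlgClosed A
        exact inertia_sub_mem_kerRed (kappa_ne_zero hp hq hqp hA) hσ y
      eq_zero_of_mem := fun q hq hqp A hA m y hm hmy hy =>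
        eq_zero_of_mem_kerRed hinj hq (not_dvd_level hp hq hqp) hA hm hmy hy
      smul_mem := fun q hq hqp A hA σ hσ y hy => by
        haveI := Fact.mk hq
        haveI := Arith.residueField_isAlgClosed A
        exact smul_mem_kerRed (kappa_ne_zero hp hq hqp hA) hσ hy
      hecke_mem := fun q hq hqp A hA t y hy => hecke_mem_kerRed t hy
      exists_bound := fun q hq hqp A hA => by
        haveI := Fact.mk hq
        haveI := Arith.residueField_isAlgClosed A
        exact exists_bound_kerRed (kappa_ne_zero hp hq hqp hA) hq hA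
      exists_order := fun A hA m => by
        obtain ⟨M, iM, iA, iF, i, O, hi, heq, hrange, hcong⟩ :=
          hord r hr.out (not_dvd_level hp hr.out hrp) A hA m
        exact ⟨M, iM, iA, iF, i, O, hi, heq, hrange,
          fun f hf y hy => hcong f hf y (reductionModL_eq_zero_of_mem hy)⟩
      semistable := fun A hA σ hσ m y hy => hsemi A hA σ hσ (r ^ m) y
        (fun h => hrp ((Nat.prime_dvd_prime_iff_eq hp hr.out).mp (hp.dvd_of_dvd_pow h)).symm) hy
      eps := eps
      v₁ := fun i => (z i : ZMod r)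
      v₁_ne := fun h => hx0 (by
        rw [← hv, ← map_zero (tatePoint p r 1)]
        refine congrArg _ (funext fun i => ?_)
        have := (ZMod.intCast_zmod_eq_zero_iff_dvd _ _).mp (congrFun h i)
        exact (ZMod.intCast_zmod_eq_zero_iff_dvd _ _).mpr (by rwa [pow_one]))
      mat_v₁ := fun t => funext fun i => by
        rw [Pi.smul_apply, smul_eq_mul]
        refine ((RingHom.map_mulVec (Int.castRingHom (ZMod r)) (latMat p t) z i).symm).trans ?_
        rw [← Int.cast_mul]
        exact ((ZMod.intCast_eq_intCast_iff_dvd_sub _ _ _).mpr (hdvd t i)).symm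
      eps_frobenius := fun q hq hqp hqr A hA σ hσ =>
        ⟨heckeGen ⟨q, hq⟩, heq q hq hqp hqr, by
          have hqN : ¬ q ∣ p * r := fun h => (hq.dvd_mul.mp h).elim (not_dvd_level hp hq hqp)
            (fun h => hqr ((Nat.prime_dvd_prime_iff_eq hq hr.out).mp h))
          have := DM.gal_frobenius q hq hqN A hA σ hσ
          rw [show intMat r (latMat p (heckeGen ⟨q, hq⟩)) =
            matIn DM.hecke ℤ_[r] (HeckeDuality.heckeOp p 2 q hq) from
              congrArg (fun M : Matrix (Fin (2 * Gamma0.genus p)) (Fin (2 * Gamma0.genus p)) ℤ =>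
                M.map (Int.castRingHom ℤ_[r]))
                ((latMat_heckeGen p ⟨q, hq⟩).trans (latticeMat_heckeOp q hq).symm)]
          exact_mod_cast this⟩
      n := n
      theta := fun i => (κ.comp (e i)).comp (CuspForm.heckeEvalForms p 2)
      theta_injective := fun i j h => e.injective ((bijective_comp_qbar p κ).1
        ((RingHom.cancel_right (HeckeDuality.heckeEvalForms_surjective p 2)).mp h))
      planeBasis := b
      mat_planeBasis := fun t x => by
        rw [hb]
        exact (mem_eigenspace (latticeMat p) _ _).mp (hwmem (e x.1) x.2) _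
      gal_planeBasis := fun g i => by
        obtain ⟨G, hG, hdet⟩ := hwdet (e i) g
        refine ⟨G, fun j => ?_, hdet⟩
        simp only [hb]
        exact hG j }
  obtain ⟨C, hC⟩ := D.exists_descent
  exact ⟨C, D.t₀, D.eps_t₀, hC⟩

include hp h5 hinj hord hsemi in
/-- The descent property of `J₀(p)`. -/
theorem descentProperty_of_inputs : DescentProperty p := by
  classical
  intro r hr c ε hc hεc hpos hrc hrp
  haveI := Fact.mk hr
  haveI := Fact.mk hp
  letI := heckeModuleBar p
  have hcomm : HeckeOperatorsCommuteBar p := heckeOperatorsCommuteBar p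
  obtain ⟨k, hk⟩ := hrc
  set x := k • c with hx
  have hrx : r • x = 0 := by rw [hx, ← mul_nsmul', ← hk, addOrderOf_nsmul_eq_zero]
  have hkpos : 0 < k := Nat.pos_of_ne_zero fun h0 => by rw [hk, h0, mul_zero] at hpos; omega
  have hx0 : x ≠ 0 := fun h => by
    have h1 := Nat.le_of_dvd hkpos (addOrderOf_dvd_of_nsmul_eq_zero h)
    rw [hk] at h1
    exact absurd h1 (not_le.mpr (lt_mul_of_one_lt_left hkpos hr.one_lt))
  have hxfix : ∀ σ : GalQ, σ • x = x := fun σ => by
    rw [hx, EichlerShimura.galois_smul_nsmul, hc]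
  have hεx : ∀ t : HeckeAlg, t • x = ε t • x := fun t => by
    rw [hx, smul_comm t k c, hεc, smul_comm]
  -- the Eisenstein congruence of `ε`
  have hcong : ∀ q : Nat.Primes, (q : ℕ) ≠ p → (q : ℕ) ≠ r →
      (r : ℤ) ∣ ε (heckeGen q) - (1 + q) := by
    intro q hqp hqr
    obtain ⟨A, hA⟩ := Arith.exists_liesOverPrime q.2
    obtain ⟨φ, hφ⟩ := Arith.exists_isFrobeniusAt hA q.2
    have hqN : ¬ (q : ℕ) ∣ p * r := fun h => (q.2.dvd_mul.mp h).elim (not_dvd_level hp q.2 hqp)
      (fun h => hqr ((Nat.prime_dvd_prime_iff_eq q.2 hr).mp h))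
    have h0 := ((congruenceProperty_of_injective (p := r) hinj) q q.2 hqN A hA 1
      ⟨x, mem_jTors p r (by rw [pow_one]; exact hrx)⟩).2 φ hφ
    simp only [hxfix] at h0
    have h2 : heckeOperatorBar p q x = ε (heckeGen q) • x :=
      (heckeModuleBar_heckeGen_smul hcomm q x).symm.trans (hεx _)
    have hord : addOrderOf x = r := addOrderOf_eq_prime hrx hx0
    rw [← hord, addOrderOf_dvd_iff_zsmul_eq_zero, sub_smul, add_smul, one_smul, natCast_zsmul]
    have h1 : x - heckeOperatorBar p q x + (q : ℕ) • x = 0 := h0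
    rw [h2] at h1
    linear_combination (norm := abel) -h1
  set eps : HeckeAlg →+* ℤ := (MvPolynomial.aeval fun q : Nat.Primes =>
    if (q : ℕ) = p ∨ (q : ℕ) = r then ε (heckeGen q) else 1 + (q : ℤ)).toRingHom with heps
  have hgen : ∀ q : Nat.Primes, eps (heckeGen q) =
      if (q : ℕ) = p ∨ (q : ℕ) = r then ε (heckeGen q) else 1 + (q : ℤ) := fun q =>
    MvPolynomial.aeval_X _ q
  have hmod : ∀ t, (eps t : ZMod r) = (ε t : ZMod r) := fun t => by
    refine RingHom.congr_fun (f := (Int.castRingHom (ZMod r)).comp eps)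
      (g := (Int.castRingHom (ZMod r)).comp ε) (MvPolynomial.ringHom_ext (fun a => ?_)
        fun q => ?_) t
    · exact RingHom.congr_fun (RingHom.ext_int
        (((Int.castRingHom (ZMod r)).comp eps).comp MvPolynomial.C)
        (((Int.castRingHom (ZMod r)).comp ε).comp MvPolynomial.C)) a
    · show (eps (heckeGen q) : ZMod r) = (ε (heckeGen q) : ZMod r)
      rw [hgen]
      split_ifs with h
      · rfl
      · exact (ZMod.intCast_eq_intCast_iff_dvd_sub _ _ _).mpr
          (hcong q (fun e => h (Or.inl e)) fun e => h (Or.inr e))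
  obtain ⟨C, t, ht, hC⟩ := exists_descent_of_eigenclass hp h5 hrp hinj hord hsemi x eps hx0 hrx
    (fun t => by
      rw [hεx]
      obtain ⟨a, ha⟩ := (ZMod.intCast_eq_intCast_iff_dvd_sub _ _ _).mp (hmod t)
      rw [show ε t = eps t + a * r by linear_combination ha]
      refine (add_zsmul x _ _).trans ?_
      rw [mul_zsmul, natCast_zsmul, hrx, zsmul_zero, add_zero])
    (fun q hq hqp hqr => (hgen ⟨q, hq⟩).trans (if_neg fun h => h.elim hqp hqr))
  refine ⟨C, t, ?_, hC⟩
  rw [← ZMod.intCast_zmod_eq_zero_iff_dvd, Int.cast_sub, Int.cast_one, ← hmod, ht, sub_self]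

end Datum

end Fermat.Agent.Mazur.Eisenstein

end
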