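import Fermat.Agent.Mazur.Eisenstein.Consequences
import Fermat.Agent.Mazur.Eisenstein.FixedTorsion
import Fermat.Agent.Mazur.Eisenstein.TateDatum
import Fermat.Agent.Semistable.Datum

/-!
# Mazur's lemmas from injectivity of reduction and the orders at good primes
-/

set_option autoImplicit false
set_option linter.style.haveILetI false

noncomputable section

open ModularCurve
open scoped WeierstrassCurve.Affine

namespace Fermat.Agent.Mazur.Eisenstein

variable {p : ℕ} [NeZero p] (hp : p.Prime) (hp' : p ∉ ({2, 3, 5, 7, 13} : Finset ℕ))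
  (hinj : EichlerShimura.InjectiveOnTorsion p) (hord : OrderProperty p)

include hp hp' hinj hord in
/-- The descent property from the two inputs at good primes. -/
theorem descentProperty : DescentProperty p :=
  descentProperty_of_inputs hp (five_le_of_not_mem hp hp') hinj hord
    (Semistable.semistableProperty hp dvd_rfl fun h => by
      have h1 := Nat.le_of_dvd hp.pos h
      have h2 : p < p ^ 2 := lt_self_pow₀ hp.one_lt (by norm_num)
      omega)

/-- The off-component form of Mazur's three-place lemma. -/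
theorem not_inZeroComponent_of_fixed [Fact p.Prime]
    (W : WeierstrassCurve ℤ) (hΔ : W.Δ ≠ 0)
    (T : ((W.map (Int.castRingHom ℚ))⁄(AlgebraicClosure ℚ)).Point) (hT : addOrderOf T = p)
    (hfix : ∀ σ : AlgebraicClosure ℚ ≃ₐ[ℚ] AlgebraicClosure ℚ, σ • T = T)
    (h2Δ : (2 : ℤ) ∣ W.Δ) (h2c₄ : ¬ (2 : ℤ) ∣ W.c₄)
    (h2 : ∀ A : ValuationSubring (AlgebraicClosure ℚ), A.LiesOverPrime 2 →
      ¬ W.InZeroComponentAt A T)
    (h3Δ : (3 : ℤ) ∣ W.Δ) (h3c₄ : ¬ (3 : ℤ) ∣ W.c₄)
    (h3 : ∀ A : ValuationSubring (AlgebraicClosure ℚ), A.LiesOverPrime 3 →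
      ¬ W.InZeroComponentAt A T)
    (hp' : p ∉ ({2, 3, 5, 7, 13} : Finset ℕ)) (hinj : EichlerShimura.InjectiveOnTorsion p)
    (hord : OrderProperty p) {l : ℕ} (hl : l.Prime) (hlp : l ≠ p) (hlΔ : (l : ℤ) ∣ W.Δ)
    (hlc₄ : ¬ (l : ℤ) ∣ W.c₄) (A : ValuationSubring (AlgebraicClosure ℚ))
    (hA : A.LiesOverPrime l) : ¬ W.InZeroComponentAt A T :=
  component_eq_out hp' hinj (descentProperty Fact.out hp' hinj hord)
    (fixedTorsionProperty p Fact.out hord) W hΔ T hT
    (fun σ => ⟨1, by rw [hfix, one_nsmul]⟩) h2Δ h2c₄ h3Δ h3c₄ hl hlp hlΔ hlc₄ h2 h3 A hA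

/-- The three-place lemma from the two inputs at every prime level. -/
theorem threePlaceLemma_of_inputs
    (hinj : ∀ (p : ℕ) [NeZero p], p.Prime → EichlerShimura.InjectiveOnTorsion p)
    (hord : ∀ (p : ℕ) [NeZero p], p.Prime → OrderProperty p) : Large.ThreePlaceLemma :=
  threePlaceLemma hinj (fun p _ hp hp' => descentProperty hp hp' (hinj p hp) (hord p hp))
    (fun p _ hp _ => fixedTorsionProperty p hp (hord p hp))

end Fermat.Agent.Mazur.Eisenstein

end
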