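import Mathlib.Data.Matrix.Basic
import Mathlib.NumberTheory.Basic
import Mathlib.RingTheory.Nilpotent.Basic
import Mathlib.Tactic.NoncommRing
import Mathlib.Topology.Algebra.Semigroup
import Fermat.Agent.Mazur.Eisenstein.Padic

/-!
# Idempotents of finite commutative rings and their `r`-adic lifts

The idempotent of the local factor at a point, and a lift to `ℤ_r`-matrices commuting with the
commutant.
-/

set_option autoImplicit false
set_option linter.unusedSectionVars false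
set_option linter.style.haveILetI false

noncomputable section

namespace Fermat.Agent.Mazur.Eisenstein

theorem exists_pow_isIdempotentElem {R : Type*} [Monoid R] [Finite R] (x : R) :
    ∃ k : ℕ, 0 < k ∧ IsIdempotentElem (x ^ k) := by
  let : TopologicalSpace R := ⊥
  have : DiscreteTopology R := ⟨rfl⟩
  obtain ⟨_, ⟨k, hk, rfl⟩, h⟩ := exists_idempotent_in_compact_subsemigroup
    (fun _ => continuous_of_discreteTopology) ((x ^ ·) '' Set.Ioi 0) (Set.nonempty_Ioi.image _)
    (Set.toFinite _).isCompact (fun _ ⟨a, ha, h⟩ _ ⟨b, _, h'⟩ =>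
      ⟨a + b, Nat.add_pos_left ha b, by rw [← h, ← h']; exact pow_add x a b⟩)
  exact ⟨k, hk, h⟩

/-- The idempotent of the factor of a finite commutative ring at a point. -/
theorem exists_idempotent_at {R : Type*} [CommRing R] [Finite R] {k : Type*} [Field k]
    (e : R →+* k) : ∃ i : R, IsIdempotentElem i ∧ e i = 1 ∧
      ∀ y : R, e y = 0 → IsNilpotent (y * i) := by
  classical
  haveI := Fintype.ofFinite R
  choose n hn0 hn using fun x : R => exists_pow_isIdempotentElem x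
  set S := (Finset.univ : Finset R).filter fun x => e x ≠ 0 with hS
  set i := ∏ x ∈ S, x ^ n x with hi
  have hidem : IsIdempotentElem i := by
    show i * i = i
    rw [hi, ← Finset.prod_mul_distrib]
    exact Finset.prod_congr rfl fun x _ => hn x
  refine ⟨i, hidem, ?_, fun y hy => ⟨n y, ?_⟩⟩
  · have hne : e i ≠ 0 := by
      rw [hi, map_prod]
      exact Finset.prod_ne_zero_iff.mpr fun x hx => by
        rw [map_pow]
        exact pow_ne_zero _ (Finset.mem_filter.mp hx).2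
    have h := congrArg e (show i * i = i from hidem)
    rw [map_mul] at h
    exact mul_left_cancel₀ hne (h.trans (mul_one _).symm)
  · set f := y ^ n y with hf
    have hf0 : e f = 0 := by rw [hf, map_pow, hy, zero_pow (hn0 y).ne']
    have hmem : 1 - f ∈ S := Finset.mem_filter.mpr
      ⟨Finset.mem_univ _, by rw [map_sub, map_one, hf0, sub_zero]; exact one_ne_zero⟩
    have hfi : f * i = 0 := by
      rw [hi, ← Finset.mul_prod_erase _ _ hmem, ← mul_assoc, (hn y).one_sub.pow_eq (hn0 _).ne',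
        (hn y).mul_one_sub_self, zero_mul]
    rw [mul_pow, (hidem).pow_eq (hn0 y).ne', hfi]

section Matrix

variable {d : ℕ} {r : ℕ} [Fact r.Prime]

/-- `X ≡ Y` modulo `r ^ n`, entrywise. -/
def MatModEq (n : ℕ) (X Y : Matrix (Fin d) (Fin d) ℤ_[r]) : Prop :=
  ∃ Z : Matrix (Fin d) (Fin d) ℤ_[r], X - Y = (r : ℤ_[r]) ^ n • Z

theorem MatModEq.mono {m n : ℕ} (h : m ≤ n) {X Y : Matrix (Fin d) (Fin d) ℤ_[r]}
    (hXY : MatModEq n X Y) : MatModEq m X Y := by
  obtain ⟨Z, hZ⟩ := hXY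
  obtain ⟨j, rfl⟩ := Nat.exists_eq_add_of_le h
  exact ⟨(r : ℤ_[r]) ^ j • Z, by rw [hZ, smul_smul, pow_add]⟩

theorem matModEq_of_map_eq {n : ℕ} {X Y : Matrix (Fin d) (Fin d) ℤ_[r]}
    (h : X.map (PadicInt.toZModPow n) = Y.map (PadicInt.toZModPow n)) : MatModEq n X Y := by
  have hd : ∀ i j, ∃ z, (X - Y) i j = (r : ℤ_[r]) ^ n * z := fun i j => by
    have h2 : PadicInt.toZModPow n ((X - Y) i j) = 0 := by
      have := congrFun (congrFun h i) j
      simp only [Matrix.map_apply] at this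
      simp [this]
    rw [← RingHom.mem_ker, PadicInt.ker_toZModPow, Ideal.mem_span_singleton] at h2
    exact h2
  choose Z hZ using hd
  exact ⟨Z, Matrix.ext fun i j => hZ i j⟩

open scoped IsMulCommutative in
/-- An idempotent modulo `r` lifts to an idempotent commuting with the commutant. -/
theorem exists_idempotent_lift {X : Matrix (Fin d) (Fin d) ℤ_[r]} (h : MatModEq 1 (X * X) X) :
    ∃ E : Matrix (Fin d) (Fin d) ℤ_[r], E * E = E ∧
      (∀ m : ℕ, MatModEq (m + 1) E (X ^ r ^ m)) ∧ ∀ Y, Y * X = X * Y → Y * E = E * Y := by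
  obtain ⟨Z, hZ⟩ := h
  have hXZ : X * Z = Z * X := smul_right_injective _
    (pow_ne_zero 1 (Nat.cast_ne_zero.mpr (Fact.out : r.Prime).ne_zero : (r : ℤ_[r]) ≠ 0)) (by
      beta_reduce; rw [← Matrix.mul_smul, ← Matrix.smul_mul, ← hZ]; noncomm_ring)
  have := Algebra.isMulCommutative_adjoin ℤ_[r] (s := {X, Z}) (by simp [hXZ])
  let x : Algebra.adjoin ℤ_[r] {X, Z} := ⟨X, Algebra.subset_adjoin (by simp)⟩
  let z : Algebra.adjoin ℤ_[r] {X, Z} := ⟨Z, Algebra.subset_adjoin (by simp)⟩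
  have hb : (r : Algebra.adjoin ℤ_[r] {X, Z}) ∣ x ^ 2 - x :=
    ⟨z, Subtype.ext (by simpa [x, z, pow_two, Algebra.smul_def] using hZ)⟩
  have hval : ∀ {n : ℕ} {u v}, (r : Algebra.adjoin ℤ_[r] {X, Z}) ^ n ∣ u - v →
      MatModEq n u.1 v.1 := fun {n u v} ⟨w, hw⟩ => ⟨w, by
    simpa [Algebra.smul_def] using congrArg Subtype.val hw⟩
  have hsq : ∀ m, (r : Algebra.adjoin ℤ_[r] {X, Z}) ^ (m + 1) ∣ (x ^ r ^ m) ^ 2 - x ^ r ^ m :=
    fun m => by rw [← pow_mul, mul_comm, pow_mul]; exact dvd_sub_pow_of_dvd_sub hb m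
  have hcomp : ∀ m n, m ≤ n → MatModEq (m + 1) (X ^ r ^ n) (X ^ r ^ m) := fun m n hmn => by
    obtain ⟨j, hj⟩ : ∃ j, r ^ n = r ^ m * (j + 1) := ⟨r ^ (n - m) - 1, by
      rw [Nat.sub_add_cancel (Nat.one_le_pow _ _ (Fact.out : r.Prime).pos), ← pow_add,
        Nat.add_sub_cancel' hmn]⟩
    refine hval (u := x ^ r ^ n) (v := x ^ r ^ m) ((hsq m).trans ?_)
    rw [hj, pow_mul]
    generalize x ^ r ^ m = b
    rw [show b ^ 2 - b = b * (b - 1) by ring, show b ^ (j + 1) - b = b * (b ^ j - 1) by ring]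
    exact mul_dvd_mul_left _ (sub_one_dvd_pow_sub_one _ _)
  choose E hE using fun i j => IsPrecomplete.prec' (I := IsLocalRing.maximalIdeal ℤ_[r])
      (M := ℤ_[r]) (fun n => (X ^ r ^ n) i j) (fun {m n} hmn => by
        obtain ⟨W, hW⟩ := (hcomp m n hmn).mono (Nat.le_succ m)
        rw [SModEq.sub_mem, smul_eq_mul, Ideal.mul_top, PadicInt.maximalIdeal_eq_span_p,
          Ideal.span_singleton_pow, Ideal.mem_span_singleton]
        exact dvd_sub_comm.mp ⟨W i j, congrFun (congrFun hW i) j⟩)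
  have hEX : ∀ m, MatModEq (m + 1) (Matrix.of E) (X ^ r ^ m) := fun m => by
    obtain ⟨W, hW⟩ := hcomp m (m + 1) m.le_succ
    have hd := fun i j => hE i j (m + 1)
    simp only [SModEq.sub_mem, smul_eq_mul, Ideal.mul_top, PadicInt.maximalIdeal_eq_span_p,
      Ideal.span_singleton_pow, Ideal.mem_span_singleton] at hd
    choose V hV using hd
    refine ⟨W - Matrix.of V, ?_⟩
    rw [smul_sub, ← hW, ← show X ^ r ^ (m + 1) - Matrix.of E = (r : ℤ_[r]) ^ (m + 1) • Matrix.of V
      from Matrix.ext hV]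
    abel
  have hzero : ∀ V : Matrix (Fin d) (Fin d) ℤ_[r], (∀ m : ℕ, MatModEq (m + 1) V 0) → V = 0 :=
    fun V hV => (Submodule.mem_bot _).mp (mem_of_forall_mem_sup ⊥ fun m => by
      obtain ⟨W, hW⟩ := (hV m).mono (Nat.le_succ m)
      exact ⟨W, by rw [Submodule.mem_bot, ← hW, sub_zero, sub_self]⟩)
  refine ⟨Matrix.of E, sub_eq_zero.mp (hzero _ fun m => ?_), hEX,
    fun Y hY => sub_eq_zero.mp (hzero _ fun m => ?_)⟩ <;> obtain ⟨V, hV⟩ := hEX m
  · obtain ⟨W, hW⟩ := hval (hsq m)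
    refine ⟨V * Matrix.of E + X ^ r ^ m * V + W - V, ?_⟩
    rw [sub_zero, smul_sub, smul_add, smul_add, ← Matrix.smul_mul, ← Matrix.mul_smul, ← hV, ← hW,
      sub_mul, mul_sub]
    simp [x, pow_two]
  · refine ⟨Y * V - V * Y, ?_⟩
    rw [sub_zero, smul_sub, ← Matrix.mul_smul, ← Matrix.smul_mul, ← hV, mul_sub, sub_mul,
      (show Commute Y X from hY).pow_right (r ^ m)]
    abel

end Matrix

end Fermat.Agent.Mazur.Eisenstein
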