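import Mathlib.GroupTheory.PGroup
import Mathlib.Algebra.CharP.Lemmas
import Mathlib.Algebra.Module.Injective
import Mathlib.Algebra.Module.ZMod
import Mathlib.GroupTheory.GroupAction.Hom
import Mathlib.RingTheory.IntegralDomain
import Mathlib.Algebra.Field.ZMod
import Fermat.Agent.Mazur.Eisenstein.DescentCore

/-!
# Stable lines in admissible modules

A finite module on which every `(g - 1)(g - χ g)` is nilpotent has a stable line with character
`1` or `χ`.
-/

set_option autoImplicit false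

noncomputable section

namespace Fermat.Agent.Mazur.Eisenstein

universe u

variable {G : Type*} [Group G]

/-- The operator `(g - 1)(g - c)`. -/
def pieceOp (B : Type*) [AddCommGroup B] [DistribMulAction G B] (g : G) (c : ℤ) : B →+ B where
  toFun b := g • (g • b) - g • b - c • (g • b) + c • b
  map_zero' := by simp
  map_add' a b := by simp only [smul_add]; abel

/-- Admissibility: `(g - 1)(g - χ g)` is nilpotent on `B` and `B` is killed by a power of `r`. -/
structure IsAdmissible (B : Type*) [AddCommGroup B] [DistribMulAction G B] (r : ℕ)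
    (χ : G →* (ZMod r)ˣ) : Prop where
  rPow : ∀ b : B, ∃ k : ℕ, r ^ k • b = 0
  nilp : ∀ (g : G) (b : B), ∃ n : ℕ, (⇑(pieceOp B g ((χ g : ZMod r).val : ℤ)))^[n] b = 0

theorem pieceOp_map {A B : Type*} [AddCommGroup A] [DistribMulAction G A] [AddCommGroup B]
    [DistribMulAction G B] (f : A →+ B) (hf : ∀ (g : G) a, f (g • a) = g • f a) (g : G) (c : ℤ)
    (n : ℕ) (a : A) : f ((⇑(pieceOp A g c))^[n] a) = (⇑(pieceOp B g c))^[n] (f a) :=
  Function.Semiconj.iterate_right (f := f) (fun x => by simp [pieceOp, hf]) n a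

theorem IsAdmissible.of_injective {A B : Type*} [AddCommGroup A] [DistribMulAction G A]
    [AddCommGroup B] [DistribMulAction G B] {r : ℕ} {χ : G →* (ZMod r)ˣ} (h : IsAdmissible B r χ)
    (f : A →+ B) (hinj : Function.Injective f) (hf : ∀ (g : G) a, f (g • a) = g • f a) :
    IsAdmissible A r χ where
  rPow a := (h.rPow (f a)).imp fun k hk => hinj (by rw [map_nsmul, hk, map_zero])
  nilp g a := (h.nilp g (f a)).imp fun n hn => hinj (by rw [pieceOp_map f hf, hn, map_zero])

theorem IsAdmissible.of_surjective {B C : Type*} [AddCommGroup B] [DistribMulAction G B]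
    [AddCommGroup C] [DistribMulAction G C] {r : ℕ} {χ : G →* (ZMod r)ˣ} (h : IsAdmissible B r χ)
    (f : B →+ C) (hsurj : Function.Surjective f) (hf : ∀ (g : G) b, f (g • b) = g • f b) :
    IsAdmissible C r χ where
  rPow c := by
    obtain ⟨b, rfl⟩ := hsurj c
    exact (h.rPow b).imp fun k hk => by rw [← map_nsmul, hk, map_zero]
  nilp g c := by
    obtain ⟨b, rfl⟩ := hsurj c
    exact (h.nilp g b).imp fun n hn => by rw [← pieceOp_map f hf, hn, map_zero]

/-- The action on a stable subgroup. -/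
@[implicit_reducible]
def subAction {B : Type*} [AddCommGroup B] [DistribMulAction G B] (A : AddSubgroup B)
    (hA : ∀ (g : G), ∀ a ∈ A, g • a ∈ A) : DistribMulAction G A where
  smul g a := ⟨g • (a : B), hA g a a.2⟩
  one_smul a := Subtype.ext (one_smul G (a : B))
  mul_smul g h a := Subtype.ext (mul_smul g h (a : B))
  smul_zero g := Subtype.ext (smul_zero g)
  smul_add g a b := Subtype.ext (smul_add g (a : B) b)

/-- A stable line. -/
theorem exists_stable_line {r : ℕ} [Fact r.Prime] (χ : G →* (ZMod r)ˣ) (B : Type*)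
    [AddCommGroup B] [DistribMulAction G B] [Finite B] [Nontrivial B]
    (hB : IsAdmissible B r χ) :
    ∃ A : AddSubgroup B, Nat.card A = r ∧ (∀ (g : G), ∀ a ∈ A, g • a ∈ A) ∧
      ((∀ (g : G), ∀ a ∈ A, g • a = a) ∨ ∀ (g : G), ∀ a ∈ A, g • a = (χ g : ZMod r).val • a) := by
  classical
  have hr : r.Prime := Fact.out
  -- the `r`-torsion
  set T : AddSubgroup B := (nsmulAddMonoidHom r : B →+ B).ker with hT
  have hTs : ∀ (g : G), ∀ b ∈ T, g • b ∈ T := fun g b hb => by
    change r • (g • b) = 0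
    rw [smul_comm, show r • b = 0 from hb, smul_zero]
  let := subAction T hTs
  have hrT : ∀ v : T, r • v = 0 := fun v => Subtype.ext v.2
  obtain ⟨v₁, hv₁⟩ : ∃ v : T, v ≠ 0 := by
    obtain ⟨b, hb⟩ := exists_ne (0 : B)
    obtain ⟨k, hk⟩ := hB.rPow b
    induction k generalizing b with
    | zero => simp [hb] at hk
    | succ k ih =>
      by_cases h : r • b = 0
      · exact ⟨⟨b, h⟩, fun h0 => hb (congrArg Subtype.val h0)⟩
      · exact ih _ h (by rw [← mul_smul, ← pow_succ]; exact hk)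
  have hnil := (hB.of_injective T.subtype Subtype.val_injective fun _ _ => rfl).nilp
  have := Fintype.ofFinite T
  have hmod : ∀ (v : T) {m n : ℕ}, (m : ZMod r) = n → m • v = n • v := fun v m n hmn => by
    rw [ZMod.natCast_eq_natCast_iff'] at hmn
    rw [← Nat.mod_add_div m r, ← Nat.mod_add_div n r, hmn]
    simp [add_smul, mul_smul, hrT]
  -- the kernel of `χ` acts through an `r`-group, so has a nonzero fixed vector
  set ρ : G →* AddMonoid.End T := DistribMulAction.toAddMonoidEnd G T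
  have hpgroup : ∀ g, χ g = 1 → ∃ k : ℕ, ∀ v : T, g ^ r ^ k • v = v := by
    intro g hg
    have hop : ((⇑((ρ g - 1) ^ 2 : AddMonoid.End T)) : T → T) = ⇑(pieceOp T g ((χ g : ZMod r).val : ℤ)) := funext fun v => by
      show g • (g • v - v) - (g • v - v) = _
      simp [pieceOp, hg, ZMod.val_one, smul_sub]
      abel
    choose n hn using hnil g
    set N := Finset.univ.sup n
    refine ⟨2 * N, fun v => ?_⟩
    obtain ⟨s, hs⟩ := Commute.exists_add_pow_prime_pow_eq (x := ρ g - 1) (y := 1) hr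
      (Commute.one_right _) (2 * N)
    rw [sub_add_cancel, ← map_pow, one_pow, mul_one] at hs
    have h0 : ((ρ g - 1) ^ r ^ (2 * N)) v = 0 := by
      have hle : 2 * n v ≤ r ^ (2 * N) := (Nat.mul_le_mul_left 2 (Finset.le_sup (Finset.mem_univ v)))
        |>.trans (Nat.lt_pow_self hr.one_lt).le
      rw [← Nat.sub_add_cancel hle, pow_add _ _ (2 * n v), pow_mul _ 2 (n v)]
      show ((ρ g - 1 : AddMonoid.End T) ^ (r ^ (2 * N) - 2 * n v))
        ((((ρ g - 1 : AddMonoid.End T) ^ 2) ^ n v : AddMonoid.End T) v) = 0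
      rw [show ((((ρ g - 1 : AddMonoid.End T) ^ 2) ^ n v : AddMonoid.End T) : T → T) =
        (⇑((ρ g - 1 : AddMonoid.End T) ^ 2))^[n v] from AddMonoid.End.coe_pow _ _ _, hop, hn, map_zero]
    calc g ^ r ^ (2 * N) • v = ρ (g ^ r ^ (2 * N)) v := rfl
      _ = v := by
        rw [hs]
        show ((ρ g - 1) ^ r ^ (2 * N)) v + v + r • ((ρ g - 1) (s v)) = v
        rw [h0, hrT, zero_add, add_zero]
  set P := χ.ker.map (MulAction.toPermHom G T)
  have hPp : IsPGroup r P := by
    rintro ⟨_, g, hg, rfl⟩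
    obtain ⟨k, hk⟩ := hpgroup g (MonoidHom.mem_ker.mp hg)
    exact ⟨k, Subtype.ext (Equiv.ext fun v => by
      rw [SubmonoidClass.coe_pow, ← map_pow]; exact hk v)⟩
  obtain ⟨w, hw, hw0⟩ := hPp.exists_fixed_point_of_prime_dvd_card_of_fixed_point T
    ((addOrderOf_eq_prime (hrT v₁) hv₁).symm.dvd.trans (addOrderOf_dvd_natCard v₁))
    (a := (0 : T)) (by rintro ⟨_, g, -, rfl⟩; exact smul_zero g)
  -- `χ.range` is cyclic: one operator remains
  have : IsCyclic χ.range := isCyclic_subgroup_units _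
  obtain ⟨⟨_, g₀, rfl⟩, hgen⟩ := IsCyclic.exists_monoid_generator (α := χ.range)
  set c := (χ g₀ : ZMod r).val
  obtain ⟨u, hu0, hu, hopu⟩ : ∃ u : T, u ≠ 0 ∧ (∀ k, χ k = 1 → k • u = u) ∧
      pieceOp T g₀ (c : ℤ) u = 0 := by
    obtain ⟨n, hn⟩ := hnil g₀ w
    have hex : ∃ n, (⇑(pieceOp T g₀ (c : ℤ)))^[n] w = 0 := ⟨n, hn⟩
    have hfix : ∀ k, χ k = 1 → ∀ n, k • (⇑(pieceOp T g₀ (c : ℤ)))^[n] w
        = (⇑(pieceOp T g₀ (c : ℤ)))^[n] w := by
      intro k hk n
      induction n generalizing k with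
      | zero => exact hw ⟨_, k, hk, rfl⟩
      | succ n ih =>
        have hg : ∀ (k : G) (v : T), (∀ l, χ l = 1 → l • v = v) → χ k = 1 →
            k • g₀ • v = g₀ • v := fun k v hv hk => by
          have := congrArg (g₀ • ·) (hv (g₀⁻¹ * k * g₀) (by simp [hk]))
          simpa [mul_smul] using this
        rw [Function.iterate_succ_apply']
        generalize hv : (⇑(pieceOp T g₀ (c : ℤ)))^[n] w = v at ih ⊢
        show k • (g₀ • g₀ • v - g₀ • v - (c : ℤ) • g₀ • v + (c : ℤ) • v) = _
        simp only [smul_add, smul_sub, smul_comm k (c : ℤ), hg k v ih hk,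
          hg k (g₀ • v) (fun l hl => hg l v ih hl) hk, ih k hk]
        rfl
    obtain ⟨m, hm⟩ := Nat.exists_eq_succ_of_ne_zero (n := Nat.find hex) fun h => hw0 <| by
      have := Nat.find_spec hex
      rw [h] at this
      exact this.symm
    refine ⟨_, Nat.find_min hex (by omega), fun k hk => hfix k hk m, ?_⟩
    rw [← Function.iterate_succ_apply' (f := pieceOp T g₀ (c : ℤ)), ← hm]
    exact Nat.find_spec hex
  -- an eigenvector
  obtain ⟨v₀, hv₀, hev⟩ : ∃ v : T, v ≠ 0 ∧
      ((∀ g : G, g • v = v) ∨ ∀ g : G, g • v = (χ g : ZMod r).val • v) := by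
    have hpow : ∀ g, ∃ (i : ℕ) (k : G), χ k = 1 ∧ g = g₀ ^ i * k ∧ χ g = χ g₀ ^ i := by
      intro g
      obtain ⟨i, hi⟩ := Submonoid.mem_powers_iff _ _ |>.mp (hgen ⟨χ g, g, rfl⟩)
      have hi' : χ g₀ ^ i = χ g := congrArg Subtype.val hi
      exact ⟨i, (g₀ ^ i)⁻¹ * g, by simp [hi'], by group, hi'.symm⟩
    by_cases h : g₀ • u = c • u
    · refine ⟨u, hu0, Or.inr fun g => ?_⟩
      obtain ⟨i, k, hk, rfl, hi⟩ := hpow g
      rw [mul_smul, hu k hk]
      have : ∀ i : ℕ, g₀ ^ i • u = c ^ i • u := fun i => by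
        induction i with
        | zero => simp
        | succ i ih => rw [pow_succ', mul_smul, ih, smul_comm, h, ← mul_smul, pow_succ]
      rw [this i, hi]
      exact hmod u (by simp [c])
    · refine ⟨g₀ • u - c • u, sub_ne_zero.mpr h, Or.inl fun g => ?_⟩
      obtain ⟨i, k, hk, rfl, -⟩ := hpow g
      have h1 : g₀ • (g₀ • u - c • u) = g₀ • u - c • u := by
        have h2 : g₀ • g₀ • u - g₀ • u - (c : ℤ) • g₀ • u + (c : ℤ) • u = 0 := hopu
        rw [smul_sub, smul_comm g₀ c, ← sub_eq_zero, ← h2, natCast_zsmul, natCast_zsmul]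
        abel
      have h3 : k • (g₀ • u - c • u) = g₀ • u - c • u := by
        have := congrArg (g₀ • ·) (hu (g₀⁻¹ * k * g₀) (by simp [hk]))
        rw [smul_sub, smul_comm k c, hu k hk, show k • g₀ • u = g₀ • u by simpa [mul_smul] using this]
      rw [mul_smul, h3]
      induction i with
      | zero => simp
      | succ i ih => rw [pow_succ, mul_smul, h1, ih]
  refine ⟨AddSubgroup.zmultiples (v₀ : B), ?_, ?_, ?_⟩
  · rw [Nat.card_zmultiples, addOrderOf_eq_prime v₀.2 fun h => hv₀ (Subtype.ext h)]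
  · rintro g _ ⟨n, rfl⟩
    show g • (n • (v₀ : B)) ∈ _
    rw [smul_comm]
    refine zsmul_mem ?_ n
    rcases hev with h | h <;> rw [show g • (v₀ : B) = _ from congrArg Subtype.val (h g)]
    · exact AddSubgroup.mem_zmultiples _
    · exact AddSubgroup.nsmul_mem_zmultiples _ _
  · refine hev.imp (fun h => ?_) (fun h => ?_) <;> rintro g _ ⟨n, rfl⟩ <;>
      show g • (n • (v₀ : B)) = _
    · rw [smul_comm g, show g • (v₀ : B) = v₀ from congrArg Subtype.val (h g)]
    · rw [smul_comm g, show g • (v₀ : B) = (χ g : ZMod r).val • (v₀ : B) from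
        congrArg Subtype.val (h g), smul_comm]

end Fermat.Agent.Mazur.Eisenstein
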